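/-
Item 62 (Lib/EllFinite), package PAR, part 1 (helper80): the three quadratic forms governing
`x(P+Q) + x(P-Q)` and `x(P+Q) x(P-Q)`, the integral certificate `Δ t⁴ ∈ (G₁, G₂, G₃)`
(valid in every characteristic), and its consequences:
* no common zero over a field (`forms_eq_zero`),
* coprimality is preserved (`span_forms_eq_top`),
* top degree is exactly doubled (`exists_coeff_forms_ne_zero`).

With `(t : u : v) = (Z₁Z₂ : X₁Z₂ + X₂Z₁ : X₁X₂)` one has
`(Z₃Z₄ : X₃Z₄ + X₄Z₃ : X₃X₄) = (G₁ : G₂ : G₃)(t, u, v)` for `x₃ = x(P+Q)`, `x₄ = x(P-Q)`.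
-/
import Mathlib.AlgebraicGeometry.EllipticCurve.Weierstrass
import Mathlib.Algebra.Polynomial.Degree.Lemmas
import Mathlib.RingTheory.Ideal.Maximal
import Mathlib.RingTheory.Ideal.Span

set_option autoImplicit false

namespace Fermat.Agent.Lib.EllFinite.H80

open Polynomial

section forms

variable {A : Type*} [CommRing A] (W : WeierstrassCurve A)

/-- `G₁ = u² - 4tv`, the form giving `(x₁ - x₂)²`. -/
def G1 (t u v : A) : A := u ^ 2 - 4 * t * v

/-- `G₂`, the form giving `(x₁ - x₂)² (x₃ + x₄)`. -/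
def G2 (t u v : A) : A := 2 * u * v + W.b₂ * t * v + W.b₄ * t * u + W.b₆ * t ^ 2

/-- `G₃`, the form giving `(x₁ - x₂)² x₃ x₄`. -/
def G3 (t u v : A) : A := v ^ 2 - W.b₄ * t * v - W.b₆ * t * u - W.b₈ * t ^ 2

/-- The integral certificate: `Δ t⁴` lies in the ideal generated by the three forms. -/
lemma delta_mul_pow_four (t u v : A) :
    W.Δ * t ^ 4 =
      (-7 * t ^ 2 * W.b₂ * W.b₆ + 8 * t ^ 2 * W.b₄ ^ 2 - 12 * t * u * W.b₆ - 8 * t * v * W.b₄)
          * G1 t u v
        + (t ^ 2 * W.b₂ * W.b₄ - 27 * t ^ 2 * W.b₆ - 5 * t * u * W.b₄ - t * v * W.b₂ + 6 * u * v)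
          * G2 W t u v
        + (t ^ 2 * W.b₂ ^ 2 - 32 * t ^ 2 * W.b₄ - 4 * t * u * W.b₂ - 12 * u ^ 2) * G3 W t u v := by
  simp only [G1, G2, G3, WeierstrassCurve.Δ]
  linear_combination (-8 * t ^ 4 * W.b₄ - t ^ 3 * u * W.b₂ - 3 * t ^ 2 * u ^ 2) * W.b_relation

lemma sq_eq_G1_add (t u v : A) : u ^ 2 = G1 t u v + 4 * t * v := by
  simp only [G1]; ring

lemma sq_eq_G3_add (t u v : A) :
    v ^ 2 = G3 W t u v + (W.b₄ * v + W.b₆ * u + W.b₈ * t) * t := by
  simp only [G3]; ring

/-- The forms commute with ring homomorphisms. -/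
lemma map_G1 {B : Type*} [CommRing B] (f : A →+* B) (t u v : A) :
    f (G1 t u v) = G1 (f t) (f u) (f v) := by
  simp only [G1, map_sub, map_mul, map_pow, map_ofNat]

lemma map_G2 {B : Type*} [CommRing B] (f : A →+* B) (t u v : A) :
    f (G2 W t u v) = G2 (W.map f) (f t) (f u) (f v) := by
  simp only [G2, map_add, map_mul, map_pow, map_ofNat, WeierstrassCurve.map_b₂,
    WeierstrassCurve.map_b₄, WeierstrassCurve.map_b₆]

lemma map_G3 {B : Type*} [CommRing B] (f : A →+* B) (t u v : A) :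
    f (G3 W t u v) = G3 (W.map f) (f t) (f u) (f v) := by
  simp only [G3, map_sub, map_mul, map_pow, WeierstrassCurve.map_b₄,
    WeierstrassCurve.map_b₆, WeierstrassCurve.map_b₈]

/-- If a prime ideal contains the three forms and `Δ` is a unit, it contains `t, u, v`. -/
lemma mem_of_forms_mem (hΔ : IsUnit W.Δ) {P : Ideal A} [P.IsPrime] {t u v : A}
    (h1 : G1 t u v ∈ P) (h2 : G2 W t u v ∈ P) (h3 : G3 W t u v ∈ P) :
    t ∈ P ∧ u ∈ P ∧ v ∈ P := by
  have ht4 : W.Δ * t ^ 4 ∈ P := by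
    rw [delta_mul_pow_four W t u v]
    exact P.add_mem (P.add_mem (P.mul_mem_left _ h1) (P.mul_mem_left _ h2)) (P.mul_mem_left _ h3)
  have ht : t ∈ P := by
    obtain ⟨d, hd⟩ := hΔ
    have : t ^ 4 ∈ P := by
      have := P.mul_mem_left (↑d⁻¹ : A) ht4
      rwa [← hd, ← mul_assoc, Units.inv_mul, one_mul] at this
    exact Ideal.IsPrime.mem_of_pow_mem inferInstance 4 this
  have hu : u ∈ P := by
    have : u ^ 2 ∈ P := by
      rw [sq_eq_G1_add t u v]
      exact P.add_mem h1 (by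
        have := P.mul_mem_left (4 * v) ht
        convert this using 1; ring)
    exact Ideal.IsPrime.mem_of_pow_mem inferInstance 2 this
  have hv : v ∈ P := by
    have : v ^ 2 ∈ P := by
      rw [sq_eq_G3_add W t u v]
      exact P.add_mem h3 (P.mul_mem_left _ ht)
    exact Ideal.IsPrime.mem_of_pow_mem inferInstance 2 this
  exact ⟨ht, hu, hv⟩

/-- **Coprimality is preserved**: if `(t, u, v)` generate the unit ideal and `Δ` is a unit, then so
do `(G₁, G₂, G₃)(t, u, v)`. -/
theorem span_forms_eq_top (hΔ : IsUnit W.Δ) {t u v : A}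
    (h : Ideal.span {t, u, v} = ⊤) :
    Ideal.span {G1 t u v, G2 W t u v, G3 W t u v} = ⊤ := by
  by_contra hne
  obtain ⟨M, hM, hle⟩ := Ideal.exists_le_maximal _ hne
  have := hM.isPrime
  have m1 : G1 t u v ∈ M := hle (Ideal.subset_span (by simp))
  have m2 : G2 W t u v ∈ M := hle (Ideal.subset_span (by simp))
  have m3 : G3 W t u v ∈ M := hle (Ideal.subset_span (by simp))
  obtain ⟨ht, hu, hv⟩ := mem_of_forms_mem W hΔ m1 m2 m3
  have : Ideal.span {t, u, v} ≤ M := by
    rw [Ideal.span_le]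
    intro x hx
    simp only [Set.mem_insert_iff, Set.mem_singleton_iff] at hx
    rcases hx with rfl | rfl | rfl <;> assumption
  rw [h] at this
  exact hM.ne_top (top_le_iff.mp this)

end forms

section field

variable {K : Type*} [Field K] (W : WeierstrassCurve K)

/-- **No common zero**: over a field with `Δ ≠ 0`, the three forms vanish simultaneously only at
`(0, 0, 0)`. -/
theorem forms_eq_zero (hΔ : W.Δ ≠ 0) {t u v : K}
    (h1 : G1 t u v = 0) (h2 : G2 W t u v = 0) (h3 : G3 W t u v = 0) :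
    t = 0 ∧ u = 0 ∧ v = 0 := by
  have ht4 := delta_mul_pow_four W t u v
  rw [h1, h2, h3] at ht4
  have ht : t = 0 := by
    have : W.Δ * t ^ 4 = 0 := by rw [ht4]; ring
    rcases mul_eq_zero.mp this with h | h
    · exact absurd h hΔ
    · exact pow_eq_zero_iff (by norm_num) |>.mp h
  have hu : u = 0 := by
    have := sq_eq_G1_add t u v
    rw [h1, ht] at this
    have : u ^ 2 = 0 := by rw [this]; ring
    exact pow_eq_zero_iff (by norm_num) |>.mp this
  have hv : v = 0 := by
    have := sq_eq_G3_add W t u v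
    rw [h3, ht] at this
    have : v ^ 2 = 0 := by rw [this]; ring
    exact pow_eq_zero_iff (by norm_num) |>.mp this
  exact ⟨ht, hu, hv⟩

end field

end Fermat.Agent.Lib.EllFinite.H80
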