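/-
Item 62 (Lib/EllFinite), package PAR, part 2 (helper80): the exact parallelogram law for degrees
of rational functions.

`rdeg r = max (natDegree num) (natDegree denom)` for `r : RatFunc K`.
If `x₁, x₂, x₃, x₄ : RatFunc K` satisfy the x-only addition relations of a Weierstrass curve `W`
over `K` with `Δ ≠ 0`
  `(x₁ - x₂)² (x₃ + x₄) = 2 x₁ x₂ (x₁ + x₂) + b₂ x₁ x₂ + b₄ (x₁ + x₂) + b₆`,
  `(x₁ - x₂)² x₃ x₄ = x₁² x₂² - b₄ x₁ x₂ - b₆ (x₁ + x₂) - b₈`,
then `rdeg x₃ + rdeg x₄ = 2 rdeg x₁ + 2 rdeg x₂`  (`rdeg_parallelogram`),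
and if `Ψ₂Sq(x₁) x₃ = Φ₂(x₁)` then `rdeg x₃ = 4 rdeg x₁`  (`rdeg_double`).
Valid in every characteristic.
-/
import Fermat.Agent.Lib.EllFinite.H80_Forms
import Mathlib.FieldTheory.RatFunc.AsPolynomial

set_option autoImplicit false

namespace Fermat.Agent.Lib.EllFinite.H80

open Polynomial

variable {K : Type*} [Field K] (W : WeierstrassCurve K)

/-! ### Top coefficients of the forms -/

section degree

variable {t u v : K[X]} {D : ℕ}

lemma coeff_two_mul_top {p q : K[X]} (hp : p.natDegree ≤ D) (hq : q.natDegree ≤ D) :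
    (p * q).coeff (2 * D) = p.coeff D * q.coeff D := by
  rw [two_mul]; exact coeff_mul_add_eq_of_natDegree_le hp hq

lemma coeff_G1 (ht : t.natDegree ≤ D) (hu : u.natDegree ≤ D) (hv : v.natDegree ≤ D) :
    (G1 t u v).coeff (2 * D) = G1 (t.coeff D) (u.coeff D) (v.coeff D) := by
  have e4 : (4 : K[X]) = C 4 := (map_ofNat C 4).symm
  simp only [G1, pow_two, mul_assoc, coeff_sub, e4, coeff_C_mul, coeff_two_mul_top hu hu,
    coeff_two_mul_top ht hv]

lemma coeff_G2 (ht : t.natDegree ≤ D) (hu : u.natDegree ≤ D) (hv : v.natDegree ≤ D) :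
    (G2 (W.map C) t u v).coeff (2 * D) = G2 W (t.coeff D) (u.coeff D) (v.coeff D) := by
  have e2 : (2 : K[X]) = C 2 := (map_ofNat C 2).symm
  simp only [G2, pow_two, mul_assoc, coeff_add, e2, coeff_C_mul, coeff_two_mul_top hu hv,
    coeff_two_mul_top ht hv, coeff_two_mul_top ht hu, coeff_two_mul_top ht ht,
    WeierstrassCurve.map_b₂, WeierstrassCurve.map_b₄, WeierstrassCurve.map_b₆]

lemma coeff_G3 (ht : t.natDegree ≤ D) (hu : u.natDegree ≤ D) (hv : v.natDegree ≤ D) :
    (G3 (W.map C) t u v).coeff (2 * D) = G3 W (t.coeff D) (u.coeff D) (v.coeff D) := by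
  simp only [G3, pow_two, mul_assoc, coeff_sub, coeff_C_mul, coeff_two_mul_top hv hv,
    coeff_two_mul_top ht hv, coeff_two_mul_top ht hu, coeff_two_mul_top ht ht,
    WeierstrassCurve.map_b₄, WeierstrassCurve.map_b₆, WeierstrassCurve.map_b₈]

lemma natDegree_G1_le (ht : t.natDegree ≤ D) (hu : u.natDegree ≤ D) (hv : v.natDegree ≤ D) :
    (G1 t u v).natDegree ≤ 2 * D := by
  have e4 : (4 : K[X]) = C 4 := (map_ofNat C 4).symm
  simp only [G1, e4]
  compute_degree
  all_goals omega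

lemma natDegree_G2_le (ht : t.natDegree ≤ D) (hu : u.natDegree ≤ D) (hv : v.natDegree ≤ D) :
    (G2 (W.map C) t u v).natDegree ≤ 2 * D := by
  have e2 : (2 : K[X]) = C 2 := (map_ofNat C 2).symm
  simp only [G2, e2, WeierstrassCurve.map_b₂, WeierstrassCurve.map_b₄, WeierstrassCurve.map_b₆]
  compute_degree
  all_goals omega

lemma natDegree_G3_le (ht : t.natDegree ≤ D) (hu : u.natDegree ≤ D) (hv : v.natDegree ≤ D) :
    (G3 (W.map C) t u v).natDegree ≤ 2 * D := by
  simp only [G3, WeierstrassCurve.map_b₄, WeierstrassCurve.map_b₆, WeierstrassCurve.map_b₈]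
  compute_degree
  all_goals omega

end degree

/-! ### Triples of polynomials -/

/-- The maximum of the degrees of a triple of polynomials. -/
noncomputable def maxdeg (t u v : K[X]) : ℕ := max t.natDegree (max u.natDegree v.natDegree)

lemma natDegree_le_maxdeg₁ (t u v : K[X]) : t.natDegree ≤ maxdeg t u v := le_max_left _ _
lemma natDegree_le_maxdeg₂ (t u v : K[X]) : u.natDegree ≤ maxdeg t u v :=
  le_trans (le_max_left _ _) (le_max_right _ _)
lemma natDegree_le_maxdeg₃ (t u v : K[X]) : v.natDegree ≤ maxdeg t u v :=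
  le_trans (le_max_right _ _) (le_max_right _ _)

lemma maxdeg_le {t u v : K[X]} {D : ℕ} (ht : t.natDegree ≤ D) (hu : u.natDegree ≤ D)
    (hv : v.natDegree ≤ D) : maxdeg t u v ≤ D :=
  max_le ht (max_le hu hv)

/-- If the degrees are at most `D` and some coefficient of degree `D` is non-zero, then the
maximal degree is `D`. -/
lemma maxdeg_eq_of_coeff_ne_zero {t u v : K[X]} {D : ℕ} (ht : t.natDegree ≤ D)
    (hu : u.natDegree ≤ D) (hv : v.natDegree ≤ D)
    (h : t.coeff D ≠ 0 ∨ u.coeff D ≠ 0 ∨ v.coeff D ≠ 0) : maxdeg t u v = D := by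
  apply le_antisymm (maxdeg_le ht hu hv)
  rcases h with h | h | h
  · exact le_trans (le_natDegree_of_ne_zero h) (natDegree_le_maxdeg₁ t u v)
  · exact le_trans (le_natDegree_of_ne_zero h) (natDegree_le_maxdeg₂ t u v)
  · exact le_trans (le_natDegree_of_ne_zero h) (natDegree_le_maxdeg₃ t u v)

/-- A triple which is not identically zero has a non-zero coefficient in its maximal degree. -/
lemma exists_coeff_maxdeg_ne_zero {t u v : K[X]} (h : t ≠ 0 ∨ u ≠ 0 ∨ v ≠ 0) :
    t.coeff (maxdeg t u v) ≠ 0 ∨ u.coeff (maxdeg t u v) ≠ 0 ∨ v.coeff (maxdeg t u v) ≠ 0 := by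
  by_contra hcon
  push Not at hcon
  obtain ⟨h1, h2, h3⟩ := hcon
  -- each polynomial has degree `< maxdeg` or is zero
  have key : ∀ p : K[X], p.natDegree ≤ maxdeg t u v → p.coeff (maxdeg t u v) = 0 →
      p = 0 ∨ p.natDegree < maxdeg t u v := by
    intro p hp hc
    by_cases hp0 : p = 0
    · exact Or.inl hp0
    · right
      rcases lt_or_eq_of_le hp with hlt | heq
      · exact hlt
      · exfalso
        rw [← heq] at hc
        exact hp0 (leadingCoeff_eq_zero.mp hc)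
  have k1 := key t (natDegree_le_maxdeg₁ t u v) h1
  have k2 := key u (natDegree_le_maxdeg₂ t u v) h2
  have k3 := key v (natDegree_le_maxdeg₃ t u v) h3
  have hpos : 0 < maxdeg t u v := by
    rcases h with h | h | h
    · exact lt_of_le_of_lt (Nat.zero_le _) (k1.resolve_left h)
    · exact lt_of_le_of_lt (Nat.zero_le _) (k2.resolve_left h)
    · exact lt_of_le_of_lt (Nat.zero_le _) (k3.resolve_left h)
  have l1 : t.natDegree < maxdeg t u v := by
    rcases k1 with h | h
    · have h0 : t.natDegree = 0 := by rw [h, natDegree_zero]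
      omega
    · exact h
  have l2 : u.natDegree < maxdeg t u v := by
    rcases k2 with h | h
    · have h0 : u.natDegree = 0 := by rw [h, natDegree_zero]
      omega
    · exact h
  have l3 : v.natDegree < maxdeg t u v := by
    rcases k3 with h | h
    · have h0 : v.natDegree = 0 := by rw [h, natDegree_zero]
      omega
    · exact h
  have : maxdeg t u v < maxdeg t u v := max_lt l1 (max_lt l2 l3)
  exact lt_irrefl _ this

/-- **Top degree is exactly doubled** by the three forms. -/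
theorem maxdeg_forms (hΔ : W.Δ ≠ 0) {t u v : K[X]} (h : t ≠ 0 ∨ u ≠ 0 ∨ v ≠ 0) :
    maxdeg (G1 t u v) (G2 (W.map C) t u v) (G3 (W.map C) t u v) = 2 * maxdeg t u v := by
  have ht := natDegree_le_maxdeg₁ t u v
  have hu := natDegree_le_maxdeg₂ t u v
  have hv := natDegree_le_maxdeg₃ t u v
  apply maxdeg_eq_of_coeff_ne_zero (natDegree_G1_le ht hu hv) (natDegree_G2_le W ht hu hv)
    (natDegree_G3_le W ht hu hv)
  rw [coeff_G1 ht hu hv, coeff_G2 W ht hu hv, coeff_G3 W ht hu hv]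
  by_contra hcon
  push Not at hcon
  obtain ⟨h1, h2, h3⟩ := hcon
  obtain ⟨z1, z2, z3⟩ := forms_eq_zero W hΔ h1 h2 h3
  rcases exists_coeff_maxdeg_ne_zero h with h | h | h
  · exact h z1
  · exact h z2
  · exact h z3

/-- Two proportional triples, each generating the unit ideal, differ by a unit. -/
lemma exists_unit_of_proportional {A : Type*} [CommRing A] [IsDomain A]
    {a b c a' b' c' : A} (h : Ideal.span {a, b, c} = ⊤) (h' : Ideal.span {a', b', c'} = ⊤)
    (ha : a ≠ 0) (hb : a * b' = a' * b) (hc : a * c' = a' * c) :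
    ∃ w : Aˣ, a' = w * a ∧ b' = w * b ∧ c' = w * c := by
  have h1 : (1 : A) ∈ Ideal.span {a, b, c} := by rw [h]; trivial
  have h1' : (1 : A) ∈ Ideal.span {a', b', c'} := by rw [h']; trivial
  rw [Ideal.mem_span_insert] at h1 h1'
  obtain ⟨p, z, hz, e⟩ := h1
  obtain ⟨p', z', hz', e'⟩ := h1'
  rw [Ideal.mem_span_pair] at hz hz'
  obtain ⟨q, r, rfl⟩ := hz
  obtain ⟨q', r', rfl⟩ := hz'
  -- a' = a * w,  a = a' * w'
  have e1 : a' = a * (p * a' + q * b' + r * c') := by
    calc a' = a' * 1 := (mul_one _).symm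
      _ = a' * (p * a + (q * b + r * c)) := by rw [← e]
      _ = a * (p * a' + q * b' + r * c') := by linear_combination (-q) * hb + (-r) * hc
  have e2 : a = a' * (p' * a + q' * b + r' * c) := by
    calc a = a * 1 := (mul_one _).symm
      _ = a * (p' * a' + (q' * b' + r' * c')) := by rw [← e']
      _ = a' * (p' * a + q' * b + r' * c) := by linear_combination q' * hb + r' * hc
  set w := p * a' + q * b' + r * c' with hw
  set w' := p' * a + q' * b + r' * c with hw'
  have hww : w * w' = 1 := by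
    have : a * (w * w' - 1) = 0 := by
      have e3 : a = a * w * w' := by
        calc a = a' * w' := e2
          _ = a * w * w' := by rw [← e1]
      linear_combination (-1 : A) * e3
    rcases mul_eq_zero.mp this with h0 | h0
    · exact absurd h0 ha
    · exact sub_eq_zero.mp h0
  refine ⟨⟨w, w', hww, by rw [mul_comm]; exact hww⟩, ?_, ?_, ?_⟩
  · rw [mul_comm]; exact e1
  · apply mul_left_cancel₀ ha
    rw [hb, e1]; ring
  · apply mul_left_cancel₀ ha
    rw [hc, e1]; ring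

lemma natDegree_unit_mul (w : K[X]ˣ) (p : K[X]) : ((w : K[X]) * p).natDegree = p.natDegree := by
  obtain ⟨c, hc, hcw⟩ := Polynomial.isUnit_iff.mp w.isUnit
  rw [← hcw]
  exact natDegree_C_mul hc.ne_zero

lemma maxdeg_unit_mul (w : K[X]ˣ) (t u v : K[X]) :
    maxdeg ((w : K[X]) * t) (w * u) (w * v) = maxdeg t u v := by
  simp only [maxdeg, natDegree_unit_mul]

/-! ### Rational functions -/

section ratfunc

/-- The degree of a rational function: the maximum of the degrees of numerator and denominator. -/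
noncomputable def rdeg (r : RatFunc K) : ℕ := max r.num.natDegree r.denom.natDegree

local notation "ι" => algebraMap K[X] (RatFunc K)

lemma ratfunc_eq (r : RatFunc K) : r * ι r.denom = ι r.num := by
  have h := RatFunc.num_div_denom r
  have hd : ι r.denom ≠ 0 := RatFunc.algebraMap_ne_zero r.denom_ne_zero
  rw [div_eq_iff hd] at h
  exact h.symm

/-- The standard triple `(Z₁Z₂, X₁Z₂ + X₂Z₁, X₁X₂)` of a pair of rational functions. -/
noncomputable def tT (r s : RatFunc K) : K[X] := r.denom * s.denom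
/-- See `tT`. -/
noncomputable def tU (r s : RatFunc K) : K[X] := r.num * s.denom + s.num * r.denom
/-- See `tT`. -/
noncomputable def tV (r s : RatFunc K) : K[X] := r.num * s.num

lemma tT_ne_zero (r s : RatFunc K) : tT r s ≠ 0 :=
  mul_ne_zero r.denom_ne_zero s.denom_ne_zero

lemma algebraMap_tU (r s : RatFunc K) : ι (tU r s) = (r + s) * ι (tT r s) := by
  simp only [tU, tT, map_add, map_mul, ← ratfunc_eq r, ← ratfunc_eq s]
  ring

lemma algebraMap_tV (r s : RatFunc K) : ι (tV r s) = (r * s) * ι (tT r s) := by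
  simp only [tV, tT, map_mul, ← ratfunc_eq r, ← ratfunc_eq s]
  ring

lemma span_triple (r s : RatFunc K) : Ideal.span {tT r s, tU r s, tV r s} = ⊤ := by
  obtain ⟨a, b, h1⟩ := RatFunc.isCoprime_num_denom r
  obtain ⟨c, d, h2⟩ := RatFunc.isCoprime_num_denom s
  rw [Ideal.eq_top_iff_one]
  have key : (1 : K[X]) =
      (-c * b ^ 2 * r.num + d * (2 * a * b * r.num + b ^ 2 * r.denom)) * tT r s
        + (c * b ^ 2 * r.denom + d * a ^ 2 * r.num) * tU r s
        + (c * (a ^ 2 * r.num + 2 * a * b * r.denom) - d * a ^ 2 * r.denom) * tV r s := by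
    simp only [tT, tU, tV]
    linear_combination (-(c * s.num + d * s.denom) * (a * r.num + b * r.denom + 1)) * h1 - h2
  rw [key]
  refine Ideal.add_mem _ (Ideal.add_mem _ ?_ ?_) ?_
  · exact Ideal.mul_mem_left _ _ (Ideal.subset_span (by simp))
  · exact Ideal.mul_mem_left _ _ (Ideal.subset_span (by simp))
  · exact Ideal.mul_mem_left _ _ (Ideal.subset_span (by simp))

/-- The pair `(num, denom)` has a non-zero coefficient in degree `rdeg`. -/
lemma coeff_rdeg_ne_zero (r : RatFunc K) :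
    r.num.coeff (rdeg r) ≠ 0 ∨ r.denom.coeff (rdeg r) ≠ 0 := by
  have h := exists_coeff_maxdeg_ne_zero (t := r.num) (u := r.denom) (v := 0)
    (Or.inr (Or.inl r.denom_ne_zero))
  have e : maxdeg r.num r.denom 0 = rdeg r := by
    simp [maxdeg, rdeg]
  rw [e] at h
  rcases h with h | h | h
  · exact Or.inl h
  · exact Or.inr h
  · simp at h

lemma natDegree_num_le (r : RatFunc K) : r.num.natDegree ≤ rdeg r := le_max_left _ _
lemma natDegree_denom_le (r : RatFunc K) : r.denom.natDegree ≤ rdeg r := le_max_right _ _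

/-- The standard triple of `(r, s)` has maximal degree `rdeg r + rdeg s`. -/
theorem maxdeg_triple (r s : RatFunc K) :
    maxdeg (tT r s) (tU r s) (tV r s) = rdeg r + rdeg s := by
  have hX₁ := natDegree_num_le r
  have hZ₁ := natDegree_denom_le r
  have hX₂ := natDegree_num_le s
  have hZ₂ := natDegree_denom_le s
  have cT : (tT r s).coeff (rdeg r + rdeg s) = r.denom.coeff (rdeg r) * s.denom.coeff (rdeg s) :=
    coeff_mul_add_eq_of_natDegree_le hZ₁ hZ₂
  have cV : (tV r s).coeff (rdeg r + rdeg s) = r.num.coeff (rdeg r) * s.num.coeff (rdeg s) :=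
    coeff_mul_add_eq_of_natDegree_le hX₁ hX₂
  have cU : (tU r s).coeff (rdeg r + rdeg s) =
      r.num.coeff (rdeg r) * s.denom.coeff (rdeg s)
        + s.num.coeff (rdeg s) * r.denom.coeff (rdeg r) := by
    simp only [tU, coeff_add]
    rw [coeff_mul_add_eq_of_natDegree_le hX₁ hZ₂, add_comm (rdeg r) (rdeg s),
      coeff_mul_add_eq_of_natDegree_le hX₂ hZ₁]
  apply maxdeg_eq_of_coeff_ne_zero
  · exact natDegree_mul_le_of_le hZ₁ hZ₂
  · exact natDegree_add_le_of_degree_le (natDegree_mul_le_of_le hX₁ hZ₂)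
      (by rw [add_comm]; exact natDegree_mul_le_of_le hX₂ hZ₁)
  · exact natDegree_mul_le_of_le hX₁ hX₂
  · rw [cT, cU, cV]
    by_contra hcon
    push Not at hcon
    obtain ⟨h1, h2, h3⟩ := hcon
    rcases coeff_rdeg_ne_zero r with hr | hr <;> rcases coeff_rdeg_ne_zero s with hs | hs
    · exact mul_ne_zero hr hs h3
    · -- x₁ ≠ 0, z₂ ≠ 0: then x₂ = 0 (from h3) and z₁ = 0 (from h1), so h2 gives x₁ z₂ = 0
      have hx₂ : s.num.coeff (rdeg s) = 0 := (mul_eq_zero.mp h3).resolve_left hr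
      rw [hx₂, zero_mul, add_zero] at h2
      exact mul_ne_zero hr hs h2
    · have hx₁ : r.num.coeff (rdeg r) = 0 := (mul_eq_zero.mp h3).resolve_right hs
      rw [hx₁, zero_mul, zero_add] at h2
      exact mul_ne_zero hs hr h2
    · exact mul_ne_zero hr hs h1

/-- If `r = N / M` with `(M, N)` generating the unit ideal, then `rdeg r` is the maximum of the
degrees of `N` and `M`. -/
theorem rdeg_eq_of_span {r : RatFunc K} {N M : K[X]} (hM : M ≠ 0)
    (hspan : Ideal.span {M, N, (0 : K[X])} = ⊤) (h : r * ι M = ι N) :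
    rdeg r = max N.natDegree M.natDegree := by
  have hs : Ideal.span {r.denom, r.num, (0 : K[X])} = ⊤ := by
    obtain ⟨a, b, h1⟩ := RatFunc.isCoprime_num_denom r
    rw [Ideal.eq_top_iff_one, ← h1]
    exact Ideal.add_mem _ (Ideal.mul_mem_left _ _ (Ideal.subset_span (by simp)))
      (Ideal.mul_mem_left _ _ (Ideal.subset_span (by simp)))
  have hb : M * r.num = r.denom * N := by
    apply RatFunc.algebraMap_injective
    rw [map_mul, map_mul, ← ratfunc_eq r, ← h]
    ring
  obtain ⟨w, hw1, hw2, -⟩ := exists_unit_of_proportional hspan hs hM hb (by ring)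
  rw [rdeg, hw1, hw2, natDegree_unit_mul, natDegree_unit_mul]

end ratfunc

/-! ### The parallelogram law -/

section main

local notation "ι" => algebraMap K[X] (RatFunc K)
local notation "κ" => algebraMap K (RatFunc K)

lemma algebraMap_G1 (t u v : K[X]) : ι (G1 t u v) = G1 (ι t) (ι u) (ι v) :=
  map_G1 (algebraMap K[X] (RatFunc K)) t u v

lemma algebraMap_G2 (t u v : K[X]) :
    ι (G2 (W.map C) t u v) = G2 (W.map κ) (ι t) (ι u) (ι v) := by
  rw [map_G2 (W.map C) (algebraMap K[X] (RatFunc K)) t u v, WeierstrassCurve.map_map]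
  congr 2

lemma algebraMap_G3 (t u v : K[X]) :
    ι (G3 (W.map C) t u v) = G3 (W.map κ) (ι t) (ι u) (ι v) := by
  rw [map_G3 (W.map C) (algebraMap K[X] (RatFunc K)) t u v, WeierstrassCurve.map_map]
  congr 2

lemma isUnit_map_C_Δ (hΔ : W.Δ ≠ 0) : IsUnit (W.map (C : K →+* K[X])).Δ := by
  rw [WeierstrassCurve.map_Δ]
  exact Polynomial.isUnit_C.mpr (IsUnit.mk0 _ hΔ)

/-- **Exact parallelogram law for degrees.**  If `x₃ + x₄` and `x₃ x₄` are given by the x-only
addition formulas of `W` in terms of `x₁, x₂`, then `rdeg x₃ + rdeg x₄ = 2 rdeg x₁ + 2 rdeg x₂`. -/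
theorem rdeg_parallelogram (hΔ : W.Δ ≠ 0) (x₁ x₂ x₃ x₄ : RatFunc K)
    (hS : (x₁ - x₂) ^ 2 * (x₃ + x₄) =
      2 * x₁ * x₂ * (x₁ + x₂) + κ W.b₂ * x₁ * x₂ + κ W.b₄ * (x₁ + x₂) + κ W.b₆)
    (hP : (x₁ - x₂) ^ 2 * (x₃ * x₄) =
      x₁ ^ 2 * x₂ ^ 2 - κ W.b₄ * x₁ * x₂ - κ W.b₆ * (x₁ + x₂) - κ W.b₈) :
    rdeg x₃ + rdeg x₄ = 2 * rdeg x₁ + 2 * rdeg x₂ := by
  set T := tT x₁ x₂ with hT
  set U := tU x₁ x₂ with hU
  set V := tV x₁ x₂ with hV
  set g₁ := G1 T U V with hg₁
  set g₂ := G2 (W.map C) T U V with hg₂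
  set g₃ := G3 (W.map C) T U V with hg₃
  have hTne : T ≠ 0 := tT_ne_zero x₁ x₂
  have hspan : Ideal.span {g₁, g₂, g₃} = ⊤ :=
    span_forms_eq_top (W.map C) (isUnit_map_C_Δ W hΔ) (span_triple x₁ x₂)
  have hmax : maxdeg g₁ g₂ g₃ = 2 * (rdeg x₁ + rdeg x₂) := by
    rw [hg₁, hg₂, hg₃, maxdeg_forms W hΔ (Or.inl hTne), maxdeg_triple]
  -- values in `RatFunc K`
  have eU : ι U = (x₁ + x₂) * ι T := algebraMap_tU x₁ x₂
  have eV : ι V = (x₁ * x₂) * ι T := algebraMap_tV x₁ x₂
  have e1 : ι g₁ = (ι T) ^ 2 * (x₁ - x₂) ^ 2 := by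
    rw [hg₁, algebraMap_G1, G1, eU, eV]; ring
  have e2 : ι g₂ = ι g₁ * (x₃ + x₄) := by
    rw [e1, hg₂, algebraMap_G2, G2, eU, eV]
    simp only [WeierstrassCurve.map_b₂, WeierstrassCurve.map_b₄, WeierstrassCurve.map_b₆]
    linear_combination (-(ι T) ^ 2) * hS
  have e3 : ι g₃ = ι g₁ * (x₃ * x₄) := by
    rw [e1, hg₃, algebraMap_G3, G3, eU, eV]
    simp only [WeierstrassCurve.map_b₄, WeierstrassCurve.map_b₆, WeierstrassCurve.map_b₈]
    linear_combination (-(ι T) ^ 2) * hP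
  -- proportionality with the standard triple of `(x₃, x₄)`
  have hb : g₁ * tU x₃ x₄ = tT x₃ x₄ * g₂ := by
    apply RatFunc.algebraMap_injective
    rw [map_mul, map_mul, algebraMap_tU, e2]; ring
  have hc : g₁ * tV x₃ x₄ = tT x₃ x₄ * g₃ := by
    apply RatFunc.algebraMap_injective
    rw [map_mul, map_mul, algebraMap_tV, e3]; ring
  have hg₁ne : g₁ ≠ 0 := by
    intro h0
    have h2 : g₂ = 0 := by
      have := hb; rw [h0, zero_mul] at this
      exact (mul_eq_zero.mp this.symm).resolve_left (tT_ne_zero x₃ x₄)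
    have h3 : g₃ = 0 := by
      have := hc; rw [h0, zero_mul] at this
      exact (mul_eq_zero.mp this.symm).resolve_left (tT_ne_zero x₃ x₄)
    have h1 : (1 : K[X]) ∈ Ideal.span {g₁, g₂, g₃} := by rw [hspan]; trivial
    rw [h0, h2, h3] at h1
    have hle : Ideal.span {(0 : K[X]), 0, 0} ≤ ⊥ := by
      rw [Ideal.span_le]
      intro x hx
      simp only [Set.mem_insert_iff, Set.mem_singleton_iff, or_self] at hx
      rw [hx]; exact Ideal.zero_mem _
    exact one_ne_zero ((Ideal.mem_bot).mp (hle h1))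
  obtain ⟨w, hw1, hw2, hw3⟩ :=
    exists_unit_of_proportional hspan (span_triple x₃ x₄) hg₁ne hb hc
  have := maxdeg_triple x₃ x₄
  rw [hw1, hw2, hw3, maxdeg_unit_mul, hmax] at this
  omega

/-- **Duplication**: if `Ψ₂Sq(x₁) x₃ = Φ₂(x₁)`, then `rdeg x₃ = 4 rdeg x₁`. -/
theorem rdeg_double (hΔ : W.Δ ≠ 0) (x₁ x₃ : RatFunc K)
    (h : (4 * x₁ ^ 3 + κ W.b₂ * x₁ ^ 2 + 2 * κ W.b₄ * x₁ + κ W.b₆) * x₃ =
      x₁ ^ 4 - κ W.b₄ * x₁ ^ 2 - 2 * κ W.b₆ * x₁ - κ W.b₈) :
    rdeg x₃ = 4 * rdeg x₁ := by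
  set T := tT x₁ x₁ with hT
  set U := tU x₁ x₁ with hU
  set V := tV x₁ x₁ with hV
  set g₁ := G1 T U V with hg₁
  set g₂ := G2 (W.map C) T U V with hg₂
  set g₃ := G3 (W.map C) T U V with hg₃
  have hTne : T ≠ 0 := tT_ne_zero x₁ x₁
  have hspan : Ideal.span {g₁, g₂, g₃} = ⊤ :=
    span_forms_eq_top (W.map C) (isUnit_map_C_Δ W hΔ) (span_triple x₁ x₁)
  have hmax : maxdeg g₁ g₂ g₃ = 2 * (rdeg x₁ + rdeg x₁) := by
    rw [hg₁, hg₂, hg₃, maxdeg_forms W hΔ (Or.inl hTne), maxdeg_triple]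
  have hg₁0 : g₁ = 0 := by
    simp only [hg₁, G1, hT, hU, hV, tT, tU, tV]; ring
  have eU : ι U = (x₁ + x₁) * ι T := algebraMap_tU x₁ x₁
  have eV : ι V = (x₁ * x₁) * ι T := algebraMap_tV x₁ x₁
  have e2 : ι g₂ = (ι T) ^ 2 * (4 * x₁ ^ 3 + κ W.b₂ * x₁ ^ 2 + 2 * κ W.b₄ * x₁ + κ W.b₆) := by
    rw [hg₂, algebraMap_G2, G2, eU, eV]
    simp only [WeierstrassCurve.map_b₂, WeierstrassCurve.map_b₄, WeierstrassCurve.map_b₆]
    ring
  have e3 : ι g₃ = (ι T) ^ 2 * (x₁ ^ 4 - κ W.b₄ * x₁ ^ 2 - 2 * κ W.b₆ * x₁ - κ W.b₈) := by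
    rw [hg₃, algebraMap_G3, G3, eU, eV]
    simp only [WeierstrassCurve.map_b₄, WeierstrassCurve.map_b₆, WeierstrassCurve.map_b₈]
    ring
  have hrel : x₃ * ι g₂ = ι g₃ := by
    rw [e2, e3, ← h]; ring
  have hspan' : Ideal.span {g₂, g₃, (0 : K[X])} = ⊤ := by
    have h1 : (1 : K[X]) ∈ Ideal.span {g₁, g₂, g₃} := by rw [hspan]; trivial
    rw [Ideal.mem_span_insert] at h1
    obtain ⟨p, z, hz, e⟩ := h1
    rw [Ideal.mem_span_pair] at hz
    obtain ⟨q, r, rfl⟩ := hz
    rw [Ideal.eq_top_iff_one, e, hg₁0, mul_zero, zero_add]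
    exact Ideal.add_mem _ (Ideal.mul_mem_left _ _ (Ideal.subset_span (by simp)))
      (Ideal.mul_mem_left _ _ (Ideal.subset_span (by simp)))
  have hg₂ne : g₂ ≠ 0 := by
    intro h0
    have h3 : ι g₃ = 0 := by rw [← hrel, h0, map_zero, mul_zero]
    have h3' : g₃ = 0 := by
      apply RatFunc.algebraMap_injective; rw [h3, map_zero]
    have h1 : (1 : K[X]) ∈ Ideal.span {g₂, g₃, (0 : K[X])} := by rw [hspan']; trivial
    rw [h0, h3'] at h1
    have hle : Ideal.span {(0 : K[X]), 0, 0} ≤ ⊥ := by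
      rw [Ideal.span_le]
      intro x hx
      simp only [Set.mem_insert_iff, Set.mem_singleton_iff, or_self] at hx
      rw [hx]; exact Ideal.zero_mem _
    exact one_ne_zero ((Ideal.mem_bot).mp (hle h1))
  have key := rdeg_eq_of_span hg₂ne hspan' hrel
  rw [key]
  have hm : maxdeg g₁ g₂ g₃ = max g₃.natDegree g₂.natDegree := by
    rw [hg₁0, maxdeg, natDegree_zero, Nat.zero_max, max_comm]
  rw [← hm, hmax]; ring

end main

/-! ### Small API for `rdeg` -/

section api

local notation "ι" => algebraMap K[X] (RatFunc K)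

/-- If `r = N / M` with `N`, `M` coprime, then `rdeg r = max (deg N) (deg M)`. -/
theorem rdeg_eq_of_isCoprime {r : RatFunc K} {N M : K[X]} (hM : M ≠ 0) (hc : IsCoprime N M)
    (h : r * ι M = ι N) : rdeg r = max N.natDegree M.natDegree := by
  apply rdeg_eq_of_span hM _ h
  obtain ⟨a, b, h1⟩ := hc
  rw [Ideal.eq_top_iff_one, ← h1, add_comm]
  exact Ideal.add_mem _ (Ideal.mul_mem_left _ _ (Ideal.subset_span (by simp)))
    (Ideal.mul_mem_left _ _ (Ideal.subset_span (by simp)))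

lemma rdeg_algebraMap (p : K[X]) : rdeg (ι p) = p.natDegree := by
  rw [rdeg, RatFunc.num_algebraMap, RatFunc.denom_algebraMap, natDegree_one, Nat.max_zero]

lemma rdeg_C (a : K) : rdeg (RatFunc.C a) = 0 := by
  rw [rdeg, RatFunc.num_C, RatFunc.denom_C, natDegree_C, natDegree_one, Nat.max_zero]

lemma rdeg_X : rdeg (RatFunc.X : RatFunc K) = 1 := by
  rw [rdeg, RatFunc.num_X, RatFunc.denom_X, natDegree_X, natDegree_one, Nat.max_zero]

lemma rdeg_zero : rdeg (0 : RatFunc K) = 0 := by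
  rw [← map_zero (algebraMap K[X] (RatFunc K)), rdeg_algebraMap, natDegree_zero]

lemma rdeg_one : rdeg (1 : RatFunc K) = 0 := by
  rw [← map_one (algebraMap K[X] (RatFunc K)), rdeg_algebraMap, natDegree_one]

/-- `rdeg` is multiplicative under powers (in particular under Frobenius). -/
theorem rdeg_pow (r : RatFunc K) (n : ℕ) : rdeg (r ^ n) = n * rdeg r := by
  have h : r ^ n * ι (r.denom ^ n) = ι (r.num ^ n) := by
    rw [map_pow, map_pow, ← mul_pow, ratfunc_eq]
  rw [rdeg_eq_of_isCoprime (pow_ne_zero n r.denom_ne_zero)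
    ((RatFunc.isCoprime_num_denom r).pow) h, natDegree_pow, natDegree_pow, rdeg,
    Nat.mul_max_mul_left]

/-- `rdeg r = 0` iff `r` is constant. -/
theorem rdeg_eq_zero_iff (r : RatFunc K) : rdeg r = 0 ↔ ∃ a : K, r = RatFunc.C a := by
  constructor
  · intro h
    have h1 : r.num.natDegree = 0 := Nat.eq_zero_of_le_zero (h ▸ natDegree_num_le r)
    have h2 : r.denom.natDegree = 0 := Nat.eq_zero_of_le_zero (h ▸ natDegree_denom_le r)
    obtain ⟨a, ha⟩ := natDegree_eq_zero.mp h1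
    obtain ⟨b, hb⟩ := natDegree_eq_zero.mp h2
    have hb0 : b ≠ 0 := by
      rintro rfl
      exact r.denom_ne_zero (by rw [← hb, map_zero])
    refine ⟨a / b, ?_⟩
    have e := ratfunc_eq r
    rw [← ha, ← hb, RatFunc.algebraMap_C, RatFunc.algebraMap_C] at e
    have hCb : (RatFunc.C b : RatFunc K) ≠ 0 := by
      rw [Ne, map_eq_zero]; exact hb0
    rw [map_div₀, eq_div_iff hCb, e]
  · rintro ⟨a, rfl⟩
    exact rdeg_C a

end api

end Fermat.Agent.Lib.EllFinite.H80
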