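/-
Item 62 (Lib/EllFinite): trace and determinant of Frobenius on `E[p]`.
Coordinator: helper7.  Plan: NOTES/plan/EllFinite.md.
This file: shared definitions and the EXACT interfaces (`Stmt_*`) of the work packages.

Set-up for the generic point:  `R` base ring (for us `ZMod ℓ`), `W : WeierstrassCurve R`,
`k` an `R`-field (for us an algebraically closed field of characteristic `ℓ`),
`KE W k` = function field of `W⁄k` (Mathlib `FunctionField`), points `(W⁄KE W k).Point`.
-/
import Mathlib.AlgebraicGeometry.EllipticCurve.Affine.Point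
import Mathlib.FieldTheory.RatFunc.AsPolynomial
import Mathlib.FieldTheory.IsAlgClosed.Basic
import Mathlib.LinearAlgebra.Determinant
import Mathlib.LinearAlgebra.Trace
import Mathlib.Algebra.CharP.Algebra
import Mathlib.FieldTheory.Finite.Basic
import Fermat.Prelude.Def_FLTPrelim_Modularity
import Fermat.Prelude.Def_EllipticCurve_FrobeniusTrace
import Fermat.Agent.Lib.EllFinite.H80_Par

set_option autoImplicit false

namespace Fermat.Agent.Lib.EllFinite

open WeierstrassCurve WeierstrassCurve.Affine
open scoped Polynomial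

/-! ### 0. Torsion endomorphisms, Frobenius -/

/-- `Q̄`. -/
abbrev QbarE : Type := AlgebraicClosure ℚ

/-- Restriction of an additive endomorphism `f` of an abelian group `M` to the `n`-torsion,
as a `ZMod n`-linear map. -/
noncomputable def torsEnd {M : Type*} [AddCommGroup M] (n : ℕ) (f : M →+ M)
    [Module (ZMod n) (Submodule.torsionBy ℤ M n)] :
    Module.End (ZMod n) (Submodule.torsionBy ℤ M n) :=
  AddMonoidHom.toZModLinearMap n
    { toFun := fun x => ⟨f x, by
        have hx := x.2
        rw [Submodule.mem_torsionBy_iff] at hx ⊢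
        rw [← map_zsmul, hx, map_zero]⟩
      map_zero' := by ext; simp
      map_add' := fun x y => by ext; simp }

@[simp] lemma torsEnd_apply_coe {M : Type*} [AddCommGroup M] (n : ℕ) (f : M →+ M)
    [Module (ZMod n) (Submodule.torsionBy ℤ M n)] (x : Submodule.torsionBy ℤ M n) :
    ((torsEnd n f x : Submodule.torsionBy ℤ M n) : M) = f x := rfl

/-- The `ℓ`-power Frobenius of a field `K` of characteristic `ℓ`, as a `ZMod ℓ`-algebra map. -/
noncomputable def frobAlgHom (ℓ : ℕ) [Fact ℓ.Prime] (K : Type*) [Field K] [Algebra (ZMod ℓ) K] :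
    K →ₐ[ZMod ℓ] K :=
  haveI : CharP K ℓ := (Algebra.charP_iff (ZMod ℓ) K ℓ).mp inferInstance
  { frobenius K ℓ with
    commutes' := fun a => by
      simp [frobenius_def, ← map_pow, ZMod.pow_card] }

lemma frobAlgHom_apply (ℓ : ℕ) [Fact ℓ.Prime] (K : Type*) [Field K] [Algebra (ZMod ℓ) K] (x : K) :
    frobAlgHom ℓ K x = x ^ ℓ := rfl

/-- The Frobenius endomorphism of the group of `K`-points of a curve over `ZMod ℓ`. -/
noncomputable def frobPt (ℓ : ℕ) [Fact ℓ.Prime] (W : WeierstrassCurve (ZMod ℓ)) (K : Type*) [Field K]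
    [DecidableEq K] [Algebra (ZMod ℓ) K] : (W.toAffine⁄K).Point →+ (W.toAffine⁄K).Point :=
  Point.map (W' := W.toAffine) (frobAlgHom ℓ K)

/-! ### 1. The generic point -/

section Generic

variable {R : Type*} [CommRing R] (W : WeierstrassCurve R) (k : Type*) [Field k] [Algebra R k]

/-- The function field of `W⁄k`. -/
abbrev KE : Type _ := (W.baseChange k).toAffine.FunctionField

noncomputable instance instDecEqKE : DecidableEq (KE W k) := Classical.decEq _

theorem algebraMap_poly_injective :
    Function.Injective (algebraMap k[X] (KE W k)) := by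
  have h1 : Function.Injective (algebraMap k[X] (W.baseChange k).toAffine.CoordinateRing) :=
    FaithfulSMul.algebraMap_injective _ _
  have h2 : Function.Injective (algebraMap (W.baseChange k).toAffine.CoordinateRing (KE W k)) :=
    IsFractionRing.injective _ _
  rw [IsScalarTower.algebraMap_eq k[X] (W.baseChange k).toAffine.CoordinateRing (KE W k)]
  exact h2.comp h1

/-- The embedding `k(x) → KE W k`. -/
noncomputable def ratEmb : RatFunc k →ₐ[k] KE W k :=
  RatFunc.liftAlgHom (IsScalarTower.toAlgHom k k[X] (KE W k)) (by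
    intro p hp
    simp only [Submonoid.mem_comap, mem_nonZeroDivisors_iff_ne_zero] at hp ⊢
    intro h
    apply hp
    apply algebraMap_poly_injective W k
    simpa using h)

/-- The coordinate function `x`. -/
noncomputable def gx : KE W k := algebraMap k[X] (KE W k) Polynomial.X

/-- The coordinate function `y`. -/
noncomputable def gy : KE W k :=
  algebraMap (W.baseChange k).toAffine.CoordinateRing (KE W k)
    (CoordinateRing.mk (W.baseChange k).toAffine Polynomial.X)

open Classical in
/-- The generic point `(x, y)` (it IS nonsingular: part of package GEN). -/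
noncomputable def gen : (W.toAffine⁄(KE W k)).Point :=
  if h : (W.toAffine⁄(KE W k)).Nonsingular (gx W k) (gy W k) then .some _ _ h else 0

/-- "Odd" points: `ι P = -P` for the hyperelliptic involution `ι` (`y ↦ -y - a₁x - a₃`) of
`KE W k` over `k(x)`, written out in coordinates: `x(P) = r`, `y(P) = u + v y` with `r, u, v ∈ k(x)`
and `2u + a₁ r + a₃ = v (a₁ x + a₃)`. -/
def IsOdd : (W.toAffine⁄(KE W k)).Point → Prop
  | .zero => True
  | .some x y _ => ∃ r u v : RatFunc k, x = ratEmb W k r ∧ y = ratEmb W k u + ratEmb W k v * gy W k ∧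
      2 * u + RatFunc.C (algebraMap R k W.a₁) * r + RatFunc.C (algebraMap R k W.a₃)
        = v * (RatFunc.C (algebraMap R k W.a₁) * RatFunc.X + RatFunc.C (algebraMap R k W.a₃))

open Classical in
/-- Height: degree of the `x`-coordinate as a rational function of `x` (`0` for the zero point and
for points whose `x`-coordinate is not in `k(x)`). -/
noncomputable def ht : (W.toAffine⁄(KE W k)).Point → ℕ
  | .zero => 0
  | .some x _ _ => if h : ∃ r : RatFunc k, ratEmb W k r = x then H80.rdeg h.choose else 0

end Generic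

/-! ### 2. Interfaces -/

/-- (FIB) Generic fibre of a rational function over an algebraically closed field of
exponential characteristic `ℓ`. -/
def Stmt_FIB : Prop :=
  ∀ (k : Type) [Field k] [IsAlgClosed k] (ℓ : ℕ) [ExpChar k ℓ] (r : RatFunc k),
    (¬ ∃ c, r = RatFunc.C c) →
    ∃ (e : ℕ) (Z : Finset k),
      ((Polynomial.derivative r.num * r.denom - r.num * Polynomial.derivative r.denom ≠ 0) → e = 0) ∧
      ∀ c ∉ Z, Nat.card {x : k // r.denom.eval x ≠ 0 ∧ r.num.eval x = c * r.denom.eval x} * ℓ ^ e
        = H80.rdeg r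

/-- (FIN) Finite field side: trace and determinant of the Frobenius endomorphism on `E[p](k)`,
`k` an algebraically closed field of characteristic `ℓ ≠ p`. -/
def Stmt_FIN : Prop :=
  ∀ (ℓ p : ℕ) [Fact ℓ.Prime] [Fact p.Prime], p ≠ ℓ →
    ∀ (W : WeierstrassCurve (ZMod ℓ)), W.Δ ≠ 0 →
    ∀ (k : Type) [Field k] [IsAlgClosed k] [DecidableEq k] [Algebra (ZMod ℓ) k],
      LinearMap.trace (ZMod p) _ (torsEnd p (frobPt ℓ W k)) = (((ℓ : ℤ) + 1 - (W.card : ℤ) : ℤ) : ZMod p) ∧
      LinearMap.det (torsEnd p (frobPt ℓ W k)) = (ℓ : ZMod p)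

/-- (MAIN) TARGET of item 62. -/
def Stmt_main : Prop :=
  ∀ (W : WeierstrassCurve ℤ) (p ℓ : ℕ) [Fact p.Prime], ℓ.Prime → p ≠ ℓ → W.IsGoodPrimeFor ℓ →
    ∀ (A : ValuationSubring QbarE), A.LiesOverPrime ℓ →
    ∀ σ : QbarE ≃ₐ[ℚ] QbarE, A.IsFrobeniusAt σ ℓ →
      Module.finrank (ZMod p)
        (Submodule.torsionBy ℤ ((W.map (Int.castRingHom ℚ)).toAffine⁄QbarE).Point p) = 2 ∧
      Point.galoisTrace ℚ (W.map (Int.castRingHom ℚ)).toAffine p σ
        = ((W.apOfModel ℓ : ℤ) : ZMod p) ∧
      LinearMap.det (Point.galoisRepModuleEnd ℚ (W.map (Int.castRingHom ℚ)).toAffine p σ)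
        = (ℓ : ZMod p)

end Fermat.Agent.Lib.EllFinite
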