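/-
Item 62 (Lib/EllFinite), package RED, part 1 (helper4): valuation estimates on a Weierstrass curve
with integral coefficients over a valued field.  General `a₁ … a₆`, all residue characteristics.

* `val_y_le_one`  : `x` integral ⇒ `y` integral.
* `val_y_sq`      : `1 < |x|` ⇒ `|y|² = |x|³`.
* `val_addX_sub_lt_one` : (KEY) `1 < |x₁|`, `|x₂| ≤ 1` ⇒ `|x(P+Q) - x₂| < 1`.
-/
import Mathlib.AlgebraicGeometry.EllipticCurve.Affine.Point
import Mathlib.RingTheory.Valuation.ValuationSubring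

set_option autoImplicit false

namespace Fermat.Agent.Lib.EllFinite.H4

open WeierstrassCurve WeierstrassCurve.Affine

variable {F : Type*} [Field F]

/-- The coefficients of `W` are integral at `A`. -/
structure IntCoeff (A : ValuationSubring F) (W : Affine F) : Prop where
  a₁ : A.valuation W.a₁ ≤ 1
  a₂ : A.valuation W.a₂ ≤ 1
  a₃ : A.valuation W.a₃ ≤ 1
  a₄ : A.valuation W.a₄ ≤ 1
  a₆ : A.valuation W.a₆ ≤ 1

section basic

variable {A : ValuationSubring F}

lemma val_two_le : A.valuation (2 : F) ≤ 1 :=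
  (A.valuation_le_one_iff _).2 (by exact_mod_cast (2 : A).2)

lemma val_three_le : A.valuation (3 : F) ≤ 1 :=
  (A.valuation_le_one_iff _).2 (by exact_mod_cast (3 : A).2)

lemma val_mul_le_one {a b : F} (ha : A.valuation a ≤ 1) (hb : A.valuation b ≤ 1) :
    A.valuation (a * b) ≤ 1 := by
  rw [map_mul]; exact mul_le_one' ha hb

lemma val_pow_le_one {a : F} (ha : A.valuation a ≤ 1) (n : ℕ) : A.valuation (a ^ n) ≤ 1 := by
  rw [map_pow]; exact pow_le_one' ha n

lemma val_add_le_one {a b : F} (ha : A.valuation a ≤ 1) (hb : A.valuation b ≤ 1) :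
    A.valuation (a + b) ≤ 1 :=
  Valuation.map_add_le _ ha hb

lemma val_sub_le_one {a b : F} (ha : A.valuation a ≤ 1) (hb : A.valuation b ≤ 1) :
    A.valuation (a - b) ≤ 1 :=
  Valuation.map_sub_le _ ha hb

lemma val_neg_le_one {a : F} (ha : A.valuation a ≤ 1) : A.valuation (-a) ≤ 1 := by
  rwa [Valuation.map_neg]

/-- `|a b| ≤ |b|` for integral `a`. -/
lemma val_int_mul_le {a b : F} (ha : A.valuation a ≤ 1) : A.valuation (a * b) ≤ A.valuation b := by
  rw [map_mul]
  calc A.valuation a * A.valuation b ≤ 1 * A.valuation b := mul_le_mul_left ha _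
    _ = A.valuation b := one_mul _

end basic

section step0

variable {A : ValuationSubring F} {W : Affine F}

/-- On an integral Weierstrass equation, `x` integral implies `y` integral. -/
theorem val_y_le_one (hW : IntCoeff A W) {x y : F} (h : W.Equation x y)
    (hx : A.valuation x ≤ 1) : A.valuation y ≤ 1 := by
  by_contra hy
  have hy : 1 < A.valuation y := not_le.1 hy
  have hy0 : 0 < A.valuation y := lt_trans zero_lt_one hy
  rw [equation_iff] at h
  -- y² = x³ + a₂x² + a₄x + a₆ - a₁xy - a₃y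
  have e : y ^ 2 = (x ^ 3 + W.a₂ * x ^ 2 + W.a₄ * x + W.a₆) - (W.a₁ * x + W.a₃) * y := by
    linear_combination h
  have h1 : A.valuation (x ^ 3 + W.a₂ * x ^ 2 + W.a₄ * x + W.a₆) ≤ 1 :=
    val_add_le_one (val_add_le_one (val_add_le_one (val_pow_le_one hx 3)
      (val_mul_le_one hW.a₂ (val_pow_le_one hx 2))) (val_mul_le_one hW.a₄ hx)) hW.a₆
  have h2 : A.valuation ((W.a₁ * x + W.a₃) * y) ≤ A.valuation y :=
    val_int_mul_le (val_add_le_one (val_mul_le_one hW.a₁ hx) hW.a₃)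
  have h3 : A.valuation (y ^ 2) ≤ A.valuation y := by
    rw [e]
    exact Valuation.map_sub_le _ (h1.trans hy.le) h2
  rw [map_pow, pow_two] at h3
  have h4 : A.valuation y * 1 < A.valuation y * A.valuation y :=
    mul_lt_mul_of_pos_left hy hy0
  rw [mul_one] at h4
  exact absurd h3 (not_le.2 h4)

/-- For `1 < |x|`: `|x³ + a₂x² + a₄x + a₆| = |x|³`. -/
lemma val_cubic (hW : IntCoeff A W) {x : F} (hx : 1 < A.valuation x) :
    A.valuation (x ^ 3 + W.a₂ * x ^ 2 + W.a₄ * x + W.a₆) = A.valuation x ^ 3 := by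
  have hx0 : 0 < A.valuation x := lt_trans zero_lt_one hx
  have e1 : A.valuation (W.a₂ * x ^ 2) < A.valuation (x ^ 3) := by
    calc A.valuation (W.a₂ * x ^ 2) ≤ A.valuation (x ^ 2) := val_int_mul_le hW.a₂
      _ = A.valuation x ^ 2 := map_pow _ _ _
      _ < A.valuation x ^ 3 := pow_lt_pow_right₀ hx (by norm_num)
      _ = A.valuation (x ^ 3) := (map_pow _ _ _).symm
  have e2 : A.valuation (W.a₄ * x) < A.valuation (x ^ 3) := by
    calc A.valuation (W.a₄ * x) ≤ A.valuation x := val_int_mul_le hW.a₄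
      _ = A.valuation x ^ 1 := (pow_one _).symm
      _ < A.valuation x ^ 3 := pow_lt_pow_right₀ hx (by norm_num)
      _ = A.valuation (x ^ 3) := (map_pow _ _ _).symm
  have e3 : A.valuation W.a₆ < A.valuation (x ^ 3) := by
    calc A.valuation W.a₆ ≤ 1 := hW.a₆
      _ < A.valuation x ^ 3 := one_lt_pow₀ hx (by norm_num)
      _ = A.valuation (x ^ 3) := (map_pow _ _ _).symm
  have e4 : A.valuation (W.a₂ * x ^ 2 + W.a₄ * x + W.a₆) < A.valuation (x ^ 3) :=
    Valuation.map_add_lt _ (Valuation.map_add_lt _ e1 e2) e3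
  have : x ^ 3 + W.a₂ * x ^ 2 + W.a₄ * x + W.a₆ = x ^ 3 + (W.a₂ * x ^ 2 + W.a₄ * x + W.a₆) := by
    ring
  rw [this, Valuation.map_add_eq_of_lt_left _ e4, map_pow]

/-- On the kernel of reduction: `|x| < |y|`. -/
theorem val_x_lt_val_y (hW : IntCoeff A W) {x y : F} (h : W.Equation x y)
    (hx : 1 < A.valuation x) : A.valuation x < A.valuation y := by
  by_contra hcon
  have hcon : A.valuation y ≤ A.valuation x := not_lt.1 hcon
  have hx0 : 0 < A.valuation x := lt_trans zero_lt_one hx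
  rw [equation_iff] at h
  have h1 : A.valuation (y ^ 2 + W.a₁ * x * y + W.a₃ * y) ≤ A.valuation x ^ 2 := by
    refine Valuation.map_add_le _ (Valuation.map_add_le _ ?_ ?_) ?_
    · rw [map_pow]; exact pow_le_pow_left₀ zero_le hcon 2
    · rw [mul_assoc]
      refine (val_int_mul_le hW.a₁).trans ?_
      rw [map_mul, pow_two]
      exact mul_le_mul_right hcon _
    · refine (val_int_mul_le hW.a₃).trans (hcon.trans ?_)
      calc A.valuation x = A.valuation x ^ 1 := (pow_one _).symm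
        _ ≤ A.valuation x ^ 2 := pow_le_pow_right₀ hx.le (by norm_num)
  rw [h, val_cubic hW hx] at h1
  exact absurd (pow_lt_pow_right₀ hx (by norm_num : 2 < 3)) (not_lt.2 h1)

/-- On the kernel of reduction: `1 < |y|`. -/
theorem one_lt_val_y (hW : IntCoeff A W) {x y : F} (h : W.Equation x y)
    (hx : 1 < A.valuation x) : 1 < A.valuation y :=
  lt_trans hx (val_x_lt_val_y hW h hx)

/-- On the kernel of reduction: `|y|² = |x|³`. -/
theorem val_y_sq (hW : IntCoeff A W) {x y : F} (h : W.Equation x y)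
    (hx : 1 < A.valuation x) : A.valuation y ^ 2 = A.valuation x ^ 3 := by
  have hxy := val_x_lt_val_y hW h hx
  have hy1 := one_lt_val_y hW h hx
  have hy0 : 0 < A.valuation y := lt_trans zero_lt_one hy1
  have h1 : A.valuation (W.a₁ * x * y) < A.valuation (y ^ 2) := by
    rw [mul_assoc]
    refine lt_of_le_of_lt (val_int_mul_le hW.a₁) ?_
    rw [map_mul, map_pow, pow_two]
    exact mul_lt_mul_of_pos_right hxy hy0
  have h2 : A.valuation (W.a₃ * y) < A.valuation (y ^ 2) := by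
    refine lt_of_le_of_lt (val_int_mul_le hW.a₃) ?_
    rw [map_pow, pow_two]
    calc A.valuation y = A.valuation y * 1 := (mul_one _).symm
      _ < A.valuation y * A.valuation y := mul_lt_mul_of_pos_left hy1 hy0
  have h3 : A.valuation (W.a₁ * x * y + W.a₃ * y) < A.valuation (y ^ 2) :=
    Valuation.map_add_lt _ h1 h2
  have h4 : A.valuation (y ^ 2 + W.a₁ * x * y + W.a₃ * y) = A.valuation (y ^ 2) := by
    rw [add_assoc]; exact Valuation.map_add_eq_of_lt_left _ h3
  rw [equation_iff] at h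
  rw [h, val_cubic hW hx, map_pow] at h4
  exact h4.symm

/-- On the kernel of reduction: `|y| < |x|²`. -/
theorem val_y_lt_val_x_sq (hW : IntCoeff A W) {x y : F} (h : W.Equation x y)
    (hx : 1 < A.valuation x) : A.valuation y < A.valuation x ^ 2 := by
  have h2 := val_y_sq hW h hx
  have h3 : A.valuation y ^ 2 < (A.valuation x ^ 2) ^ 2 := by
    rw [h2, ← pow_mul]
    exact pow_lt_pow_right₀ hx (by norm_num)
  exact lt_of_pow_lt_pow_left₀ 2 zero_le h3

end step0

section step1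

variable {A : ValuationSubring F} {W : Affine F}

/-- The polynomial identity behind Step 1. -/
lemma addX_sub_identity {x₁ y₁ x₂ y₂ : F} (h₁ : W.Equation x₁ y₁) (hne : x₁ ≠ x₂) :
    (x₁ - x₂) ^ 2 * (W.addX x₁ x₂ ((y₁ - y₂) / (x₁ - x₂)) - x₂) =
      (-W.a₃ - 2 * y₂ - W.a₁ * x₂) * y₁ + (W.a₄ - W.a₁ * y₂ + 2 * W.a₂ * x₂ + 3 * x₂ ^ 2) * x₁ +
        (W.a₆ + y₂ ^ 2 + W.a₁ * x₂ * y₂ - W.a₂ * x₂ ^ 2 - 2 * x₂ ^ 3) := by
  have hd : x₁ - x₂ ≠ 0 := sub_ne_zero.2 hne
  rw [equation_iff] at h₁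
  simp only [addX]
  field_simp
  linear_combination h₁

/-- KEY estimate: `P = (x₁, y₁)` in the kernel of reduction and `Q = (x₂, y₂)` integral: the
`x`-coordinate of `P + Q` is integral and congruent to `x₂`. -/
theorem val_addX_sub_lt_one (hW : IntCoeff A W) {x₁ y₁ x₂ y₂ : F}
    (h₁ : W.Equation x₁ y₁) (h₂ : W.Equation x₂ y₂) (hx₁ : 1 < A.valuation x₁)
    (hx₂ : A.valuation x₂ ≤ 1) :
    A.valuation (W.addX x₁ x₂ ((y₁ - y₂) / (x₁ - x₂)) - x₂) < 1 := by
  have hy₂ : A.valuation y₂ ≤ 1 := val_y_le_one hW h₂ hx₂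
  have hlt : A.valuation x₂ < A.valuation x₁ := lt_of_le_of_lt hx₂ hx₁
  have hne : x₁ ≠ x₂ := by
    rintro rfl
    exact lt_irrefl _ hlt
  have hd : A.valuation (x₁ - x₂) = A.valuation x₁ := Valuation.map_sub_eq_of_lt_left _ hlt
  have hxy := val_x_lt_val_y hW h₁ hx₁
  have hy1 := one_lt_val_y hW h₁ hx₁
  have hyx2 := val_y_lt_val_x_sq hW h₁ hx₁
  have hx0 : 0 < A.valuation x₁ := lt_trans zero_lt_one hx₁
  have hid := addX_sub_identity (y₂ := y₂) h₁ hne
  -- the three coefficients are integral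
  have c1 : A.valuation (-W.a₃ - 2 * y₂ - W.a₁ * x₂) ≤ 1 :=
    val_sub_le_one (val_sub_le_one (val_neg_le_one hW.a₃) (val_mul_le_one val_two_le hy₂))
      (val_mul_le_one hW.a₁ hx₂)
  have c2 : A.valuation (W.a₄ - W.a₁ * y₂ + 2 * W.a₂ * x₂ + 3 * x₂ ^ 2) ≤ 1 :=
    val_add_le_one (val_add_le_one (val_sub_le_one hW.a₄ (val_mul_le_one hW.a₁ hy₂))
      (val_mul_le_one (val_mul_le_one val_two_le hW.a₂) hx₂))
      (val_mul_le_one val_three_le (val_pow_le_one hx₂ 2))
  have c3 : A.valuation (W.a₆ + y₂ ^ 2 + W.a₁ * x₂ * y₂ - W.a₂ * x₂ ^ 2 - 2 * x₂ ^ 3) ≤ 1 :=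
    val_sub_le_one (val_sub_le_one (val_add_le_one (val_add_le_one hW.a₆ (val_pow_le_one hy₂ 2))
      (val_mul_le_one (val_mul_le_one hW.a₁ hx₂) hy₂))
      (val_mul_le_one hW.a₂ (val_pow_le_one hx₂ 2)))
      (val_mul_le_one val_two_le (val_pow_le_one hx₂ 3))
  have hT : A.valuation ((-W.a₃ - 2 * y₂ - W.a₁ * x₂) * y₁ +
      (W.a₄ - W.a₁ * y₂ + 2 * W.a₂ * x₂ + 3 * x₂ ^ 2) * x₁ +
        (W.a₆ + y₂ ^ 2 + W.a₁ * x₂ * y₂ - W.a₂ * x₂ ^ 2 - 2 * x₂ ^ 3)) ≤ A.valuation y₁ :=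
    Valuation.map_add_le _ (Valuation.map_add_le _ (val_int_mul_le c1)
      ((val_int_mul_le c2).trans hxy.le)) (c3.trans hy1.le)
  rw [← hid, map_mul, map_pow, hd] at hT
  have h5 : A.valuation x₁ ^ 2 * A.valuation (W.addX x₁ x₂ ((y₁ - y₂) / (x₁ - x₂)) - x₂) <
      A.valuation x₁ ^ 2 * 1 := by
    rw [mul_one]; exact lt_of_le_of_lt hT hyx2
  exact lt_of_mul_lt_mul_left h5 zero_le

end step1

end Fermat.Agent.Lib.EllFinite.H4
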