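/-
Item 62 (Lib/EllFinite), package RED, part 2 (helper4): the reduction map of a Weierstrass curve
with good reduction over a valuation ring is a group homomorphism.

Setting: `F` a field, `A : ValuationSubring F`, `W : WeierstrassCurve A` (general `a₁ … a₆`),
`EF A W` the curve over `F`, `Ek A W` the curve over the residue field, `(Ek A W).Δ ≠ 0`.

Main results:
* `red A W hΔ : (EF A W).Point →+ (Ek A W).Point`
* `red_some_coe`  : `red (some ↑a ↑b _) = some (residue a) (residue b) _`
* `red_eq_zero_iff` : `red P = 0 ↔ P = 0 ∨ P = some x y _ with 1 < |x|`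
-/
import Fermat.Agent.Lib.EllFinite.H4_RedVal
import Mathlib.RingTheory.LocalRing.ResidueField.Basic

set_option autoImplicit false
set_option linter.unusedSectionVars false

namespace Fermat.Agent.Lib.EllFinite.H4

open WeierstrassCurve WeierstrassCurve.Affine IsLocalRing

variable {F : Type*} [Field F] (A : ValuationSubring F) (W : WeierstrassCurve A)

/-- The generic fibre: `W` over the field `F`. -/
abbrev EF : Affine F := (W.map (algebraMap A F)).toAffine

/-- The special fibre: `W` over the residue field of `A`. -/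
abbrev Ek : Affine (ResidueField A) := (W.map (residue A)).toAffine

lemma intCoeff_EF : IntCoeff A (EF A W) where
  a₁ := A.valuation_le_one W.a₁
  a₂ := A.valuation_le_one W.a₂
  a₃ := A.valuation_le_one W.a₃
  a₄ := A.valuation_le_one W.a₄
  a₆ := A.valuation_le_one W.a₆

variable {A W}

lemma equation_coe_iff (a b : A) :
    (EF A W).Equation (a : F) (b : F) ↔ W.toAffine.Equation a b :=
  Affine.map_equation W.toAffine (f := algebraMap A F) Subtype.val_injective a b

lemma equation_res {a b : A} (h : W.toAffine.Equation a b) :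
    (Ek A W).Equation (residue A a) (residue A b) :=
  Affine.Equation.map (residue A) h

lemma nonsingular_res (hΔ : (Ek A W).Δ ≠ 0) {a b : A} (h : (EF A W).Equation (a : F) (b : F)) :
    (Ek A W).Nonsingular (residue A a) (residue A b) :=
  (equation_iff_nonsingular_of_Δ_ne_zero hΔ).1 (equation_res ((equation_coe_iff a b).1 h))

/-- residues agree iff the difference is in the maximal ideal. -/
lemma res_eq_iff (a b : A) : residue A a = residue A b ↔ A.valuation ((a : F) - b) < 1 := by
  rw [← sub_eq_zero, ← map_sub, residue_eq_zero_iff, A.valuation_lt_one_iff]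
  rfl

lemma res_eq_zero_iff (a : A) : residue A a = 0 ↔ A.valuation (a : F) < 1 := by
  rw [residue_eq_zero_iff, A.valuation_lt_one_iff]

lemma res_ne_zero_iff (a : A) : residue A a ≠ 0 ↔ A.valuation (a : F) = 1 := by
  rw [Ne, res_eq_zero_iff]
  constructor
  · intro h
    exact le_antisymm (A.valuation_le_one a) (not_lt.1 h)
  · intro h
    rw [h]; exact lt_irrefl _

lemma isUnit_of_res_ne_zero {a : A} (h : residue A a ≠ 0) : IsUnit a :=
  (A.valuation_eq_one_iff a).2 ((res_ne_zero_iff a).1 h)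

/-- The slope identity, valid in any commutative ring. -/
lemma slope_identity {R : Type*} [CommRing R] {V : Affine R} {x₁ y₁ x₂ y₂ : R}
    (h₁ : V.Equation x₁ y₁) (h₂ : V.Equation x₂ y₂) :
    (y₁ - y₂) * (y₁ + y₂ + V.a₁ * x₁ + V.a₃) =
      (x₁ - x₂) * (x₁ ^ 2 + x₁ * x₂ + x₂ ^ 2 + V.a₂ * (x₁ + x₂) + V.a₄ - V.a₁ * y₂) := by
  rw [equation_iff] at h₁ h₂
  linear_combination h₁ - h₂

section maps

/-- `negY` commutes with the coercion `A → F`. -/
lemma negY_coe (a b : A) : (EF A W).negY (a : F) (b : F) = ((W.toAffine.negY a b : A) : F) :=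
  Affine.map_negY (W' := W.toAffine) (f := algebraMap A F) (x := a) (y := b)

/-- `negY` commutes with the residue map. -/
lemma negY_res (a b : A) :
    (Ek A W).negY (residue A a) (residue A b) = residue A (W.toAffine.negY a b) :=
  Affine.map_negY (W' := W.toAffine) (f := residue A) (x := a) (y := b)

lemma addX_coe (a₁ a₂ l : A) :
    (EF A W).addX (a₁ : F) (a₂ : F) (l : F) = ((W.toAffine.addX a₁ a₂ l : A) : F) :=
  Affine.map_addX (W' := W.toAffine) (f := algebraMap A F) (x₁ := a₁) (x₂ := a₂) (ℓ := l)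

lemma addX_res (a₁ a₂ l : A) :
    (Ek A W).addX (residue A a₁) (residue A a₂) (residue A l) =
      residue A (W.toAffine.addX a₁ a₂ l) :=
  Affine.map_addX (W' := W.toAffine) (f := residue A) (x₁ := a₁) (x₂ := a₂) (ℓ := l)

lemma addY_coe (a₁ a₂ b₁ l : A) :
    (EF A W).addY (a₁ : F) (a₂ : F) (b₁ : F) (l : F) = ((W.toAffine.addY a₁ a₂ b₁ l : A) : F) :=
  Affine.map_addY (W' := W.toAffine) (f := algebraMap A F) (x₁ := a₁) (x₂ := a₂) (y₁ := b₁)
    (ℓ := l)

lemma addY_res (a₁ a₂ b₁ l : A) :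
    (Ek A W).addY (residue A a₁) (residue A a₂) (residue A b₁) (residue A l) =
      residue A (W.toAffine.addY a₁ a₂ b₁ l) :=
  Affine.map_addY (W' := W.toAffine) (f := residue A) (x₁ := a₁) (x₂ := a₂) (y₁ := b₁) (ℓ := l)

end maps

section caseA

variable [DecidableEq F] [DecidableEq (ResidueField A)]

/-- Case (a): if the reductions of two integral points are not opposite, the slope of the line
through them is integral and reduces to the slope of the line through the reductions. -/
theorem exists_slope {a₁ b₁ a₂ b₂ : A} (h₁ : W.toAffine.Equation a₁ b₁)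
    (h₂ : W.toAffine.Equation a₂ b₂)
    (hne : ¬(residue A a₁ = residue A a₂ ∧
      residue A b₁ = (Ek A W).negY (residue A a₂) (residue A b₂))) :
    ∃ l : A, (EF A W).slope (a₁ : F) (a₂ : F) (b₁ : F) (b₂ : F) = (l : F) ∧
      (Ek A W).slope (residue A a₁) (residue A a₂) (residue A b₁) (residue A b₂) =
        residue A l := by
  by_cases hx : residue A a₁ = residue A a₂
  · have hy : residue A b₁ ≠ (Ek A W).negY (residue A a₂) (residue A b₂) := fun h => hne ⟨hx, h⟩
    set D : A := b₁ + b₂ + W.a₁ * a₁ + W.a₃ with hD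
    set N : A := a₁ ^ 2 + a₁ * a₂ + a₂ ^ 2 + W.a₂ * (a₁ + a₂) + W.a₄ - W.a₁ * b₂ with hN
    have hid : (b₁ - b₂) * D = (a₁ - a₂) * N := slope_identity h₁ h₂
    have hresD : residue A D = residue A b₁ - (Ek A W).negY (residue A a₂) (residue A b₂) := by
      simp only [hD, negY, map_add, map_mul, map_a₁, map_a₃, hx]
      ring
    have hD0 : residue A D ≠ 0 := by
      rw [hresD]; exact sub_ne_zero.2 hy
    have hDu : IsUnit D := isUnit_of_res_ne_zero hD0
    obtain ⟨u, hu⟩ := hDu
    have hDF : (D : F) ≠ 0 := by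
      intro h0
      apply hD0
      have : D = 0 := Subtype.ext h0
      rw [this, map_zero]
    have hresb : residue A b₁ = residue A b₂ := by
      have := congrArg (residue A) hid
      simp only [map_mul, map_sub, hx, sub_self, zero_mul] at this
      rcases mul_eq_zero.1 this with h | h
      · exact sub_eq_zero.1 h
      · exact absurd h hD0
    refine ⟨N * ↑u⁻¹, ?_, ?_⟩
    · -- the slope over F
      have hl : ((N * ↑u⁻¹ : A) : F) = (N : F) / (D : F) := by
        rw [eq_div_iff hDF]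
        have : N * ↑u⁻¹ * D = N := by
          rw [← hu, mul_assoc, Units.inv_mul, mul_one]
        exact_mod_cast congrArg (fun t : A => (t : F)) this
      rw [hl]
      by_cases hxF : (a₁ : F) = (a₂ : F)
      · have ha : a₁ = a₂ := Subtype.ext hxF
        subst ha
        have hb : b₁ = b₂ := by
          have h0 : (b₁ - b₂) * D = 0 := by rw [hid, sub_self, zero_mul]
          have h0' : ((b₁ : F) - b₂) * (D : F) = 0 := by
            exact_mod_cast congrArg (fun t : A => (t : F)) h0
          rcases mul_eq_zero.1 h0' with h | h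
          · exact Subtype.ext (sub_eq_zero.1 h)
          · exact absurd h hDF
        subst hb
        have hyF : (b₁ : F) ≠ (EF A W).negY (a₁ : F) (b₁ : F) := by
          rw [negY_coe]
          intro h
          apply hy
          rw [negY_res]
          exact congrArg (residue A) (Subtype.ext h)
        rw [slope_of_Y_ne rfl hyF]
        congr 1
        · simp only [hN, map_a₁, map_a₂, map_a₄]
          push_cast
          simp only [ValuationSubring.algebraMap_apply]
          ring
        · simp only [hD, negY, map_a₁, map_a₃]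
          push_cast
          simp only [ValuationSubring.algebraMap_apply]
          ring
      · rw [slope_of_X_ne hxF, div_eq_div_iff (sub_ne_zero.2 hxF) hDF, mul_comm (N : F)]
        exact_mod_cast congrArg (fun t : A => (t : F)) hid
    · -- the slope over the residue field
      rw [slope_of_Y_ne hx hy, map_mul]
      have hinv : residue A (↑u⁻¹ : A) = (residue A D)⁻¹ := by
        apply eq_inv_of_mul_eq_one_left
        rw [← map_mul, ← hu, Units.inv_mul, map_one]
      rw [hinv, div_eq_mul_inv]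
      congr 2
      · simp only [hN, map_add, map_sub, map_mul, map_pow, map_a₁, map_a₂, map_a₄, ← hx, ← hresb]
        ring
      · rw [hresD, ← hx, ← hresb]
  · -- different `x`-coordinates mod the maximal ideal
    have hu : IsUnit (a₁ - a₂) :=
      isUnit_of_res_ne_zero (by rw [map_sub]; exact sub_ne_zero.2 hx)
    obtain ⟨u, hu⟩ := hu
    have hxF : (a₁ : F) ≠ (a₂ : F) := fun h => hx (congrArg (residue A) (Subtype.ext h))
    refine ⟨(b₁ - b₂) * ↑u⁻¹, ?_, ?_⟩
    · rw [slope_of_X_ne hxF, div_eq_iff (sub_ne_zero.2 hxF)]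
      have : (b₁ - b₂) * ↑u⁻¹ * (a₁ - a₂) = b₁ - b₂ := by
        rw [← hu, mul_assoc, Units.inv_mul, mul_one]
      exact_mod_cast (congrArg (fun t : A => (t : F)) this).symm
    · rw [slope_of_X_ne hx, map_mul, map_sub, div_eq_mul_inv]
      congr 1
      symm
      apply eq_inv_of_mul_eq_one_left
      rw [← map_sub, ← map_mul, ← hu, Units.inv_mul, map_one]

end caseA

section caseB

variable [DecidableEq F]

/-- `1 < |ℓ|` and integral `x₁, x₂` give `1 < |addX x₁ x₂ ℓ|`. -/
lemma one_lt_val_addX {V : Affine F} (hV : IntCoeff A V) {x₁ x₂ ℓ : F}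
    (hx₁ : A.valuation x₁ ≤ 1) (hx₂ : A.valuation x₂ ≤ 1) (hℓ : 1 < A.valuation ℓ) :
    1 < A.valuation (V.addX x₁ x₂ ℓ) := by
  have hℓ0 : 0 < A.valuation ℓ := lt_trans zero_lt_one hℓ
  have hsq : A.valuation ℓ < A.valuation (ℓ ^ 2) := by
    rw [map_pow, pow_two]
    calc A.valuation ℓ = A.valuation ℓ * 1 := (mul_one _).symm
      _ < A.valuation ℓ * A.valuation ℓ := mul_lt_mul_of_pos_left hℓ hℓ0
  have h1 : A.valuation (V.a₁ * ℓ) < A.valuation (ℓ ^ 2) :=
    lt_of_le_of_lt (val_int_mul_le hV.a₁) hsq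
  have hone : (1 : A.ValueGroup) < A.valuation (ℓ ^ 2) := lt_trans hℓ hsq
  have h2 : A.valuation (V.a₁ * ℓ - V.a₂ - x₁ - x₂) < A.valuation (ℓ ^ 2) :=
    Valuation.map_sub_lt _ (Valuation.map_sub_lt _ (Valuation.map_sub_lt _ h1
      (lt_of_le_of_lt hV.a₂ hone)) (lt_of_le_of_lt hx₁ hone)) (lt_of_le_of_lt hx₂ hone)
  have e : V.addX x₁ x₂ ℓ = ℓ ^ 2 + (V.a₁ * ℓ - V.a₂ - x₁ - x₂) := by
    simp only [addX]; ring
  rw [e, Valuation.map_add_eq_of_lt_left _ h2]
  exact hone

/-- Case (b): if the reductions of two integral points are opposite (and the points themselves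
are not), the slope of the line through them is not integral. -/
theorem one_lt_val_slope (hΔ : (Ek A W).Δ ≠ 0) {a₁ b₁ a₂ b₂ : A}
    (h₁ : W.toAffine.Equation a₁ b₁) (h₂ : W.toAffine.Equation a₂ b₂)
    (hx : residue A a₁ = residue A a₂)
    (hy : residue A b₁ = (Ek A W).negY (residue A a₂) (residue A b₂))
    (hxy : ¬((a₁ : F) = (a₂ : F) ∧ (b₁ : F) = (EF A W).negY (a₂ : F) (b₂ : F))) :
    1 < A.valuation ((EF A W).slope (a₁ : F) (a₂ : F) (b₁ : F) (b₂ : F)) := by
  have hns : (Ek A W).Nonsingular (residue A a₁) (residue A b₁) :=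
    (equation_iff_nonsingular_of_Δ_ne_zero hΔ).1 (equation_res h₁)
  set D : A := b₁ + b₂ + W.a₁ * a₁ + W.a₃ with hD
  set N : A := a₁ ^ 2 + a₁ * a₂ + a₂ ^ 2 + W.a₂ * (a₁ + a₂) + W.a₄ - W.a₁ * b₂ with hN
  have hid : (b₁ - b₂) * D = (a₁ - a₂) * N := slope_identity h₁ h₂
  have hidF : ((b₁ : F) - b₂) * (D : F) = ((a₁ : F) - a₂) * (N : F) := by
    exact_mod_cast congrArg (fun t : A => (t : F)) hid
  have hresD : residue A D = 0 := by
    have : residue A D = residue A b₁ - (Ek A W).negY (residue A a₂) (residue A b₂) := by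
      simp only [hD, negY, map_add, map_mul, map_a₁, map_a₃, hx]
      ring
    rw [this, hy, sub_self]
  have hvD : A.valuation (D : F) < 1 := (res_eq_zero_iff D).1 hresD
  by_cases hxF : (a₁ : F) = (a₂ : F)
  · have ha : a₁ = a₂ := Subtype.ext hxF
    subst ha
    have hyF : (b₁ : F) ≠ (EF A W).negY (a₁ : F) (b₂ : F) := fun h => hxy ⟨rfl, h⟩
    have hb : b₁ = b₂ := by
      rcases Y_eq_of_X_eq ((equation_coe_iff a₁ b₁).2 h₁) ((equation_coe_iff a₁ b₂).2 h₂) rfl
        with h | h
      · exact Subtype.ext h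
      · exact absurd h hyF
    subst hb
    rw [slope_of_Y_ne rfl hyF]
    have hden : (b₁ : F) - (EF A W).negY (a₁ : F) (b₁ : F) = (D : F) := by
      simp only [hD, negY, map_a₁, map_a₃]
      push_cast
      simp only [ValuationSubring.algebraMap_apply]
      ring
    have hnum : 3 * (a₁ : F) ^ 2 + 2 * (EF A W).a₂ * (a₁ : F) + (EF A W).a₄ -
        (EF A W).a₁ * (b₁ : F) = (N : F) := by
      simp only [hN, map_a₁, map_a₂, map_a₄]
      push_cast
      simp only [ValuationSubring.algebraMap_apply]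
      ring
    rw [hden, hnum]
    have hD0 : (D : F) ≠ 0 := by
      rw [← hden]; exact sub_ne_zero.2 hyF
    have hresN : residue A N ≠ 0 := by
      have h2 := ((nonsingular_iff _ _).1 hns).2
      rcases h2 with h2 | h2
      · intro h0
        apply h2
        have : residue A N = 3 * residue A a₁ ^ 2 + 2 * (Ek A W).a₂ * residue A a₁ +
            (Ek A W).a₄ - (Ek A W).a₁ * residue A b₁ := by
          simp only [hN, map_add, map_sub, map_mul, map_pow, map_a₁, map_a₂, map_a₄]
          ring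
        rw [this] at h0
        linear_combination -h0
      · exact absurd (by simpa only [negY] using hy) h2
    have hvN : A.valuation (N : F) = 1 := (res_ne_zero_iff N).1 hresN
    rw [map_div₀, hvN, one_div]
    exact (one_lt_inv₀ (zero_lt_iff.2 ((Valuation.ne_zero_iff _).2 hD0))).2 hvD
  · rw [slope_of_X_ne hxF, map_div₀]
    have hd0 : (a₁ : F) - a₂ ≠ 0 := sub_ne_zero.2 hxF
    have hvd : A.valuation ((a₁ : F) - a₂) < 1 := (res_eq_iff a₁ a₂).1 hx
    have hvd0 : 0 < A.valuation ((a₁ : F) - a₂) := zero_lt_iff.2 ((Valuation.ne_zero_iff _).2 hd0)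
    by_cases hb : residue A b₁ = residue A b₂
    · -- the reduction is a 2-torsion point: use nonsingularity
      have hresN : residue A N ≠ 0 := by
        have h2 := ((nonsingular_iff _ _).1 hns).2
        rcases h2 with h2 | h2
        · intro h0
          apply h2
          have : residue A N = 3 * residue A a₁ ^ 2 + 2 * (Ek A W).a₂ * residue A a₁ +
              (Ek A W).a₄ - (Ek A W).a₁ * residue A b₁ := by
            simp only [hN, map_add, map_sub, map_mul, map_pow, map_a₁, map_a₂, map_a₄, ← hx, ← hb]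
            ring
          rw [this] at h0
          linear_combination -h0
        · have h3 := hy
          simp only [negY] at h3
          rw [← hx, ← hb] at h3
          exact absurd h3 h2
      have hvN : A.valuation (N : F) = 1 := (res_ne_zero_iff N).1 hresN
      have hN0 : (N : F) ≠ 0 := by
        intro h0; rw [h0, map_zero] at hvN; exact zero_ne_one hvN
      have hD0 : (D : F) ≠ 0 := by
        intro h0
        rw [h0, mul_zero] at hidF
        exact (mul_ne_zero hd0 hN0) hidF.symm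
      have hvD0 : 0 < A.valuation (D : F) := zero_lt_iff.2 ((Valuation.ne_zero_iff _).2 hD0)
      have hv := congrArg A.valuation hidF
      rw [map_mul, map_mul, hvN, mul_one] at hv
      -- |b₁ - b₂| |D| = |a₁ - a₂|
      have hb0 : A.valuation ((b₁ : F) - b₂) ≠ 0 := by
        intro h0
        rw [h0, zero_mul] at hv
        exact hvd0.ne hv
      rw [← hv, div_mul_cancel_left₀ hb0]
      exact (one_lt_inv₀ hvD0).2 hvD
    · have hvb : A.valuation ((b₁ : F) - b₂) = 1 := by
        have := (res_ne_zero_iff (b₁ - b₂)).1 (by rw [map_sub]; exact sub_ne_zero.2 hb)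
        exact_mod_cast this
      rw [hvb, one_div]
      exact (one_lt_inv₀ hvd0).2 hvd

end caseB

section red

/-- Two affine points with equal coordinates are equal. -/
lemma some_eq_some {K : Type*} [Field K] {V : Affine K} {x y x' y' : K} (h : V.Nonsingular x y)
    (h' : V.Nonsingular x' y') (hx : x = x') (hy : y = y') :
    Point.some x y h = Point.some x' y' h' := by
  subst hx hy; rfl

variable [DecidableEq F] [DecidableEq (ResidueField A)]

variable (A W) in
/-- The reduction map, as a function. -/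
noncomputable def redFun (hΔ : (Ek A W).Δ ≠ 0) : (EF A W).Point → (Ek A W).Point
  | .zero => 0
  | .some x y h =>
    if hx : A.valuation x ≤ 1 then
      .some (residue A ⟨x, (A.valuation_le_one_iff x).1 hx⟩)
        (residue A ⟨y, (A.valuation_le_one_iff y).1 (val_y_le_one (intCoeff_EF A W) h.1 hx)⟩)
        (nonsingular_res hΔ (a := ⟨x, (A.valuation_le_one_iff x).1 hx⟩)
          (b := ⟨y, (A.valuation_le_one_iff y).1 (val_y_le_one (intCoeff_EF A W) h.1 hx)⟩) h.1)
    else 0

variable (hΔ : (Ek A W).Δ ≠ 0)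

@[simp] lemma redFun_zero : redFun A W hΔ 0 = 0 := rfl

lemma redFun_coe (a b : A) (h : (EF A W).Nonsingular (a : F) (b : F)) :
    redFun A W hΔ (.some (a : F) (b : F) h) =
      .some (residue A a) (residue A b) (nonsingular_res hΔ h.1) := by
  have hx : A.valuation (a : F) ≤ 1 := A.valuation_le_one a
  simp only [redFun, dif_pos hx]

lemma redFun_eq_of_coe {x y : F} (h : (EF A W).Nonsingular x y) (a b : A) (hx : x = (a : F))
    (hy : y = (b : F)) :
    ∃ h', redFun A W hΔ (.some x y h) = .some (residue A a) (residue A b) h' := by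
  subst hx hy
  exact ⟨_, redFun_coe hΔ a b h⟩

lemma redFun_of_lt {x y : F} (h : (EF A W).Nonsingular x y) (hx : 1 < A.valuation x) :
    redFun A W hΔ (.some x y h) = 0 := by
  simp only [redFun, dif_neg (not_le.2 hx)]

omit [DecidableEq F] [DecidableEq (ResidueField A)] in
lemma exists_coe_of_le {x y : F} (h : (EF A W).Nonsingular x y) (hx : A.valuation x ≤ 1) :
    ∃ a b : A, x = (a : F) ∧ y = (b : F) :=
  ⟨⟨x, (A.valuation_le_one_iff x).1 hx⟩,
    ⟨y, (A.valuation_le_one_iff y).1 (val_y_le_one (intCoeff_EF A W) h.1 hx)⟩, rfl, rfl⟩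

/-- Case (a) at the level of points. -/
theorem redFun_add_of_ne {a₁ b₁ a₂ b₂ : A} (h₁ : (EF A W).Nonsingular (a₁ : F) (b₁ : F))
    (h₂ : (EF A W).Nonsingular (a₂ : F) (b₂ : F))
    (hne : ¬(residue A a₁ = residue A a₂ ∧
      residue A b₁ = (Ek A W).negY (residue A a₂) (residue A b₂))) :
    redFun A W hΔ (.some _ _ h₁ + .some _ _ h₂) =
      redFun A W hΔ (.some _ _ h₁) + redFun A W hΔ (.some _ _ h₂) ∧
    redFun A W hΔ (.some _ _ h₁) + redFun A W hΔ (.some _ _ h₂) ≠ 0 := by
  have e₁ := (equation_coe_iff a₁ b₁).1 h₁.1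
  have e₂ := (equation_coe_iff a₂ b₂).1 h₂.1
  obtain ⟨l, hl, hlk⟩ := exists_slope e₁ e₂ hne
  have hxyF : ¬((a₁ : F) = (a₂ : F) ∧ (b₁ : F) = (EF A W).negY (a₂ : F) (b₂ : F)) := by
    rintro ⟨hx, hy⟩
    apply hne
    refine ⟨congrArg (residue A) (Subtype.ext hx), ?_⟩
    rw [negY_coe] at hy
    rw [negY_res]
    exact congrArg (residue A) (Subtype.ext hy)
  have hk : redFun A W hΔ (.some _ _ h₁) + redFun A W hΔ (.some _ _ h₂) =
      .some (residue A (W.toAffine.addX a₁ a₂ l)) (residue A (W.toAffine.addY a₁ a₂ b₁ l))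
        (nonsingular_res hΔ (by
          rw [← addX_coe, ← addY_coe, ← hl]
          exact (nonsingular_add h₁ h₂ hxyF).1)) := by
    rw [redFun_coe, redFun_coe, Point.add_some hne]
    exact some_eq_some _ _ (by rw [hlk, addX_res]) (by rw [hlk, addY_res])
  refine ⟨?_, ?_⟩
  · rw [hk, Point.add_some hxyF]
    obtain ⟨h', e⟩ := redFun_eq_of_coe hΔ (nonsingular_add h₁ h₂ hxyF)
      (W.toAffine.addX a₁ a₂ l) (W.toAffine.addY a₁ a₂ b₁ l)
      (by rw [hl, addX_coe]) (by rw [hl, addY_coe])
    rw [e]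
  · rw [hk]
    exact Point.some_ne_zero _

/-- Case (b) at the level of points. -/
theorem redFun_add_of_eq {a₁ b₁ a₂ b₂ : A} (h₁ : (EF A W).Nonsingular (a₁ : F) (b₁ : F))
    (h₂ : (EF A W).Nonsingular (a₂ : F) (b₂ : F))
    (hx : residue A a₁ = residue A a₂)
    (hy : residue A b₁ = (Ek A W).negY (residue A a₂) (residue A b₂)) :
    redFun A W hΔ (.some _ _ h₁ + .some _ _ h₂) = 0 ∧
    redFun A W hΔ (.some _ _ h₁) + redFun A W hΔ (.some _ _ h₂) = 0 := by
  have e₁ := (equation_coe_iff a₁ b₁).1 h₁.1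
  have e₂ := (equation_coe_iff a₂ b₂).1 h₂.1
  refine ⟨?_, ?_⟩
  · by_cases hxyF : (a₁ : F) = (a₂ : F) ∧ (b₁ : F) = (EF A W).negY (a₂ : F) (b₂ : F)
    · rw [Point.add_of_Y_eq hxyF.1 hxyF.2]; rfl
    · rw [Point.add_some hxyF]
      exact redFun_of_lt hΔ _ (one_lt_val_addX (intCoeff_EF A W) (A.valuation_le_one a₁)
        (A.valuation_le_one a₂) (one_lt_val_slope hΔ e₁ e₂ hx hy hxyF))
  · rw [redFun_coe, redFun_coe, Point.add_of_Y_eq hx hy]

/-- Both points integral: `redFun` is additive. -/
theorem redFun_add_int {a₁ b₁ a₂ b₂ : A} (h₁ : (EF A W).Nonsingular (a₁ : F) (b₁ : F))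
    (h₂ : (EF A W).Nonsingular (a₂ : F) (b₂ : F)) :
    redFun A W hΔ (.some _ _ h₁ + .some _ _ h₂) =
      redFun A W hΔ (.some _ _ h₁) + redFun A W hΔ (.some _ _ h₂) := by
  by_cases hne : residue A a₁ = residue A a₂ ∧
      residue A b₁ = (Ek A W).negY (residue A a₂) (residue A b₂)
  · obtain ⟨e1, e2⟩ := redFun_add_of_eq hΔ h₁ h₂ hne.1 hne.2
    rw [e1, e2]
  · exact (redFun_add_of_ne hΔ h₁ h₂ hne).1

omit [DecidableEq (ResidueField A)] in
/-- Step 1 at the level of points. -/
theorem add_E1_int {x₁ y₁ : F} (h₁ : (EF A W).Nonsingular x₁ y₁) (hx₁ : 1 < A.valuation x₁)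
    {x₂ y₂ : F} (h₂ : (EF A W).Nonsingular x₂ y₂) (hx₂ : A.valuation x₂ ≤ 1) :
    ∃ x₃ y₃ h₃, Point.some _ _ h₁ + .some _ _ h₂ = .some x₃ y₃ h₃ ∧
      A.valuation (x₃ - x₂) < 1 := by
  have hne : x₁ ≠ x₂ := by
    rintro rfl
    exact absurd hx₂ (not_le.2 hx₁)
  refine ⟨_, _, _, Point.add_of_X_ne hne, ?_⟩
  rw [slope_of_X_ne hne]
  exact val_addX_sub_lt_one (intCoeff_EF A W) h₁.1 h₂.1 hx₁ hx₂

omit [DecidableEq (ResidueField A)] in
lemma val_le_one_of_sub_lt {x a : F} (h : A.valuation (x - a) < 1) (ha : A.valuation a ≤ 1) :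
    A.valuation x ≤ 1 := by
  have : x = (x - a) + a := by ring
  rw [this]
  exact Valuation.map_add_le _ h.le ha

/-- Step 3: the kernel of reduction is closed under addition. -/
theorem redFun_add_E1 {x₁ y₁ : F} (h₁ : (EF A W).Nonsingular x₁ y₁) (hx₁ : 1 < A.valuation x₁)
    {x₂ y₂ : F} (h₂ : (EF A W).Nonsingular x₂ y₂) (hx₂ : 1 < A.valuation x₂) :
    redFun A W hΔ (.some _ _ h₁ + .some _ _ h₂) = 0 := by
  rcases hR : (Point.some _ _ h₁ + Point.some _ _ h₂ : (EF A W).Point) with _ | ⟨x, y, h⟩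
  · rfl
  · by_cases hx : A.valuation x ≤ 1
    · exfalso
      -- `P₁ = -P₂ + R` would be integral
      have hneg : -(Point.some _ _ h₂ : (EF A W).Point) =
          .some x₂ ((EF A W).negY x₂ y₂) ((nonsingular_neg ..).2 h₂) := Point.neg_some h₂
      obtain ⟨x₃, y₃, h₃, e, hv⟩ := add_E1_int ((nonsingular_neg ..).2 h₂) hx₂ h hx
      have e2 : (Point.some _ _ h₁ : (EF A W).Point) = .some x₃ y₃ h₃ := by
        rw [← e, ← hneg, ← hR]
        abel
      have hx13 : x₁ = x₃ := by
        simp only [Point.some.injEq] at e2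
        exact e2.1
      rw [hx13] at hx₁
      exact absurd (val_le_one_of_sub_lt hv hx) (not_le.2 hx₁)
    · exact redFun_of_lt hΔ h (not_le.1 hx)

/-- Step 4: adding a point of the kernel of reduction does not change the reduction. -/
theorem redFun_add_E1_int {x₁ y₁ : F} (h₁ : (EF A W).Nonsingular x₁ y₁)
    (hx₁ : 1 < A.valuation x₁) {a₂ b₂ : A} (h₂ : (EF A W).Nonsingular (a₂ : F) (b₂ : F)) :
    redFun A W hΔ (.some _ _ h₁ + .some _ _ h₂) = redFun A W hΔ (.some _ _ h₂) := by
  obtain ⟨x₃, y₃, h₃, e, hv⟩ := add_E1_int h₁ hx₁ h₂ (A.valuation_le_one a₂)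
  have hx₃ : A.valuation x₃ ≤ 1 := val_le_one_of_sub_lt hv (A.valuation_le_one a₂)
  obtain ⟨a₃, b₃, rfl, rfl⟩ := exists_coe_of_le h₃ hx₃
  have hxres : residue A a₃ = residue A a₂ := (res_eq_iff a₃ a₂).2 hv
  rw [e, redFun_coe, redFun_coe]
  refine some_eq_some _ _ hxres ?_
  by_contra hb
  -- then `R + (-Q)` is integral by case (a), but it equals `P`
  have hnegQ : (EF A W).Nonsingular (a₂ : F) ((W.toAffine.negY a₂ b₂ : A) : F) := by
    rw [← negY_coe]; exact (nonsingular_neg ..).2 h₂
  have hneg : -(Point.some _ _ h₂ : (EF A W).Point) = .some _ _ hnegQ := by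
    rw [Point.neg_some]
    exact some_eq_some _ _ rfl (negY_coe a₂ b₂)
  have hne : ¬(residue A a₃ = residue A a₂ ∧
      residue A b₃ = (Ek A W).negY (residue A a₂) (residue A (W.toAffine.negY a₂ b₂))) := by
    rintro ⟨-, h⟩
    rw [← negY_res, negY_negY] at h
    exact hb h
  obtain ⟨hadd, hne0⟩ := redFun_add_of_ne hΔ h₃ hnegQ hne
  apply hne0
  rw [← hadd, ← hneg, ← e]
  have : (Point.some _ _ h₁ + Point.some _ _ h₂ + -Point.some _ _ h₂ : (EF A W).Point) =
      Point.some _ _ h₁ := by abel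
  rw [this]
  exact redFun_of_lt hΔ h₁ hx₁

/-- The reduction map is additive. -/
theorem redFun_add (P Q : (EF A W).Point) :
    redFun A W hΔ (P + Q) = redFun A W hΔ P + redFun A W hΔ Q := by
  rcases P with _ | ⟨x₁, y₁, h₁⟩
  · change redFun A W hΔ (0 + Q) = 0 + redFun A W hΔ Q
    rw [zero_add, zero_add]
  rcases Q with _ | ⟨x₂, y₂, h₂⟩
  · change redFun A W hΔ (_ + 0) = _ + 0
    rw [add_zero, add_zero]
  by_cases hx₁ : A.valuation x₁ ≤ 1
  · obtain ⟨a₁, b₁, rfl, rfl⟩ := exists_coe_of_le h₁ hx₁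
    by_cases hx₂ : A.valuation x₂ ≤ 1
    · obtain ⟨a₂, b₂, rfl, rfl⟩ := exists_coe_of_le h₂ hx₂
      exact redFun_add_int hΔ h₁ h₂
    · have hx₂ := not_le.1 hx₂
      rw [add_comm, redFun_add_E1_int hΔ h₂ hx₂ h₁, redFun_of_lt hΔ h₂ hx₂, add_zero]
  · have hx₁ := not_le.1 hx₁
    by_cases hx₂ : A.valuation x₂ ≤ 1
    · obtain ⟨a₂, b₂, rfl, rfl⟩ := exists_coe_of_le h₂ hx₂
      rw [redFun_add_E1_int hΔ h₁ hx₁ h₂, redFun_of_lt hΔ h₁ hx₁, zero_add]
    · have hx₂ := not_le.1 hx₂
      rw [redFun_add_E1 hΔ h₁ hx₁ h₂ hx₂, redFun_of_lt hΔ h₁ hx₁, redFun_of_lt hΔ h₂ hx₂,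
        add_zero]

variable (A W) in
/-- **The reduction homomorphism** of a Weierstrass curve with good reduction. -/
noncomputable def red (hΔ : (Ek A W).Δ ≠ 0) : (EF A W).Point →+ (Ek A W).Point where
  toFun := redFun A W hΔ
  map_zero' := rfl
  map_add' := redFun_add hΔ

@[simp] lemma red_apply (P : (EF A W).Point) : red A W hΔ P = redFun A W hΔ P := rfl

lemma red_some_coe (a b : A) (h : (EF A W).Nonsingular (a : F) (b : F)) :
    red A W hΔ (.some (a : F) (b : F) h) =
      .some (residue A a) (residue A b) (nonsingular_res hΔ h.1) :=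
  redFun_coe hΔ a b h

lemma red_some_of_lt {x y : F} (h : (EF A W).Nonsingular x y) (hx : 1 < A.valuation x) :
    red A W hΔ (.some x y h) = 0 :=
  redFun_of_lt hΔ h hx

/-- The kernel of reduction: the point at infinity and the points with non-integral `x`. -/
theorem red_eq_zero_iff (P : (EF A W).Point) :
    red A W hΔ P = 0 ↔ P = 0 ∨ ∃ x y h, P = .some x y h ∧ 1 < A.valuation x := by
  rcases P with _ | ⟨x, y, h⟩
  · exact ⟨fun _ => Or.inl rfl, fun _ => rfl⟩
  · constructor
    · intro h0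
      right
      refine ⟨x, y, h, rfl, ?_⟩
      by_contra hx
      obtain ⟨a, b, rfl, rfl⟩ := exists_coe_of_le h (not_lt.1 hx)
      rw [red_some_coe] at h0
      exact Point.some_ne_zero _ h0
    · rintro (h0 | ⟨x', y', h', e, hx⟩)
      · exact absurd h0 (Point.some_ne_zero _)
      · rw [e]; exact red_some_of_lt hΔ h' hx

end red

end Fermat.Agent.Lib.EllFinite.H4
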