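/-
Item 62 (Lib/EllFinite), package SPEC-val (helper28): specialisation of the generic point.

* `Spec.exists_valSubring` : for `(x₀, y₀)` on `W⁄k` there is a valuation subring `B` of the function
  field `KE W k` containing `k` with `gx - x₀, gy - y₀ ∈ 𝔪_B`.
* `Spec.redR` : helper4's reduction homomorphism for a curve over a base ring `R` mapping to `B`.
* `Spec.redR_frob` : reduction commutes with the Frobenius endomorphism.
* `spec_val : Stmt_SPEC_val`.
-/
import Fermat.Agent.Lib.EllFinite.Stmts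
import Fermat.Agent.Lib.EllFinite.H4_Red
import Mathlib.RingTheory.Valuation.LocalSubring

set_option autoImplicit false
set_option linter.unusedSectionVars false
set_option linter.style.haveILetI false

namespace Fermat.Agent.Lib.EllFinite.H28

open WeierstrassCurve WeierstrassCurve.Affine IsLocalRing
open scoped Polynomial

namespace Spec

/-! ### 1. Reduction for a curve over a base ring -/

section layer1

variable {R : Type*} [CommRing R] (W : WeierstrassCurve R)
variable {F : Type*} [Field F] [Algebra R F] (B : ValuationSubring F)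

/-- the structure map into the valuation ring -/
def toB (hB : ∀ r : R, algebraMap R F r ∈ B) : R →+* B :=
  (algebraMap R F).codRestrict B.toSubring hB

lemma coe_toB (hB : ∀ r : R, algebraMap R F r ∈ B) (r : R) :
    ((toB B hB r : B) : F) = algebraMap R F r := rfl

/-- the model over `B` -/
abbrev WB (hB : ∀ r : R, algebraMap R F r ∈ B) : WeierstrassCurve B := W.map (toB B hB)

lemma EF_eq (hB : ∀ r : R, algebraMap R F r ∈ B) : H4.EF B (WB W B hB) = W.toAffine⁄F := rfl

/-- the residue field as an `R`-algebra -/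
@[reducible] noncomputable def algκ (hB : ∀ r : R, algebraMap R F r ∈ B) :
    Algebra R (ResidueField B) :=
  ((residue B).comp (toB B hB)).toAlgebra

lemma Ek_eq (hB : ∀ r : R, algebraMap R F r ∈ B) :
    letI := algκ B hB
    H4.Ek B (WB W B hB) = W.toAffine⁄(ResidueField B) := rfl

variable [DecidableEq F] [DecidableEq (ResidueField B)]

/-- reduction for a curve over the base ring `R` -/
noncomputable def redR (hB : ∀ r : R, algebraMap R F r ∈ B) (hΔ : (H4.Ek B (WB W B hB)).Δ ≠ 0) :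
    (W.toAffine⁄F).Point →+ (H4.Ek B (WB W B hB)).Point :=
  H4.red B (WB W B hB) hΔ

variable {W B}

lemma redR_some_coe (hB : ∀ r : R, algebraMap R F r ∈ B) (hΔ : (H4.Ek B (WB W B hB)).Δ ≠ 0)
    (a b : B) (h : (W.toAffine⁄F).Nonsingular (a : F) (b : F)) :
    redR W B hB hΔ (.some (a : F) (b : F) h) =
      .some (residue B a) (residue B b) (H4.nonsingular_res hΔ (W := WB W B hB) h.1) :=
  H4.red_some_coe hΔ a b h

lemma redR_some_of_lt (hB : ∀ r : R, algebraMap R F r ∈ B) (hΔ : (H4.Ek B (WB W B hB)).Δ ≠ 0)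
    {x y : F} (h : (W.toAffine⁄F).Nonsingular x y) (hx : 1 < B.valuation x) :
    redR W B hB hΔ (.some x y h) = 0 :=
  H4.red_some_of_lt hΔ (W := WB W B hB) h hx

lemma exists_coe (hB : ∀ r : R, algebraMap R F r ∈ B)
    {x y : F} (h : (W.toAffine⁄F).Nonsingular x y) (hx : B.valuation x ≤ 1) :
    ∃ a b : B, x = (a : F) ∧ y = (b : F) :=
  H4.exists_coe_of_le (W := WB W B hB) h hx

end layer1

/-! ### 2. Reduction commutes with Frobenius -/

section frob

variable {ℓ : ℕ} [Fact ℓ.Prime] (W : WeierstrassCurve (ZMod ℓ))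
variable {F : Type*} [Field F] [Algebra (ZMod ℓ) F] (B : ValuationSubring F)

lemma frobPt_some {K : Type*} [Field K] [DecidableEq K] [Algebra (ZMod ℓ) K] {x y : K}
    (h : (W.toAffine⁄K).Nonsingular x y) :
    ∃ h', frobPt ℓ W K (.some x y h) = .some (x ^ ℓ) (y ^ ℓ) h' :=
  ⟨_, rfl⟩

variable [DecidableEq F] [DecidableEq (ResidueField B)]

theorem redR_frob (hB : ∀ r : ZMod ℓ, algebraMap (ZMod ℓ) F r ∈ B)
    (hΔ : (H4.Ek B (WB W B hB)).Δ ≠ 0) (P : (W.toAffine⁄F).Point) :
    letI := algκ B hB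
    redR W B hB hΔ (frobPt ℓ W F P) = frobPt ℓ W (ResidueField B) (redR W B hB hΔ P) := by
  letI := algκ B hB
  rcases P with _ | ⟨x, y, h⟩
  · exact (map_zero _).trans (map_zero _).symm
  · obtain ⟨h', e⟩ := frobPt_some W h
    by_cases hx : B.valuation x ≤ 1
    · obtain ⟨a, b, rfl, rfl⟩ := exists_coe hB h hx
      rw [e]
      have h'' : (W.toAffine⁄F).Nonsingular ((a ^ ℓ : B) : F) ((b ^ ℓ : B) : F) := h'
      have e2 : Point.some _ _ h' = Point.some _ _ h'' := rfl
      rw [e2, redR_some_coe hB hΔ, redR_some_coe hB hΔ]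
      obtain ⟨h3, e3⟩ := frobPt_some (K := ResidueField B) W
        (H4.nonsingular_res hΔ (W := WB W B hB) h.1)
      erw [e3]
      exact H4.some_eq_some _ _ (map_pow _ _ _) (map_pow _ _ _)
    · have hx := not_le.1 hx
      rw [e, redR_some_of_lt hB hΔ h hx, redR_some_of_lt hB hΔ h']
      · exact (map_zero _).symm
      · rw [map_pow]
        exact one_lt_pow₀ hx (Fact.out : ℓ.Prime).ne_zero

end frob

/-! ### 3. The inclusion of the constant points -/

section incl

variable (ℓ : ℕ) [Fact ℓ.Prime] (W : WeierstrassCurve (ZMod ℓ))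
variable {k : Type*} [Field k] [Algebra (ZMod ℓ) k]
variable {F : Type*} [Field F] [Algebra (ZMod ℓ) F] [Algebra k F] [IsScalarTower (ZMod ℓ) k F]
variable (B : ValuationSubring F)

/-- the constants, in `B` -/
def kB (hk : ∀ c : k, algebraMap k F c ∈ B) : k →+* B :=
  (algebraMap k F).codRestrict B.toSubring hk

lemma coe_kB (hk : ∀ c : k, algebraMap k F c ∈ B) (c : k) :
    ((kB B hk c : B) : F) = algebraMap k F c := rfl

/-- the constants, in the residue field -/
noncomputable def kκ (hk : ∀ c : k, algebraMap k F c ∈ B) : k →+* ResidueField B :=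
  (residue B).comp (kB B hk)

lemma hB_of_hk (hk : ∀ c : k, algebraMap k F c ∈ B) (r : ZMod ℓ) :
    algebraMap (ZMod ℓ) F r ∈ B := by
  rw [IsScalarTower.algebraMap_apply (ZMod ℓ) k F]
  exact hk _

/-- the constants, in the residue field, as an algebra map -/
noncomputable def kκAlg (hk : ∀ c : k, algebraMap k F c ∈ B) :
    letI := algκ (R := ZMod ℓ) B (hB_of_hk ℓ B hk)
    k →ₐ[ZMod ℓ] ResidueField B :=
  letI := algκ (R := ZMod ℓ) B (hB_of_hk ℓ B hk)
  { kκ B hk with
    commutes' := fun r => by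
      change residue B (kB B hk (algebraMap (ZMod ℓ) k r)) =
        residue B (toB B (hB_of_hk ℓ B hk) r)
      congr 1
      apply Subtype.ext
      rw [coe_kB, coe_toB, ← IsScalarTower.algebraMap_apply (ZMod ℓ) k F] }

lemma kκAlg_apply (hk : ∀ c : k, algebraMap k F c ∈ B) (c : k) :
    letI := algκ (R := ZMod ℓ) B (hB_of_hk ℓ B hk)
    kκAlg ℓ B hk c = kκ B hk c := rfl

variable [DecidableEq k] [DecidableEq (ResidueField B)]

/-- the inclusion `E(k) → E(κ)` -/
noncomputable def incl (hk : ∀ c : k, algebraMap k F c ∈ B) :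
    letI := algκ (R := ZMod ℓ) B (hB_of_hk ℓ B hk)
    (W.toAffine⁄k).Point →+ (W.toAffine⁄(ResidueField B)).Point :=
  letI := algκ (R := ZMod ℓ) B (hB_of_hk ℓ B hk)
  Point.map (W' := W.toAffine) (kκAlg ℓ B hk)

lemma incl_injective (hk : ∀ c : k, algebraMap k F c ∈ B) :
    Function.Injective (incl ℓ W B hk) :=
  letI := algκ (R := ZMod ℓ) B (hB_of_hk ℓ B hk)
  Point.map_injective (W' := W.toAffine) (kκAlg ℓ B hk)

lemma incl_some (hk : ∀ c : k, algebraMap k F c ∈ B) {x y : k}
    (h : (W.toAffine⁄k).Nonsingular x y) :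
    letI := algκ (R := ZMod ℓ) B (hB_of_hk ℓ B hk)
    ∃ h', incl ℓ W B hk (.some x y h) = .some (kκ B hk x) (kκ B hk y) h' :=
  ⟨_, rfl⟩

lemma incl_frob (hk : ∀ c : k, algebraMap k F c ∈ B) (P : (W.toAffine⁄k).Point) :
    letI := algκ (R := ZMod ℓ) B (hB_of_hk ℓ B hk)
    incl ℓ W B hk (frobPt ℓ W k P) = frobPt ℓ W (ResidueField B) (incl ℓ W B hk P) := by
  letI := algκ (R := ZMod ℓ) B (hB_of_hk ℓ B hk)
  unfold incl frobPt
  rw [Point.map_map, Point.map_map]
  have e : (kκAlg ℓ B hk).comp (frobAlgHom ℓ k) =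
      (frobAlgHom ℓ (ResidueField B)).comp (kκAlg ℓ B hk) := by
    ext c
    exact (map_pow (kκAlg ℓ B hk) c ℓ)
  rw [e]

end incl

/-! ### 4. Specialisation at a point, abstract form -/

section main

variable (ℓ : ℕ) [Fact ℓ.Prime] (W : WeierstrassCurve (ZMod ℓ))
variable {k : Type*} [Field k] [Algebra (ZMod ℓ) k]
variable {F : Type*} [Field F] [Algebra (ZMod ℓ) F] [Algebra k F] [IsScalarTower (ZMod ℓ) k F]
variable (B : ValuationSubring F)

lemma Ek_Δ_ne_zero (hW : W.Δ ≠ 0) (hB : ∀ r : ZMod ℓ, algebraMap (ZMod ℓ) F r ∈ B) :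
    (H4.Ek B (WB W B hB)).Δ ≠ 0 := by
  change ((W.map (toB B hB)).map (residue B)).Δ ≠ 0
  rw [WeierstrassCurve.map_map, WeierstrassCurve.map_Δ]
  exact (map_ne_zero_iff _ (RingHom.injective _)).2 hW

/-- polynomials in an element of `B` congruent to a constant. -/
lemma exists_aeval (hk : ∀ c : k, algebraMap k F c ∈ B) {gx : F} {x₀ : k}
    (hvx : B.valuation (gx - algebraMap k F x₀) < 1) (p : k[X]) :
    ∃ b : B, (b : F) = Polynomial.aeval gx p ∧ residue B b = kκ B hk (p.eval x₀) := by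
  have hgx : B.valuation gx ≤ 1 := by
    have : gx = (gx - algebraMap k F x₀) + algebraMap k F x₀ := by ring
    rw [this]
    exact (B.valuation.map_add_le hvx.le ((B.valuation_le_one_iff _).2 (hk x₀)))
  set a : B := ⟨gx, (B.valuation_le_one_iff _).1 hgx⟩ with ha
  have hra : residue B a = kκ B hk x₀ := by
    change residue B a = residue B (kB B hk x₀)
    rw [H4.res_eq_iff]
    exact hvx
  induction p using Polynomial.induction_on' with
  | add p q hp hq =>
    obtain ⟨b₁, e₁, r₁⟩ := hp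
    obtain ⟨b₂, e₂, r₂⟩ := hq
    refine ⟨b₁ + b₂, ?_, ?_⟩
    · rw [map_add, ← e₁, ← e₂]; rfl
    · rw [map_add, r₁, r₂, Polynomial.eval_add, map_add]
  | monomial n c =>
    refine ⟨kB B hk c * a ^ n, ?_, ?_⟩
    · rw [Polynomial.aeval_monomial]; rfl
    · rw [map_mul, map_pow, hra, Polynomial.eval_monomial, map_mul, map_pow]; rfl

variable [DecidableEq k] [DecidableEq F] [DecidableEq (ResidueField B)]

/-- the generic point reduces to `P₀`. -/
lemma redR_gen (hk : ∀ c : k, algebraMap k F c ∈ B)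
    (hΔ : (H4.Ek B (WB W B (hB_of_hk ℓ B hk))).Δ ≠ 0) {gx gy : F}
    (hg : (W.toAffine⁄F).Nonsingular gx gy) {x₀ y₀ : k} (h₀ : (W.toAffine⁄k).Nonsingular x₀ y₀)
    (hvx : B.valuation (gx - algebraMap k F x₀) < 1)
    (hvy : B.valuation (gy - algebraMap k F y₀) < 1) :
    redR W B (hB_of_hk ℓ B hk) hΔ (.some gx gy hg) = incl ℓ W B hk (.some x₀ y₀ h₀) := by
  have hgx : B.valuation gx ≤ 1 := by
    have : gx = (gx - algebraMap k F x₀) + algebraMap k F x₀ := by ring
    rw [this]
    exact (B.valuation.map_add_le hvx.le ((B.valuation_le_one_iff _).2 (hk x₀)))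
  obtain ⟨a, b, rfl, rfl⟩ := exists_coe (hB_of_hk ℓ B hk) hg hgx
  rw [redR_some_coe]
  obtain ⟨h', e⟩ := incl_some ℓ W B hk h₀
  rw [e]
  apply H4.some_eq_some
  · change residue B a = residue B (kB B hk x₀)
    rw [H4.res_eq_iff]; exact hvx
  · change residue B b = residue B (kB B hk y₀)
    rw [H4.res_eq_iff]; exact hvy

/-- **Specialisation, abstract form.** -/
theorem spec_abstract (hk : ∀ c : k, algebraMap k F c ∈ B)
    (hΔ : (H4.Ek B (WB W B (hB_of_hk ℓ B hk))).Δ ≠ 0) {gx gy : F}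
    (hg : (W.toAffine⁄F).Nonsingular gx gy) {x₀ y₀ : k} (h₀ : (W.toAffine⁄k).Nonsingular x₀ y₀)
    (hvx : B.valuation (gx - algebraMap k F x₀) < 1)
    (hvy : B.valuation (gy - algebraMap k F y₀) < 1)
    (m n : ℤ) {u y : F} (h : (W.toAffine⁄F).Nonsingular u y)
    (hQ : m • (Point.some gx gy hg) + n • frobPt ℓ W F (Point.some gx gy hg) = Point.some u y h)
    (N D : k[X]) (hu : u = Polynomial.aeval gx N / Polynomial.aeval gx D)
    (hD : D.eval x₀ ≠ 0) :
    ∃ (y₁ : k) (h₁ : (W.toAffine⁄k).Nonsingular (N.eval x₀ / D.eval x₀) y₁),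
      m • (Point.some x₀ y₀ h₀) + n • frobPt ℓ W k (Point.some x₀ y₀ h₀)
        = Point.some (N.eval x₀ / D.eval x₀) y₁ h₁ := by
  letI := algκ (R := ZMod ℓ) B (hB_of_hk ℓ B hk)
  have hB := hB_of_hk ℓ B hk
  -- reduce `Q`
  have key : redR W B hB hΔ (Point.some u y h) =
      incl ℓ W B hk (m • (Point.some x₀ y₀ h₀) + n • frobPt ℓ W k (Point.some x₀ y₀ h₀)) := by
    rw [← hQ, map_add, map_zsmul, map_zsmul, map_add, map_zsmul, map_zsmul, redR_frob,
      redR_gen ℓ W B hk hΔ hg h₀ hvx hvy, incl_frob]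
    rfl
  -- the `x`-coordinate
  obtain ⟨bN, eN, rN⟩ := exists_aeval B hk hvx N
  obtain ⟨bD, eD, rD⟩ := exists_aeval B hk hvx D
  have hrD : residue B bD ≠ 0 := by
    rw [rD]; exact (map_ne_zero_iff _ (RingHom.injective _)).2 hD
  have hbD : IsUnit bD := H4.isUnit_of_res_ne_zero hrD
  obtain ⟨c, hc⟩ := hbD.exists_right_inv
  have hcF : (bD : F) * (c : F) = 1 := by
    have := congrArg (Subtype.val) hc
    simpa using this
  have hbD0 : (bD : F) ≠ 0 := left_ne_zero_of_mul_eq_one hcF
  have huB : u = ((bN * c : B) : F) := by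
    rw [hu, ← eN, ← eD, div_eq_iff hbD0]
    push_cast
    linear_combination (-(bN : F)) * hcF
  have hvu : B.valuation u ≤ 1 := by
    rw [huB]; exact B.valuation_le_one _
  obtain ⟨a, b, ea, eb⟩ := exists_coe hB h hvu
  subst ea eb
  rw [redR_some_coe] at key
  have hra : residue B a = kκ B hk (N.eval x₀ / D.eval x₀) := by
    have : a = bN * c := Subtype.ext huB
    rw [this, map_mul, rN, map_div₀, div_eq_mul_inv]
    congr 1
    have h1 : residue B bD * residue B c = 1 := by rw [← map_mul, hc, map_one]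
    rw [← rD]
    exact (eq_inv_of_mul_eq_one_right h1)
  -- descend
  rcases hP : m • (Point.some x₀ y₀ h₀) + n • frobPt ℓ W k (Point.some x₀ y₀ h₀) with _ | ⟨x₁, y₁, h₁⟩
  · rw [hP] at key
    exact absurd key (Point.some_ne_zero _)
  · rw [hP] at key
    obtain ⟨h', e⟩ := incl_some ℓ W B hk h₁
    rw [e] at key
    have hx : kκ B hk x₁ = kκ B hk (N.eval x₀ / D.eval x₀) := by
      have := (Point.some.inj key).1
      rw [← this, hra]
    have hx' : x₁ = N.eval x₀ / D.eval x₀ := (RingHom.injective _) hx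
    subst hx'
    exact ⟨y₁, h₁, rfl⟩

end main

/-! ### 5. A valuation subring of the function field centred at a point -/

section exist

variable {R : Type*} [CommRing R] (W : WeierstrassCurve R) (k : Type*) [Field k] [Algebra R k]

lemma XYIdeal_ne_top {x₀ y₀ : k} (h : (W.toAffine⁄k).Equation x₀ y₀) :
    CoordinateRing.XYIdeal (W.toAffine⁄k) x₀ (Polynomial.C y₀) ≠ ⊤ := by
  intro htop
  have e := CoordinateRing.quotientXYIdealEquiv (W' := W.toAffine⁄k) (x := x₀)
    (y := Polynomial.C y₀) h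
  have : Subsingleton ((W.toAffine⁄k).CoordinateRing ⧸
      CoordinateRing.XYIdeal (W.toAffine⁄k) x₀ (Polynomial.C y₀)) :=
    Ideal.Quotient.subsingleton_iff.2 htop
  have h01 : (0 : k) = 1 := by
    rw [← map_zero e, ← map_one e]
    exact congrArg e (Subsingleton.elim _ _)
  exact zero_ne_one h01

lemma gx_eq : gx W k = algebraMap (W.toAffine⁄k).CoordinateRing (KE W k)
    (CoordinateRing.mk (W.toAffine⁄k) (Polynomial.C Polynomial.X)) := by
  unfold gx
  rw [IsScalarTower.algebraMap_apply k[X] (W.toAffine⁄k).CoordinateRing (KE W k)]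
  rfl

lemma algebraMap_k_eq (c : k) : algebraMap k (KE W k) c =
    algebraMap (W.toAffine⁄k).CoordinateRing (KE W k)
      (CoordinateRing.mk (W.toAffine⁄k) (Polynomial.C (Polynomial.C c))) := by
  rw [IsScalarTower.algebraMap_apply k (W.toAffine⁄k).CoordinateRing (KE W k)]
  rfl

theorem exists_valSubring {x₀ y₀ : k} (h : (W.toAffine⁄k).Equation x₀ y₀) :
    ∃ B : ValuationSubring (KE W k), (∀ c : k, algebraMap k (KE W k) c ∈ B) ∧
      B.valuation (gx W k - algebraMap k (KE W k) x₀) < 1 ∧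
      B.valuation (gy W k - algebraMap k (KE W k) y₀) < 1 := by
  set φ : (W.toAffine⁄k).CoordinateRing →+* KE W k :=
    algebraMap (W.toAffine⁄k).CoordinateRing (KE W k) with hφ
  have hinj : Function.Injective φ := IsFractionRing.injective _ _
  set I : Ideal φ.range :=
    (CoordinateRing.XYIdeal (W.toAffine⁄k) x₀ (Polynomial.C y₀)).map φ.rangeRestrict with hI
  have hI_ne : I ≠ ⊤ := by
    intro htop
    have h1 : (1 : φ.range) ∈ I := by rw [htop]; trivial
    rw [hI, Ideal.mem_map_iff_of_surjective _ φ.rangeRestrict_surjective] at h1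
    obtain ⟨a, ha, e⟩ := h1
    have : φ a = φ 1 := by
      have := congrArg Subtype.val e
      simpa using this
    have ha1 : a = 1 := hinj this
    rw [ha1] at ha
    exact XYIdeal_ne_top W k h ((Ideal.eq_top_iff_one _).2 ha)
  obtain ⟨B, hAB, hIB⟩ := Ideal.image_subset_nonunits_valuationSubring I hI_ne
  have hmem : ∀ a, φ a ∈ B := fun a => hAB ⟨a, rfl⟩
  have hnon : ∀ a ∈ CoordinateRing.XYIdeal (W.toAffine⁄k) x₀ (Polynomial.C y₀),
      B.valuation (φ a) < 1 := by
    intro a ha
    rw [← ValuationSubring.mem_nonunits_iff]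
    apply hIB
    exact ⟨φ.rangeRestrict a, Ideal.mem_map_of_mem _ ha, rfl⟩
  refine ⟨B, ?_, ?_, ?_⟩
  · intro c
    rw [algebraMap_k_eq]
    exact hmem _
  · have : gx W k - algebraMap k (KE W k) x₀ = φ (CoordinateRing.XClass (W.toAffine⁄k) x₀) := by
      rw [gx_eq, algebraMap_k_eq, ← map_sub, CoordinateRing.XClass, ← map_sub, ← Polynomial.C_sub]
    rw [this]
    exact hnon _ (Ideal.subset_span (by simp))
  · have : gy W k - algebraMap k (KE W k) y₀ =
        φ (CoordinateRing.YClass (W.toAffine⁄k) (Polynomial.C y₀)) := by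
      unfold gy
      rw [algebraMap_k_eq, ← map_sub, CoordinateRing.YClass, ← map_sub]
    rw [this]
    exact hnon _ (Ideal.subset_span (by simp))

end exist

/-! ### 6. `Stmt_SPEC_val` -/

section final

variable {R : Type*} [CommRing R] (W : WeierstrassCurve R) (k : Type*) [Field k] [Algebra R k]

lemma algebraMap_poly_eq_aeval (p : k[X]) :
    algebraMap k[X] (KE W k) p = Polynomial.aeval (gx W k) p := by
  have : (IsScalarTower.toAlgHom k k[X] (KE W k)) = Polynomial.aeval (gx W k) := by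
    apply Polynomial.algHom_ext
    rw [Polynomial.aeval_X]
    rfl
  exact congrArg (fun f : k[X] →ₐ[k] KE W k => f p) this

lemma ratEmb_eq (r : RatFunc k) :
    ratEmb W k r = Polynomial.aeval (gx W k) r.num / Polynomial.aeval (gx W k) r.denom := by
  unfold ratEmb
  rw [RatFunc.liftAlgHom_apply, ← algebraMap_poly_eq_aeval, ← algebraMap_poly_eq_aeval]
  rfl

end final

end Spec

open Spec in
/-- **SPEC-val.** -/
theorem spec_val : Stmt_SPEC_val := by
  intro ℓ _ W hW k _ _ _ m n r y h hQ x₀ y₀ h₀ hD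
  classical
  by_cases hg : (W.toAffine⁄(KE W k)).Nonsingular (gx W k) (gy W k)
  · have hgen : gen W k = Point.some (gx W k) (gy W k) hg := by
      unfold gen; rw [dif_pos hg]
    rw [hgen] at hQ
    obtain ⟨B, hk, hvx, hvy⟩ := exists_valSubring W k h₀.1
    have hΔ := Ek_Δ_ne_zero ℓ W B hW (hB_of_hk ℓ B hk)
    exact spec_abstract ℓ W B hk hΔ hg h₀ hvx hvy m n h hQ r.num r.denom (ratEmb_eq W k r) hD
  · have hgen : gen W k = 0 := by
      unfold gen; rw [dif_neg hg]
    rw [hgen, map_zero, zsmul_zero, zsmul_zero, add_zero] at hQ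
    exact absurd hQ.symm (Point.some_ne_zero _)

end Fermat.Agent.Lib.EllFinite.H28

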