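/-
Item 62, package RED-TORS (helper46), on top of helper4's reduction homomorphism `H4.red`:
for a valuation subring `A` of an algebraically closed field `F` and a Weierstrass curve over `A`
with good reduction, the reduction `E[n](F) → E~[n](k)` is bijective for `n` prime to the residue
characteristic.
-/
import Fermat.Agent.Lib.EllFinite.H4_Red
import Fermat.Agent.Lib.TorsionGen.Count
import Mathlib.RingTheory.Valuation.Integral
import Mathlib.RingTheory.Valuation.LocalSubring
import Mathlib.Algebra.Polynomial.Lifts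
import Mathlib.FieldTheory.IsAlgClosed.Basic

set_option autoImplicit false

namespace Fermat.Agent.Lib.EllFinite.H46

open WeierstrassCurve WeierstrassCurve.Affine IsLocalRing Polynomial
open Fermat.Agent.Lib.EllFinite.H4

variable {F : Type*} [Field F] (A : ValuationSubring F)

/-- An element of `F` which is integral over `A` lies in `A`. -/
lemma mem_of_isIntegral {x : F} (hx : IsIntegral A x) : x ∈ A := by
  obtain ⟨a, ha⟩ := IsIntegrallyClosed.isIntegral_iff.mp hx
  rw [← ha]
  exact a.2

/-- A root of a polynomial over `A` with unit leading coefficient lies in `A`. -/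
lemma mem_of_root_of_isUnit_leadingCoeff {p : A[X]} (hu : IsUnit p.leadingCoeff) {x : F}
    (hx : (p.map (algebraMap A F)).eval x = 0) : x ∈ A := by
  apply mem_of_isIntegral
  obtain ⟨u, hu'⟩ := hu
  refine ⟨C (↑u⁻¹ : A) * p, ?_, ?_⟩
  · apply monic_C_mul_of_mul_leadingCoeff_eq_one
    rw [← hu']
    exact u.inv_mul
  · rw [eval₂_mul, eval₂_C, eval₂_eq_eval_map, hx, mul_zero]

/-- The residue field of a valuation subring of an algebraically closed field is algebraically
closed. -/
theorem isAlgClosed_residueField [IsAlgClosed F] : IsAlgClosed (ResidueField A) := by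
  apply IsAlgClosed.of_exists_root
  intro p hp hirr
  obtain ⟨q, hq, hqdeg, hqm⟩ := lifts_and_natDegree_eq_and_monic
    (mem_lifts_of_surjective (residue_surjective (R := A)) p) hp
  have hdeg : (q.map (algebraMap A F)).degree ≠ 0 := by
    rw [degree_map_eq_of_injective (FaithfulSMul.algebraMap_injective A F),
      degree_eq_natDegree hqm.ne_zero, hqdeg]
    have := hirr.natDegree_pos
    exact_mod_cast this.ne'
  obtain ⟨x, hx⟩ := IsAlgClosed.exists_root (q.map (algebraMap A F)) hdeg
  have hxA : x ∈ A :=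
    mem_of_root_of_isUnit_leadingCoeff A (by rw [hqm.leadingCoeff]; exact isUnit_one) hx
  refine ⟨residue A ⟨x, hxA⟩, ?_⟩
  have h1 : q.eval (⟨x, hxA⟩ : A) = 0 := by
    apply FaithfulSMul.algebraMap_injective A F
    rw [map_zero, ← hx, eval_map, ← eval₂_hom]
    rfl
  rw [← hq, eval_map, eval₂_hom, h1, map_zero]

section Torsion

variable {A} {W : WeierstrassCurve A}

/-- `n` is a unit of `A` if it is nonzero in the residue field. -/
lemma isUnit_natCast {n : ℕ} (hn : (n : ResidueField A) ≠ 0) : IsUnit (n : A) := by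
  apply isUnit_of_res_ne_zero
  rwa [map_natCast]

lemma natCast_ne_zero_of_residue {n : ℕ} (hn : (n : ResidueField A) ≠ 0) : (n : F) ≠ 0 := by
  have h1 : (n : A) ≠ 0 := (isUnit_natCast hn).ne_zero
  intro h0
  apply h1
  apply Subtype.ext
  simpa using h0

/-- The generic fibre is an elliptic curve if the special fibre is. -/
lemma EF_Δ_ne_zero (hΔ : (Ek A W).Δ ≠ 0) : (EF A W).Δ ≠ 0 := by
  have h1 : (Ek A W).Δ = residue A W.Δ := map_Δ _ _
  have h2 : (EF A W).Δ = algebraMap A F W.Δ := map_Δ _ _
  rw [h1] at hΔ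
  rw [h2]
  have h3 : W.Δ ≠ 0 := (isUnit_of_res_ne_zero hΔ).ne_zero
  exact fun h0 => h3 (FaithfulSMul.algebraMap_injective A F (by rw [h0, map_zero]))

variable [DecidableEq F]

/-- **Integrality of torsion**: a point of order `n` prime to the residue characteristic has
integral `x`-coordinate. -/
theorem x_mem_of_nsmul_eq_zero {n : ℕ} (hn : (n : ResidueField A) ≠ 0) {x y : F}
    (h : (EF A W).Nonsingular x y) (h0 : n • Point.some x y h = 0) : x ∈ A := by
  have hu : IsUnit (n : A) := isUnit_natCast hn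
  have hne : ((n : ℤ) : A) ≠ 0 := by
    rw [Int.cast_natCast]; exact hu.ne_zero
  have hlc : (W.ΨSq (n : ℤ)).leadingCoeff = ((n : ℤ) : A) ^ 2 := W.leadingCoeff_ΨSq hne
  have hroot := (Fermat.Agent.Lib.TorsionGen.nsmul_eq_zero_iff_eval_ΨSq h n).mp h0
  have hmap : (EF A W).ΨSq (n : ℤ) = (W.ΨSq (n : ℤ)).map (algebraMap A F) := map_ΨSq _ _ _
  rw [hmap] at hroot
  apply mem_of_root_of_isUnit_leadingCoeff A _ hroot
  rw [hlc, Int.cast_natCast]
  exact hu.pow 2

variable [DecidableEq (ResidueField A)]

/-- **Injectivity of reduction on torsion** prime to the residue characteristic. -/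
theorem eq_zero_of_red_eq_zero (hΔ : (Ek A W).Δ ≠ 0) {n : ℕ} (hn : (n : ResidueField A) ≠ 0)
    {P : (EF A W).Point} (h0 : n • P = 0) (hred : red A W hΔ P = 0) : P = 0 := by
  rcases (red_eq_zero_iff hΔ P).mp hred with h | ⟨x, y, h, rfl, hx⟩
  · exact h
  · exfalso
    have := x_mem_of_nsmul_eq_zero hn h h0
    rw [← A.valuation_le_one_iff] at this
    exact absurd hx (not_lt.mpr this)

/-- The reduction map on `n`-torsion. -/
noncomputable def redTors (hΔ : (Ek A W).Δ ≠ 0) (n : ℕ) :
    Submodule.torsionBy ℤ (EF A W).Point (n : ℤ) →ₗ[ℤ]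
      Submodule.torsionBy ℤ (Ek A W).Point (n : ℤ) :=
  (red A W hΔ).toIntLinearMap.restrict (by
    intro P hP
    rw [Submodule.mem_torsionBy_iff] at hP ⊢
    rw [AddMonoidHom.coe_toIntLinearMap, ← map_zsmul, hP, map_zero])

@[simp] lemma redTors_coe (hΔ : (Ek A W).Δ ≠ 0) (n : ℕ)
    (P : Submodule.torsionBy ℤ (EF A W).Point (n : ℤ)) :
    ((redTors hΔ n P : Submodule.torsionBy ℤ (Ek A W).Point (n : ℤ)) : (Ek A W).Point) =
      red A W hΔ (P : (EF A W).Point) := rfl

theorem redTors_injective (hΔ : (Ek A W).Δ ≠ 0) {n : ℕ} (hn : (n : ResidueField A) ≠ 0) :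
    Function.Injective (redTors (W := W) hΔ n) := by
  rw [← LinearMap.ker_eq_bot, LinearMap.ker_eq_bot']
  intro P hP
  apply Subtype.ext
  have h1 : red A W hΔ (P : (EF A W).Point) = 0 := by
    rw [← redTors_coe, hP]; rfl
  have h2 : n • (P : (EF A W).Point) = 0 := by
    have := P.2
    rw [Submodule.mem_torsionBy_iff, natCast_zsmul] at this
    exact this
  exact eq_zero_of_red_eq_zero hΔ hn h2 h1

/-- **RED-TORS**: over an algebraically closed field, reduction is a bijection
`E[n](F) → E~[n](k)` for `n` prime to the residue characteristic. -/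
theorem redTors_bijective [IsAlgClosed F] (hΔ : (Ek A W).Δ ≠ 0) {n : ℕ}
    (hn : (n : ResidueField A) ≠ 0) : Function.Bijective (redTors (W := W) hΔ n) := by
  have : IsAlgClosed (ResidueField A) := isAlgClosed_residueField A
  have hcF := Fermat.Agent.Lib.TorsionGen.card_torsionBy_eq (W := EF A W) (EF_Δ_ne_zero hΔ)
    (natCast_ne_zero_of_residue hn)
  have hck := Fermat.Agent.Lib.TorsionGen.card_torsionBy_eq (W := Ek A W) hΔ hn
  have hn0 : n ≠ 0 := by rintro rfl; simp at hn
  have : Finite (Submodule.torsionBy ℤ (Ek A W).Point (n : ℤ)) := by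
    apply Nat.finite_of_card_ne_zero
    rw [hck]; positivity
  exact (redTors_injective hΔ hn).bijective_of_nat_card_le (by rw [hcF, hck])

/-- The reduction isomorphism on `n`-torsion. -/
noncomputable def redTorsEquiv [IsAlgClosed F] (hΔ : (Ek A W).Δ ≠ 0) {n : ℕ}
    (hn : (n : ResidueField A) ≠ 0) :
    Submodule.torsionBy ℤ (EF A W).Point (n : ℤ) ≃ₗ[ℤ]
      Submodule.torsionBy ℤ (Ek A W).Point (n : ℤ) :=
  LinearEquiv.ofBijective (redTors hΔ n) (redTors_bijective hΔ hn)

@[simp] lemma redTorsEquiv_coe [IsAlgClosed F] (hΔ : (Ek A W).Δ ≠ 0) {n : ℕ}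
    (hn : (n : ResidueField A) ≠ 0) (P : Submodule.torsionBy ℤ (EF A W).Point (n : ℤ)) :
    ((redTorsEquiv hΔ hn P : Submodule.torsionBy ℤ (Ek A W).Point (n : ℤ)) : (Ek A W).Point) =
      red A W hΔ (P : (EF A W).Point) := rfl

end Torsion

end Fermat.Agent.Lib.EllFinite.H46
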