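/-
Item 62 (Lib/EllFinite), coordinator helper7: EXACT interfaces of the remaining work packages.
Notation: `ℓ` prime, `W : WeierstrassCurve (ZMod ℓ)`, `k` a field over `ZMod ℓ`,
`gen W k` the generic point over `KE W k`, `Φ = frobPt ℓ W (KE W k)`, `φ = frobPt ℓ W k`.
-/
import Fermat.Agent.Lib.EllFinite.Defs

set_option autoImplicit false

namespace Fermat.Agent.Lib.EllFinite

open WeierstrassCurve WeierstrassCurve.Affine

/-- (TGEN) The quadratic relation for the generic point, with the degree form. -/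
def Stmt_TGEN : Prop :=
  ∀ (ℓ : ℕ) [Fact ℓ.Prime] (W : WeierstrassCurve (ZMod ℓ)), W.Δ ≠ 0 →
  ∀ (k : Type) [Field k] [Algebra (ZMod ℓ) k],
    ∃ t : ℤ,
      frobPt ℓ W (KE W k) (frobPt ℓ W (KE W k) (gen W k))
          - t • frobPt ℓ W (KE W k) (gen W k) + (ℓ : ℤ) • gen W k = 0 ∧
      ∀ m n : ℤ, IsOdd W k (m • gen W k + n • frobPt ℓ W (KE W k) (gen W k)) ∧
        (ht W k (m • gen W k + n • frobPt ℓ W (KE W k) (gen W k)) : ℤ)
          = m ^ 2 + t * m * n + ℓ * n ^ 2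

/-- (SPEC-rel) A `ℤ`-linear relation between `gen, Φ gen, Φ² gen` holds at every point of `E(k)`. -/
def Stmt_SPEC_rel : Prop :=
  ∀ (ℓ : ℕ) [Fact ℓ.Prime] (W : WeierstrassCurve (ZMod ℓ)), W.Δ ≠ 0 →
  ∀ (k : Type) [Field k] [DecidableEq k] [Algebra (ZMod ℓ) k] (a b c : ℤ),
    a • gen W k + b • frobPt ℓ W (KE W k) (gen W k)
        + c • frobPt ℓ W (KE W k) (frobPt ℓ W (KE W k) (gen W k)) = 0 →
    ∀ P : (W.toAffine⁄k).Point,
      a • P + b • frobPt ℓ W k P + c • frobPt ℓ W k (frobPt ℓ W k P) = 0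

/-- (SPEC-val) If `m gen + n Φ gen` has `x`-coordinate `r ∈ k(x)`, then `m P₀ + n φ P₀` is an affine
point with `x`-coordinate `r(x₀)`, for every `P₀ = (x₀, y₀) ∈ E(k)` outside the poles of `r`. -/
def Stmt_SPEC_val : Prop :=
  ∀ (ℓ : ℕ) [Fact ℓ.Prime] (W : WeierstrassCurve (ZMod ℓ)), W.Δ ≠ 0 →
  ∀ (k : Type) [Field k] [DecidableEq k] [Algebra (ZMod ℓ) k] (m n : ℤ) (r : RatFunc k)
    (y : KE W k) (h : (W.toAffine⁄(KE W k)).Nonsingular (ratEmb W k r) y),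
    m • gen W k + n • frobPt ℓ W (KE W k) (gen W k) = Point.some (ratEmb W k r) y h →
    ∀ (x₀ y₀ : k) (h₀ : (W.toAffine⁄k).Nonsingular x₀ y₀), r.denom.eval x₀ ≠ 0 →
      ∃ (y₁ : k) (h₁ : (W.toAffine⁄k).Nonsingular (r.num.eval x₀ / r.denom.eval x₀) y₁),
        m • (Point.some x₀ y₀ h₀) + n • frobPt ℓ W k (Point.some x₀ y₀ h₀)
          = Point.some (r.num.eval x₀ / r.denom.eval x₀) y₁ h₁

/-- (SEP) `1 - Φ` is separable: the `x`-coordinate of `gen - Φ gen` has nonzero Wronskian. -/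
def Stmt_SEP : Prop :=
  ∀ (ℓ : ℕ) [Fact ℓ.Prime] (W : WeierstrassCurve (ZMod ℓ)), W.Δ ≠ 0 →
  ∀ (k : Type) [Field k] [Algebra (ZMod ℓ) k] (r : RatFunc k)
    (y : KE W k) (h : (W.toAffine⁄(KE W k)).Nonsingular (ratEmb W k r) y),
    gen W k - frobPt ℓ W (KE W k) (gen W k) = Point.some (ratEmb W k r) y h →
    Polynomial.derivative r.num * r.denom - r.num * Polynomial.derivative r.denom ≠ 0

/-- (CNT) degree = (size of the kernel) × (inseparable degree), for `α = m + n φ`. -/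
def Stmt_CNT : Prop :=
  ∀ (ℓ : ℕ) [Fact ℓ.Prime] (W : WeierstrassCurve (ZMod ℓ)), W.Δ ≠ 0 →
  ∀ (k : Type) [Field k] [IsAlgClosed k] [DecidableEq k] [Algebra (ZMod ℓ) k] (m n : ℤ)
    (r : RatFunc k) (y : KE W k) (h : (W.toAffine⁄(KE W k)).Nonsingular (ratEmb W k r) y),
    m • gen W k + n • frobPt ℓ W (KE W k) (gen W k) = Point.some (ratEmb W k r) y h →
    (¬ ∃ c, r = RatFunc.C c) →
    ∃ e : ℕ,
      ((Polynomial.derivative r.num * r.denom - r.num * Polynomial.derivative r.denom ≠ 0) → e = 0) ∧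
      Nat.card {P : (W.toAffine⁄k).Point // m • P + n • frobPt ℓ W k P = 0} * ℓ ^ e = H80.rdeg r

/-- (FIX) The fixed points of Frobenius on `E(k)` are the `ZMod ℓ`-points. -/
def Stmt_FIX : Prop :=
  ∀ (ℓ : ℕ) [Fact ℓ.Prime] (W : WeierstrassCurve (ZMod ℓ)), W.Δ ≠ 0 →
  ∀ (k : Type) [Field k] [DecidableEq k] [Algebra (ZMod ℓ) k],
    Nat.card {P : (W.toAffine⁄k).Point // frobPt ℓ W k P = P} = W.card

/-- (RED-TORS) Reduction identifies `E[p](Q̄)` with `Ẽ[p](k)`, `k` the residue field at a place over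
the good prime `ℓ ≠ p`, and a Frobenius element `σ` with the Frobenius endomorphism. -/
def Stmt_REDTORS : Prop :=
  ∀ (W : WeierstrassCurve ℤ) (p ℓ : ℕ) [Fact p.Prime] [Fact ℓ.Prime], p ≠ ℓ → W.IsGoodPrimeFor ℓ →
    ∀ (A : ValuationSubring QbarE), A.LiesOverPrime ℓ →
    ∀ σ : QbarE ≃ₐ[ℚ] QbarE, A.IsFrobeniusAt σ ℓ →
    ∃ (k : Type) (_ : Field k) (_ : IsAlgClosed k) (_ : DecidableEq k) (_ : Algebra (ZMod ℓ) k)
      (e : Submodule.torsionBy ℤ ((W.map (Int.castRingHom ℚ)).toAffine⁄QbarE).Point p ≃ₗ[ZMod p]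
        Submodule.torsionBy ℤ ((W.reductionMod ℓ).toAffine⁄k).Point p),
      ∀ x, e (Point.galoisRepModuleEnd ℚ (W.map (Int.castRingHom ℚ)).toAffine p σ x)
        = torsEnd p (frobPt ℓ (W.reductionMod ℓ) k) (e x)

end Fermat.Agent.Lib.EllFinite
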