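/-
Item 62, package RED-TORS (helper46): the exact interface `Stmt_REDTORS`.
Reduction at a place `A` of `Q̄` over a good prime `ℓ ≠ p` identifies `E[p](Q̄)` with
`Ẽ[p](k)`, `k` the residue field of `A`, and carries a Frobenius element at `A` to the Frobenius
endomorphism of `Ẽ`.
-/
import Fermat.Agent.Lib.EllFinite.H46_RedTors
import Fermat.Agent.Lib.EllFinite.Stmts
import Mathlib.Algebra.Algebra.ZMod

set_option autoImplicit false

namespace Fermat.Agent.Lib.EllFinite.H46

open WeierstrassCurve WeierstrassCurve.Affine IsLocalRing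
open Fermat.Agent.Lib.EllFinite.H4

/-! ### Transport of points along an equality of curves -/

section Congr

variable {K : Type*} [Field K] [DecidableEq K]

/-- Transport of points along an equality of curves. -/
noncomputable def pointCongr {V V' : Affine K} (h : V = V') : V.Point ≃+ V'.Point :=
  h ▸ AddEquiv.refl V.Point

lemma pointCongr_zero {V V' : Affine K} (h : V = V') : pointCongr h 0 = 0 := map_zero _

lemma pointCongr_some {V V' : Affine K} (h : V = V') {x y : K} (hxy : V.Nonsingular x y) :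
    pointCongr h (.some x y hxy) = .some x y (h ▸ hxy) := by
  subst h; rfl

end Congr

/-! ### Restriction of homomorphisms to torsion -/

section TorsMap

variable {M N : Type*} [AddCommGroup M] [AddCommGroup N]

/-- Restriction of an additive map to `n`-torsion. -/
noncomputable def torsHom (f : M →+ N) (n : ℕ) :
    Submodule.torsionBy ℤ M (n : ℤ) →+ Submodule.torsionBy ℤ N (n : ℤ) where
  toFun x := ⟨f x, by
    have hx := x.2
    rw [Submodule.mem_torsionBy_iff] at hx ⊢
    rw [← map_zsmul, hx, map_zero]⟩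
  map_zero' := by ext; simp
  map_add' x y := by ext; simp

@[simp] lemma torsHom_coe (f : M →+ N) (n : ℕ) (x : Submodule.torsionBy ℤ M (n : ℤ)) :
    ((torsHom f n x : Submodule.torsionBy ℤ N (n : ℤ)) : N) = f x := rfl

/-- Restriction of an additive equivalence to `n`-torsion. -/
noncomputable def torsAddEquiv (f : M ≃+ N) (n : ℕ) :
    Submodule.torsionBy ℤ M (n : ℤ) ≃+ Submodule.torsionBy ℤ N (n : ℤ) where
  toFun := torsHom f.toAddMonoidHom n
  invFun := torsHom f.symm.toAddMonoidHom n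
  left_inv x := by ext; simp
  right_inv x := by ext; simp
  map_add' := map_add _

@[simp] lemma torsAddEquiv_coe (f : M ≃+ N) (n : ℕ) (x : Submodule.torsionBy ℤ M (n : ℤ)) :
    ((torsAddEquiv f n x : Submodule.torsionBy ℤ N (n : ℤ)) : N) = f x := rfl

end TorsMap

/-! ### Residue characteristic, bridge to the prelude's curves -/

section Setup

variable {F : Type*} [Field F] (A : ValuationSubring F)

/-- residue characteristic -/
lemma charP_residueField {ℓ : ℕ} (hℓ : ℓ.Prime) (hA : A.LiesOverPrime ℓ) :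
    CharP (ResidueField A) ℓ := by
  rw [CharP.charP_iff_prime_eq_zero hℓ]
  have h1 : residue A (ℓ : A) = 0 := by
    rw [residue_eq_zero_iff, ← ValuationSubring.coe_mem_nonunits_iff]
    have hA' : (ℓ : F) ∈ A.nonunits := hA
    simpa using hA'
  rwa [map_natCast] at h1

variable {A}

lemma natCast_residue_ne_zero {ℓ p : ℕ} (hℓ : ℓ.Prime) (hp : p.Prime) (hpℓ : p ≠ ℓ)
    (hA : A.LiesOverPrime ℓ) : (p : ResidueField A) ≠ 0 := by
  have := charP_residueField A hℓ hA
  exact CharP.cast_ne_zero_of_ne_of_prime (ResidueField A) hp (Ne.symm hpℓ)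

end Setup

section Bridge

variable (W : WeierstrassCurve ℤ) {F : Type*} [Field F] (A : ValuationSubring F)

/-- The model over the valuation ring. -/
noncomputable abbrev WA : WeierstrassCurve A := W.map (Int.castRingHom A)

lemma EF_WA_eq [Algebra ℚ F] :
    EF A (WA W A) = ((W.map (Int.castRingHom ℚ)).toAffine⁄F) := by
  show (W.map (Int.castRingHom A)).map (algebraMap A F)
    = (W.map (Int.castRingHom ℚ)).map (algebraMap ℚ F)
  rw [WeierstrassCurve.map_map, WeierstrassCurve.map_map]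
  congr 1
  exact RingHom.ext_int _ _

lemma Ek_WA_eq (ℓ : ℕ) [Algebra (ZMod ℓ) (ResidueField A)] :
    Ek A (WA W A) = ((W.reductionMod ℓ).toAffine⁄(ResidueField A)) := by
  show (W.map (Int.castRingHom A)).map (residue A)
    = (W.map (Int.castRingHom (ZMod ℓ))).map (algebraMap (ZMod ℓ) (ResidueField A))
  rw [WeierstrassCurve.map_map, WeierstrassCurve.map_map]
  congr 1
  exact RingHom.ext_int _ _

lemma Ek_WA_Δ_ne_zero {ℓ : ℕ} (hℓ : ℓ.Prime) (hA : A.LiesOverPrime ℓ)
    (hgood : W.IsGoodPrimeFor ℓ) : (Ek A (WA W A)).Δ ≠ 0 := by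
  have := charP_residueField A hℓ hA
  have h1 : (Ek A (WA W A)).Δ = ((W.Δ : ℤ) : ResidueField A) := by
    show ((W.map (Int.castRingHom A)).map (residue A)).Δ = _
    rw [WeierstrassCurve.map_map, WeierstrassCurve.map_Δ]
    simp
  rw [h1, Ne, CharP.intCast_eq_zero_iff (ResidueField A) ℓ]
  exact hgood

end Bridge

section Decomp

variable {K F : Type*} [Field K] [Field F] [Algebra K F] {A : ValuationSubring F}

lemma smul_coe (g : A.decompositionSubgroup K) (a : A) :
    ((g • a : A) : F) = (g : F ≃ₐ[K] F) (a : F) := rfl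

lemma val_le_one_of_mem_decomp {σ : F ≃ₐ[K] F} (hσ : σ ∈ A.decompositionSubgroup K) {x : F}
    (hx : A.valuation x ≤ 1) : A.valuation (σ x) ≤ 1 := by
  rw [A.valuation_le_one_iff] at hx ⊢
  exact ((⟨σ, hσ⟩ : A.decompositionSubgroup K) • (⟨x, hx⟩ : A)).2

lemma val_le_one_iff_of_mem_decomp {σ : F ≃ₐ[K] F} (hσ : σ ∈ A.decompositionSubgroup K) {x : F} :
    A.valuation (σ x) ≤ 1 ↔ A.valuation x ≤ 1 := by
  refine ⟨fun h => ?_, val_le_one_of_mem_decomp hσ⟩
  have := val_le_one_of_mem_decomp (inv_mem hσ) h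
  simpa using this

end Decomp


section Main

variable (W : WeierstrassCurve ℤ) (A : ValuationSubring QbarE) (ℓ : ℕ) [Fact ℓ.Prime]
  [DecidableEq (ResidueField A)] [Algebra (ZMod ℓ) (ResidueField A)]

/-- Reduction on points, between the prelude's curves. -/
noncomputable def redPt (hΔ : (Ek A (WA W A)).Δ ≠ 0) :
    ((W.map (Int.castRingHom ℚ)).toAffine⁄QbarE).Point →+
      ((W.reductionMod ℓ).toAffine⁄(ResidueField A)).Point :=
  (pointCongr (Ek_WA_eq W A ℓ)).toAddMonoidHom.comp
    ((red A (WA W A) hΔ).comp (pointCongr (EF_WA_eq W A).symm).toAddMonoidHom)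

variable {W A ℓ}

lemma redPt_apply (hΔ : (Ek A (WA W A)).Δ ≠ 0)
    (P : ((W.map (Int.castRingHom ℚ)).toAffine⁄QbarE).Point) :
    redPt W A ℓ hΔ P = pointCongr (Ek_WA_eq W A ℓ)
      (red A (WA W A) hΔ (pointCongr (EF_WA_eq W A).symm P)) := rfl

/-- Frobenius equivariance of the reduction. -/
theorem redPt_smul (hΔ : (Ek A (WA W A)).Δ ≠ 0) {σ : QbarE ≃ₐ[ℚ] QbarE}
    (hσ : A.IsFrobeniusAt σ ℓ) (P : ((W.map (Int.castRingHom ℚ)).toAffine⁄QbarE).Point) :
    redPt W A ℓ hΔ (σ • P) = frobPt ℓ (W.reductionMod ℓ) (ResidueField A) (redPt W A ℓ hΔ P) := by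
  have hσ' := hσ.mem_decompositionSubgroup
  rcases P with _ | ⟨x, y, h⟩
  · show redPt W A ℓ hΔ 0 = frobPt ℓ (W.reductionMod ℓ) (ResidueField A) (redPt W A ℓ hΔ 0)
    rw [map_zero, map_zero]
  · rw [Point.algEquiv_smul_def, Point.map_some, redPt_apply, redPt_apply, pointCongr_some,
      pointCongr_some]
    by_cases hx : A.valuation x ≤ 1
    · obtain ⟨a, b, rfl, rfl⟩ := exists_coe_of_le (W := WA W A) ((EF_WA_eq W A).symm ▸ h) hx
      set g : A.decompositionSubgroup ℚ := ⟨σ, hσ'⟩ with hg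
      have hga : residue A (g • a) = frobAlgHom ℓ (ResidueField A) (residue A a) := by
        rw [ResidueField.residue_smul, frobAlgHom_apply]
        exact hσ.smul_residue_eq _
      have hgb : residue A (g • b) = frobAlgHom ℓ (ResidueField A) (residue A b) := by
        rw [ResidueField.residue_smul, frobAlgHom_apply]
        exact hσ.smul_residue_eq _
      have h1 : ∀ hh, red A (WA W A) hΔ (Point.some (σ.toAlgHom (a : QbarE)) (σ.toAlgHom (b : QbarE)) hh)
          = .some (residue A (g • a)) (residue A (g • b)) (nonsingular_res hΔ (a := g • a) (b := g • b) hh.1) :=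
        fun hh => red_some_coe hΔ (g • a) (g • b) hh
      rw [h1, red_some_coe, pointCongr_some, pointCongr_some]
      show _ = Point.map (frobAlgHom ℓ (ResidueField A)) _
      rw [Point.map_some]
      exact some_eq_some _ _ hga hgb
    · have hx1 : 1 < A.valuation x := not_le.1 hx
      have hx2 : 1 < A.valuation (σ x) :=
        not_le.1 (fun h' => hx ((val_le_one_iff_of_mem_decomp hσ').1 h'))
      have h1 : ∀ hh, red A (WA W A) hΔ (Point.some (σ.toAlgHom x) (σ.toAlgHom y) hh) = 0 :=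
        fun hh => red_some_of_lt hΔ hh hx2
      rw [red_some_of_lt hΔ _ hx1, h1, map_zero, map_zero]


/-- The reduction equivalence on `p`-torsion, as an additive equivalence. -/
noncomputable def redAddEquiv (hΔ : (Ek A (WA W A)).Δ ≠ 0) {p : ℕ}
    (hp : (p : ResidueField A) ≠ 0) :
    Submodule.torsionBy ℤ ((W.map (Int.castRingHom ℚ)).toAffine⁄QbarE).Point (p : ℤ) ≃+
      Submodule.torsionBy ℤ ((W.reductionMod ℓ).toAffine⁄(ResidueField A)).Point (p : ℤ) :=
  (torsAddEquiv (pointCongr (EF_WA_eq W A).symm) p).trans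
    ((redTorsEquiv hΔ hp).toAddEquiv.trans (torsAddEquiv (pointCongr (Ek_WA_eq W A ℓ)) p))

lemma redAddEquiv_coe (hΔ : (Ek A (WA W A)).Δ ≠ 0) {p : ℕ}
    (hp : (p : ResidueField A) ≠ 0)
    (x : Submodule.torsionBy ℤ ((W.map (Int.castRingHom ℚ)).toAffine⁄QbarE).Point (p : ℤ)) :
    ((redAddEquiv (ℓ := ℓ) hΔ hp x :
        Submodule.torsionBy ℤ ((W.reductionMod ℓ).toAffine⁄(ResidueField A)).Point (p : ℤ)) :
      ((W.reductionMod ℓ).toAffine⁄(ResidueField A)).Point) = redPt W A ℓ hΔ x := rfl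

/-- The reduction equivalence on `p`-torsion, `ZMod p`-linear. -/
noncomputable def redLinEquiv (hΔ : (Ek A (WA W A)).Δ ≠ 0) {p : ℕ}
    (hp : (p : ResidueField A) ≠ 0) :
    Submodule.torsionBy ℤ ((W.map (Int.castRingHom ℚ)).toAffine⁄QbarE).Point (p : ℤ) ≃ₗ[ZMod p]
      Submodule.torsionBy ℤ ((W.reductionMod ℓ).toAffine⁄(ResidueField A)).Point (p : ℤ) :=
  { redAddEquiv (ℓ := ℓ) hΔ hp with
    map_smul' := fun c x => ZMod.map_smul (redAddEquiv (ℓ := ℓ) hΔ hp) c x }

lemma redLinEquiv_coe (hΔ : (Ek A (WA W A)).Δ ≠ 0) {p : ℕ}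
    (hp : (p : ResidueField A) ≠ 0)
    (x : Submodule.torsionBy ℤ ((W.map (Int.castRingHom ℚ)).toAffine⁄QbarE).Point (p : ℤ)) :
    ((redLinEquiv (ℓ := ℓ) hΔ hp x :
        Submodule.torsionBy ℤ ((W.reductionMod ℓ).toAffine⁄(ResidueField A)).Point (p : ℤ)) :
      ((W.reductionMod ℓ).toAffine⁄(ResidueField A)).Point) = redPt W A ℓ hΔ x := rfl

theorem redLinEquiv_frob (hΔ : (Ek A (WA W A)).Δ ≠ 0) {p : ℕ}
    (hp : (p : ResidueField A) ≠ 0) {σ : QbarE ≃ₐ[ℚ] QbarE} (hσ : A.IsFrobeniusAt σ ℓ)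
    (x : Submodule.torsionBy ℤ ((W.map (Int.castRingHom ℚ)).toAffine⁄QbarE).Point (p : ℤ)) :
    redLinEquiv (ℓ := ℓ) hΔ hp
        (Point.galoisRepModuleEnd ℚ (W.map (Int.castRingHom ℚ)).toAffine p σ x)
      = torsEnd p (frobPt ℓ (W.reductionMod ℓ) (ResidueField A)) (redLinEquiv (ℓ := ℓ) hΔ hp x) := by
  apply Subtype.ext
  rw [redLinEquiv_coe, torsEnd_apply_coe, redLinEquiv_coe, Point.galoisRepModuleEnd_apply]
  exact redPt_smul hΔ hσ x

end Main


/-- **RED-TORS**, exact interface. -/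
theorem stmt_REDTORS : Stmt_REDTORS := by
  intro W p ℓ _ _ hpℓ hgood A hA σ hσ
  have hℓ : ℓ.Prime := Fact.out
  have hp : p.Prime := Fact.out
  have hchar : CharP (ResidueField A) ℓ := charP_residueField A hℓ hA
  have hΔ : (Ek A (WA W A)).Δ ≠ 0 := Ek_WA_Δ_ne_zero W A hℓ hA hgood
  have hpk : (p : ResidueField A) ≠ 0 := natCast_residue_ne_zero hℓ hp hpℓ hA
  let _ : DecidableEq (ResidueField A) := Classical.decEq _
  let _ : Algebra (ZMod ℓ) (ResidueField A) := ZMod.algebra (ResidueField A) ℓ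
  exact ⟨ResidueField A, inferInstance, isAlgClosed_residueField A, inferInstance, inferInstance,
    redLinEquiv (ℓ := ℓ) hΔ hpk, fun x => redLinEquiv_frob hΔ hpk hσ x⟩

end Fermat.Agent.Lib.EllFinite.H46
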