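/-
Item 62 (Lib/EllFinite), helper46: pure algebra.
A multiplicative "degree" on a ring which satisfies the parallelogram law is a quadratic form, and
every element `a` satisfies `a² - t a + d = 0` with `d = deg a`, `t = deg (a + 1) - deg a - 1`.
No dual isogeny / Weil pairing is needed for the Frobenius relation.
-/
import Mathlib.Algebra.Ring.Basic
import Mathlib.Algebra.Ring.Int.Defs
import Mathlib.Algebra.Group.Hom.Defs
import Mathlib.Algebra.Module.NatInt
import Mathlib.Tactic.Abel
import Mathlib.Tactic.Ring
import Mathlib.Tactic.Linarith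
import Mathlib.Tactic.LinearCombination
import Mathlib.Tactic.NoncommRing

set_option autoImplicit false

namespace Fermat.Agent.Lib.EllFinite.H46

section Parallelogram

variable {G : Type*} [AddCommGroup G]

/-- The parallelogram law for an integer valued function on an abelian group. -/
def IsPara (f : G → ℤ) : Prop :=
  ∀ a b : G, f (a + b) + f (a - b) = 2 * f a + 2 * f b

/-- The associated "bilinear" form `B(u, v) = f (u + v) - f u - f v`. -/
def bil (f : G → ℤ) (u v : G) : ℤ := f (u + v) - f u - f v

variable {f : G → ℤ}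

lemma IsPara.map_zero (H : IsPara f) : f 0 = 0 := by
  have := H 0 0
  simp only [add_zero, sub_zero] at this
  linarith

lemma IsPara.map_neg (H : IsPara f) (a : G) : f (-a) = f a := by
  have := H 0 a
  simp only [zero_add, zero_sub] at this
  have h0 := H.map_zero
  linarith

lemma IsPara.map_sub_comm (H : IsPara f) (a b : G) : f (a - b) = f (b - a) := by
  rw [← H.map_neg (a - b), neg_sub]

lemma IsPara.three (H : IsPara f) (x y z : G) :
    f (x + y + z) = f (x + y) + f (y + z) + f (x + z) - f x - f y - f z := by
  have h1 : f (x + y + z) + f (x + z - y) = 2 * f (x + z) + 2 * f y := by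
    have := H (x + z) y
    rwa [show x + z + y = x + y + z by abel] at this
  have h2 : f (x + y + z) + f (y + z - x) = 2 * f (y + z) + 2 * f x := by
    have := H (y + z) x
    rwa [show y + z + x = x + y + z by abel] at this
  have h3 : f (x + z - y) + f (y + z - x) = 2 * f z + 2 * f (x - y) := by
    have := H z (x - y)
    rwa [show z + (x - y) = x + z - y by abel, show z - (x - y) = y + z - x by abel] at this
  have h4 := H x y
  linarith

lemma bil_comm (f : G → ℤ) (u v : G) : bil f u v = bil f v u := by
  unfold bil; rw [add_comm u v]; ring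

lemma IsPara.bil_add_left (H : IsPara f) (x y z : G) :
    bil f (x + y) z = bil f x z + bil f y z := by
  unfold bil
  have := H.three x y z
  linarith

lemma IsPara.bil_add_right (H : IsPara f) (x y z : G) :
    bil f x (y + z) = bil f x y + bil f x z := by
  rw [bil_comm, H.bil_add_left, bil_comm f y, bil_comm f z]

/-- `u ↦ B(u, v)` as an additive homomorphism. -/
def IsPara.bilHom (H : IsPara f) (v : G) : G →+ ℤ :=
  AddMonoidHom.mk' (fun u => bil f u v) (fun x y => H.bil_add_left x y v)

lemma IsPara.bil_zsmul_left (H : IsPara f) (n : ℤ) (u v : G) :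
    bil f (n • u) v = n * bil f u v := by
  have := map_zsmul (H.bilHom v) n u
  simpa [IsPara.bilHom] using this

lemma IsPara.bil_zsmul_right (H : IsPara f) (n : ℤ) (u v : G) :
    bil f u (n • v) = n * bil f u v := by
  rw [bil_comm, H.bil_zsmul_left, bil_comm]

lemma IsPara.bil_self (H : IsPara f) (u : G) : bil f u u = 2 * f u := by
  have := H u u
  rw [sub_self, H.map_zero] at this
  unfold bil
  linarith

lemma IsPara.map_zsmul (H : IsPara f) (n : ℤ) (u : G) : f (n • u) = n ^ 2 * f u := by
  have h1 := H.bil_self (n • u)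
  rw [H.bil_zsmul_left, H.bil_zsmul_right, H.bil_self] at h1
  linarith

lemma IsPara.map_add (_H : IsPara f) (u v : G) : f (u + v) = f u + f v + bil f u v := by
  unfold bil; ring

end Parallelogram

section Ring

variable {R : Type*} [Ring R]

/-- A multiplicative degree on a ring which satisfies the parallelogram law. -/
structure IsDegForm (deg : R → ℤ) : Prop where
  mul : ∀ a b, deg (a * b) = deg a * deg b
  para : IsPara deg
  one : deg 1 = 1
  eq_zero : ∀ a, deg a = 0 → a = 0

variable {deg : R → ℤ}

/-- The trace attached to a degree form: `t = deg (a + 1) - deg a - 1`. -/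
def trDeg (deg : R → ℤ) (a : R) : ℤ := deg (a + 1) - deg a - 1

lemma IsDegForm.trDeg_eq_bil (H : IsDegForm deg) (a : R) : trDeg deg a = bil deg a 1 := by
  unfold trDeg bil; rw [H.one]

/-- `deg (m a + n) = m² deg a + m n t + n²`. -/
lemma IsDegForm.deg_lin (H : IsDegForm deg) (a : R) (m n : ℤ) :
    deg ((m : R) * a + (n : R)) = m ^ 2 * deg a + m * n * trDeg deg a + n ^ 2 := by
  have e1 : (m : R) * a = m • a := (zsmul_eq_mul a m).symm
  have e2 : (n : R) = n • (1 : R) := by rw [zsmul_eq_mul, mul_one]
  rw [e1, e2, H.para.map_add, H.para.map_zsmul, H.para.map_zsmul, H.one, H.para.bil_zsmul_left,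
    H.para.bil_zsmul_right, H.trDeg_eq_bil]
  ring

/-- **The quadratic relation**: `a² - t a + d = 0`. -/
theorem IsDegForm.quadratic (H : IsDegForm deg) (a : R) :
    a ^ 2 - (trDeg deg a : R) * a + (deg a : R) = 0 := by
  apply H.eq_zero
  set d := deg a with hd
  set t := trDeg deg a with ht
  have ht' : bil deg a 1 = t := (H.trDeg_eq_bil a).symm
  -- `deg (a ± 1)`
  have hp : deg (a + 1) = d + t + 1 := by
    have := H.deg_lin a 1 1
    simp only [Int.cast_one, one_mul] at this
    rw [this]; ring
  have hm : deg (a - 1) = d - t + 1 := by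
    have := H.deg_lin a 1 (-1)
    simp only [Int.cast_one, one_mul, Int.cast_neg] at this
    rw [← sub_eq_add_neg] at this
    rw [this]; ring
  have hsq : deg (a ^ 2) = d ^ 2 := by rw [pow_two, H.mul, pow_two]
  -- `Y = B(a², a) = d t`
  have hY : bil deg (a ^ 2) a = d * t := by
    have e : a ^ 2 + a = a * (a + 1) := by noncomm_ring
    unfold bil
    rw [e, H.mul, hp, hsq]; ring
  -- `X = B(a², 1) = t² - 2 d`
  have hX : bil deg (a ^ 2) 1 = t ^ 2 - 2 * d := by
    have e : a ^ 2 - 1 = (a + 1) * (a - 1) := by noncomm_ring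
    have h1 : deg (a ^ 2 - 1) = (d + t + 1) * (d - t + 1) := by rw [e, H.mul, hp, hm]
    have h2 : deg (a ^ 2 - 1) = d ^ 2 + 1 - bil deg (a ^ 2) 1 := by
      have e' : a ^ 2 - 1 = a ^ 2 + (-1 : ℤ) • (1 : R) := by
        rw [neg_smul, one_smul, sub_eq_add_neg]
      rw [e', H.para.map_add, H.para.bil_zsmul_right, H.para.map_zsmul, H.one, hsq]
      ring
    linarith
  -- final computation
  have e : a ^ 2 - (t : R) * a + (d : R) = a ^ 2 + ((-t) • a + d • (1 : R)) := by
    rw [neg_smul, zsmul_eq_mul, zsmul_eq_mul, mul_one]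
    abel
  rw [e, H.para.map_add, H.para.bil_add_right, H.para.bil_zsmul_right, H.para.bil_zsmul_right,
    H.para.map_add, H.para.map_zsmul, H.para.map_zsmul, H.para.bil_zsmul_left,
    H.para.bil_zsmul_right, H.one, hsq, hY, hX, ht', ← hd]
  ring

end Ring

end Fermat.Agent.Lib.EllFinite.H46
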