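/-
Item 62 (Lib/EllFinite), helper80: composition of rational functions and multiplicativity of
the degree:  `rdeg (r ∘ s) = rdeg r * rdeg s`  (`rdeg_comp`), for non-constant `s`.
-/
import Fermat.Agent.Lib.EllFinite.H80_Par
import Mathlib.FieldTheory.RatFunc.IntermediateField

set_option autoImplicit false

namespace Fermat.Agent.Lib.EllFinite.H80

open Polynomial

variable {K : Type*} [Field K]

local notation "ι" => algebraMap K[X] (RatFunc K)

/-! ### Homogenisation -/

/-- The homogenisation `Σ pᵢ Xⁱ Z^(d-i)` of `p` in degree `d`, evaluated at polynomials. -/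
noncomputable def homg (d : ℕ) (p X Z : K[X]) : K[X] :=
  ∑ i ∈ Finset.range (d + 1), C (p.coeff i) * X ^ i * Z ^ (d - i)

/-- The homogenisation evaluated at constants. -/
def homc (d : ℕ) (p : K[X]) (x z : K) : K :=
  ∑ i ∈ Finset.range (d + 1), p.coeff i * x ^ i * z ^ (d - i)

lemma algebraMap_homg {d : ℕ} {p : K[X]} (hp : p.natDegree ≤ d) (X Z : K[X]) (hZ : Z ≠ 0) :
    ι (homg d p X Z) = (ι Z) ^ d * aeval (ι X / ι Z) p := by
  have hZ' : ι Z ≠ 0 := RatFunc.algebraMap_ne_zero hZ
  rw [aeval_eq_sum_range' (Nat.lt_succ_of_le hp), homg, map_sum, Finset.mul_sum]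
  apply Finset.sum_congr rfl
  intro i hi
  have hid : i ≤ d := Nat.lt_succ_iff.mp (Finset.mem_range.mp hi)
  rw [map_mul, map_mul, map_pow, map_pow, RatFunc.algebraMap_C, Algebra.smul_def,
    RatFunc.algebraMap_eq_C, div_pow]
  have : (ι Z) ^ d = (ι Z) ^ i * (ι Z) ^ (d - i) := by
    rw [← pow_add, Nat.add_sub_cancel' hid]
  rw [this]
  field_simp

lemma natDegree_homg_le (d : ℕ) (p : K[X]) {X Z : K[X]} {e : ℕ} (hX : X.natDegree ≤ e)
    (hZ : Z.natDegree ≤ e) : (homg d p X Z).natDegree ≤ d * e := by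
  apply natDegree_sum_le_of_forall_le
  intro i hi
  have hid : i ≤ d := Nat.lt_succ_iff.mp (Finset.mem_range.mp hi)
  have h1 : (X ^ i).natDegree ≤ i * e := natDegree_pow_le_of_le i hX
  have h2 : (Z ^ (d - i)).natDegree ≤ (d - i) * e := natDegree_pow_le_of_le (d - i) hZ
  have h3 : (C (p.coeff i) * X ^ i).natDegree ≤ i * e :=
    le_trans (natDegree_C_mul_le _ _) h1
  have h4 := natDegree_mul_le_of_le h3 h2
  have : i * e + (d - i) * e = d * e := by
    rw [← Nat.add_mul, Nat.add_sub_cancel' hid]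
  rwa [this] at h4

lemma coeff_homg (d : ℕ) (p : K[X]) {X Z : K[X]} {e : ℕ} (hX : X.natDegree ≤ e)
    (hZ : Z.natDegree ≤ e) : (homg d p X Z).coeff (d * e) = homc d p (X.coeff e) (Z.coeff e) := by
  rw [homg, finsetSum_coeff, homc]
  apply Finset.sum_congr rfl
  intro i hi
  have hid : i ≤ d := Nat.lt_succ_iff.mp (Finset.mem_range.mp hi)
  have h1 : (X ^ i).natDegree ≤ i * e := natDegree_pow_le_of_le i hX
  have h2 : (Z ^ (d - i)).natDegree ≤ (d - i) * e := natDegree_pow_le_of_le (d - i) hZ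
  have e1 : d * e = i * e + (d - i) * e := by
    rw [← Nat.add_mul, Nat.add_sub_cancel' hid]
  rw [e1, mul_assoc, coeff_C_mul, coeff_mul_add_eq_of_natDegree_le h1 h2,
    coeff_pow_of_natDegree_le hX, coeff_pow_of_natDegree_le hZ, mul_assoc]

lemma homc_of_ne_zero {d : ℕ} {p : K[X]} (hp : p.natDegree ≤ d) (x : K) {z : K} (hz : z ≠ 0) :
    homc d p x z = z ^ d * p.eval (x / z) := by
  rw [eval_eq_sum_range' (Nat.lt_succ_of_le hp), homc, Finset.mul_sum]
  apply Finset.sum_congr rfl
  intro i hi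
  have hid : i ≤ d := Nat.lt_succ_iff.mp (Finset.mem_range.mp hi)
  have : z ^ d = z ^ i * z ^ (d - i) := by
    rw [← pow_add, Nat.add_sub_cancel' hid]
  rw [this, div_pow]
  field_simp

lemma homc_zero (d : ℕ) (p : K[X]) (x : K) : homc d p x 0 = p.coeff d * x ^ d := by
  rw [homc, Finset.sum_eq_single d]
  · simp
  · intro i hi hne
    have hid : i < d := lt_of_le_of_ne (Nat.lt_succ_iff.mp (Finset.mem_range.mp hi)) hne
    have : d - i ≠ 0 := by omega
    rw [zero_pow this, mul_zero]
  · intro h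
    exact absurd (Finset.mem_range.mpr (Nat.lt_succ_self d)) h

/-- Modulo `Z`, the homogenisation is `p_d X^d`. -/
lemma homg_sub_mem (d : ℕ) (p X Z : K[X]) :
    ∃ U : K[X], homg d p X Z = Z * U + C (p.coeff d) * X ^ d := by
  rw [homg, Finset.sum_range_succ]
  refine ⟨∑ i ∈ Finset.range d, C (p.coeff i) * X ^ i * Z ^ (d - i - 1), ?_⟩
  rw [Nat.sub_self, pow_zero, mul_one, Finset.mul_sum]
  congr 1
  apply Finset.sum_congr rfl
  intro i hi
  have hid : i < d := Finset.mem_range.mp hi
  have : d - i = (d - i - 1) + 1 := by omega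
  rw [this, pow_succ]
  simp only [Nat.add_sub_cancel]
  ring

/-! ### Composition -/

lemma aeval_injective_of_ne_C {s : RatFunc K} (hs : ¬ ∃ c, s = RatFunc.C c) :
    Function.Injective (aeval s : K[X] →ₐ[K] RatFunc K) :=
  transcendental_iff_injective.mp (RatFunc.transcendental_of_ne_C s hs)

/-- Composition with a non-constant rational function `s`, i.e. the `K`-algebra homomorphism
`K(X) → K(X)`, `X ↦ s`. -/
noncomputable def compHom (s : RatFunc K) (hs : ¬ ∃ c, s = RatFunc.C c) :
    RatFunc K →ₐ[K] RatFunc K :=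
  RatFunc.liftAlgHom (aeval s)
    (nonZeroDivisors_le_comap_nonZeroDivisors_of_injective _ (aeval_injective_of_ne_C hs))

lemma compHom_apply (s : RatFunc K) (hs : ¬ ∃ c, s = RatFunc.C c) (r : RatFunc K) :
    compHom s hs r = aeval s r.num / aeval s r.denom :=
  RatFunc.liftAlgHom_apply _ _ r

lemma compHom_algebraMap (s : RatFunc K) (hs : ¬ ∃ c, s = RatFunc.C c) (p : K[X]) :
    compHom s hs (ι p) = aeval s p := by
  rw [compHom_apply, RatFunc.num_algebraMap, RatFunc.denom_algebraMap, map_one, div_one]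

lemma compHom_X (s : RatFunc K) (hs : ¬ ∃ c, s = RatFunc.C c) :
    compHom s hs RatFunc.X = s := by
  rw [← RatFunc.algebraMap_X, compHom_algebraMap, aeval_X]

lemma ratfunc_div (s : RatFunc K) : ι s.num / ι s.denom = s := RatFunc.num_div_denom s

/-- **Multiplicativity of the degree under composition.** -/
theorem rdeg_comp (r s : RatFunc K) (hs : ¬ ∃ c, s = RatFunc.C c) :
    rdeg (compHom s hs r) = rdeg r * rdeg s := by
  set N := r.num with hN
  set M := r.denom with hM
  set d := rdeg r with hd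
  set X₀ := s.num with hX₀
  set Z₀ := s.denom with hZ₀
  set e := rdeg s with he
  have hNd : N.natDegree ≤ d := natDegree_num_le r
  have hMd : M.natDegree ≤ d := natDegree_denom_le r
  have hXe : X₀.natDegree ≤ e := natDegree_num_le s
  have hZe : Z₀.natDegree ≤ e := natDegree_denom_le s
  have hZ0 : Z₀ ≠ 0 := s.denom_ne_zero
  have hM0 : M ≠ 0 := r.denom_ne_zero
  have hinj := aeval_injective_of_ne_C hs
  have eN : ι (homg d N X₀ Z₀) = (ι Z₀) ^ d * aeval s N := by
    rw [algebraMap_homg hNd X₀ Z₀ hZ0, ratfunc_div]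
  have eM : ι (homg d M X₀ Z₀) = (ι Z₀) ^ d * aeval s M := by
    rw [algebraMap_homg hMd X₀ Z₀ hZ0, ratfunc_div]
  have hsM : aeval s M ≠ 0 := by
    intro h
    exact hM0 (hinj (by rw [h, map_zero]))
  have hιZ : ι Z₀ ≠ 0 := RatFunc.algebraMap_ne_zero hZ0
  have hrel : compHom s hs r * ι (homg d M X₀ Z₀) = ι (homg d N X₀ Z₀) := by
    rw [compHom_apply, eN, eM, ← hN, ← hM]
    field_simp
  have hhM0 : homg d M X₀ Z₀ ≠ 0 := by
    intro h
    rw [h, map_zero] at eM
    exact (mul_ne_zero (pow_ne_zero d hιZ) hsM) eM.symm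
  -- coprimality
  obtain ⟨a, b, hab⟩ := RatFunc.isCoprime_num_denom r
  have hspan : Ideal.span {homg d M X₀ Z₀, homg d N X₀ Z₀, (0 : K[X])} = ⊤ := by
    by_contra hne
    obtain ⟨P, hP, hle⟩ := Ideal.exists_le_maximal _ hne
    have hPp := hP.isPrime
    have mN : homg d N X₀ Z₀ ∈ P := hle (Ideal.subset_span (by simp))
    have mM : homg d M X₀ Z₀ ∈ P := hle (Ideal.subset_span (by simp))
    -- homogenised Bezout
    set k := max a.natDegree b.natDegree with hk
    have hbez : homg k a X₀ Z₀ * homg d N X₀ Z₀ + homg k b X₀ Z₀ * homg d M X₀ Z₀ =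
        Z₀ ^ (k + d) := by
      apply RatFunc.algebraMap_injective
      rw [map_add, map_mul, map_mul, eN, eM,
        algebraMap_homg (le_max_left _ _) X₀ Z₀ hZ0,
        algebraMap_homg (le_max_right _ _) X₀ Z₀ hZ0, ratfunc_div, map_pow, pow_add]
      have : aeval s a * aeval s N + aeval s b * aeval s M = 1 := by
        rw [← map_mul, ← map_mul, ← map_add, hab, map_one]
      linear_combination (ι Z₀) ^ k * (ι Z₀) ^ d * this
    have hZP : Z₀ ∈ P := by
      have : Z₀ ^ (k + d) ∈ P := by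
        rw [← hbez]
        exact P.add_mem (P.mul_mem_left _ mN) (P.mul_mem_left _ mM)
      exact hPp.mem_of_pow_mem _ this
    obtain ⟨U, hU⟩ := homg_sub_mem d N X₀ Z₀
    obtain ⟨V, hV⟩ := homg_sub_mem d M X₀ Z₀
    have m1 : C (N.coeff d) * X₀ ^ d ∈ P := by
      have : C (N.coeff d) * X₀ ^ d = homg d N X₀ Z₀ - Z₀ * U := by rw [hU]; ring
      rw [this]
      exact P.sub_mem mN (P.mul_mem_right _ hZP)
    have m2 : C (M.coeff d) * X₀ ^ d ∈ P := by
      have : C (M.coeff d) * X₀ ^ d = homg d M X₀ Z₀ - Z₀ * V := by rw [hV]; ring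
      rw [this]
      exact P.sub_mem mM (P.mul_mem_right _ hZP)
    have hXd : X₀ ^ d ∈ P := by
      rcases coeff_rdeg_ne_zero r with h | h
      · rcases hPp.mem_or_mem m1 with h' | h'
        · exfalso
          have : IsUnit (C (N.coeff d) : K[X]) := Polynomial.isUnit_C.mpr (IsUnit.mk0 _ h)
          exact hP.ne_top (Ideal.eq_top_of_isUnit_mem _ h' this)
        · exact h'
      · rcases hPp.mem_or_mem m2 with h' | h'
        · exfalso
          have : IsUnit (C (M.coeff d) : K[X]) := Polynomial.isUnit_C.mpr (IsUnit.mk0 _ h)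
          exact hP.ne_top (Ideal.eq_top_of_isUnit_mem _ h' this)
        · exact h'
    have hXP : X₀ ∈ P := by
      by_cases hd0 : d = 0
      · exfalso
        rw [hd0, pow_zero] at hXd
        exact hP.ne_top ((Ideal.eq_top_iff_one _).mpr hXd)
      · exact hPp.mem_of_pow_mem _ hXd
    obtain ⟨a', b', hab'⟩ := RatFunc.isCoprime_num_denom s
    have : (1 : K[X]) ∈ P := by
      rw [← hab']
      exact P.add_mem (P.mul_mem_left _ hXP) (P.mul_mem_left _ hZP)
    exact hP.ne_top ((Ideal.eq_top_iff_one _).mpr this)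
  rw [rdeg_eq_of_span hhM0 hspan hrel]
  -- the top degree
  have dN := natDegree_homg_le d N hXe hZe
  have dM := natDegree_homg_le d M hXe hZe
  have cN := coeff_homg d N hXe hZe
  have cM := coeff_homg d M hXe hZe
  have hne : homc d N (X₀.coeff e) (Z₀.coeff e) ≠ 0 ∨ homc d M (X₀.coeff e) (Z₀.coeff e) ≠ 0 := by
    by_contra hcon
    push Not at hcon
    obtain ⟨h1, h2⟩ := hcon
    by_cases hz : Z₀.coeff e = 0
    · rw [hz, homc_zero] at h1 h2
      have hx : X₀.coeff e ≠ 0 := by
        rcases coeff_rdeg_ne_zero s with h | h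
        · exact h
        · exact absurd hz h
      have hxd : (X₀.coeff e) ^ d ≠ 0 := pow_ne_zero d hx
      rcases coeff_rdeg_ne_zero r with h | h
      · exact h ((mul_eq_zero.mp h1).resolve_right hxd)
      · exact h ((mul_eq_zero.mp h2).resolve_right hxd)
    · rw [homc_of_ne_zero hNd _ hz] at h1
      rw [homc_of_ne_zero hMd _ hz] at h2
      have hzd : (Z₀.coeff e) ^ d ≠ 0 := pow_ne_zero d hz
      have e1 := (mul_eq_zero.mp h1).resolve_left hzd
      have e2 := (mul_eq_zero.mp h2).resolve_left hzd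
      have := congrArg (Polynomial.eval (X₀.coeff e / Z₀.coeff e)) hab
      rw [eval_add, eval_mul, eval_mul, e1, e2, eval_one] at this
      simp at this
  have hmax := maxdeg_eq_of_coeff_ne_zero (t := homg d N X₀ Z₀) (u := homg d M X₀ Z₀) (v := 0)
    dN dM (by simp) (by
      rcases hne with h | h
      · exact Or.inl (by rw [cN]; exact h)
      · exact Or.inr (Or.inl (by rw [cM]; exact h)))
  have : maxdeg (homg d N X₀ Z₀) (homg d M X₀ Z₀) 0 =
      max (homg d N X₀ Z₀).natDegree (homg d M X₀ Z₀).natDegree := by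
    rw [maxdeg, natDegree_zero, Nat.max_zero]
  rw [← this, hmax]

end Fermat.Agent.Lib.EllFinite.H80
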