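/-
Item 62 (Lib/EllFinite), helper80, package GEN part 1: the height of a point whose `x`-coordinate
is a rational function, and the parallelogram law at the level of POINTS.

Setting: `W` a Weierstrass curve over a ring `R`, `k` an `R`-field, `F` a field over `k`
with a `k`-embedding `j : k(x) → F` (e.g. the function field of `W` over `k`).
* `HasX W j P r` : `P` is an affine point with `x(P) = j r`;
* `XRat W j P`   : `P = 0` or `x(P) ∈ j (k(x))`;
* `hgt W j P`    : `rdeg` of the `x`-coordinate (`0` for `P = 0` or if `x(P) ∉ j (k(x))`);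
* `hgt_parallelogram` : `hgt (P + Q) + hgt (P - Q) = 2 hgt P + 2 hgt Q`
  as soon as `P, Q, P + Q, P - Q` are `XRat` (no assumption that the points are different etc.).
-/
import Fermat.Agent.Lib.EllFinite.H80_Comp
import Fermat.Agent.Lib.Torsion.H11_XOnly

set_option autoImplicit false
set_option linter.unusedSectionVars false

namespace Fermat.Agent.Lib.EllFinite.H80

open WeierstrassCurve WeierstrassCurve.Affine
open scoped Polynomial
open Fermat.Agent.Lib.Torsion

section height

variable {R : Type*} [CommRing R] (W : WeierstrassCurve R) {k : Type*} [Field k] [Algebra R k]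
  {F : Type*} [Field F] [DecidableEq F] [Algebra R F] [Algebra k F] [IsScalarTower R k F]
  (j : RatFunc k →ₐ[k] F)

omit [DecidableEq F] in
/-- The coefficients of `W⁄F` come from `k(x)` through `j`. -/
lemma algebraMap_eq_j (a : R) :
    algebraMap R F a = j (algebraMap k (RatFunc k) (algebraMap R k a)) := by
  rw [AlgHom.commutes, ← IsScalarTower.algebraMap_apply]

omit [DecidableEq F] in
/-- `P` is an affine point with `x`-coordinate `j r`. -/
def HasX (P : (W.toAffine⁄F).Point) (r : RatFunc k) : Prop :=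
  ∃ (y : F) (h : (W.toAffine⁄F).Nonsingular (j r) y), P = .some (j r) y h

/-- `P` is zero or its `x`-coordinate is in `j (k(x))`. -/
def XRat (P : (W.toAffine⁄F).Point) : Prop :=
  P = 0 ∨ ∃ r, HasX W j P r

open Classical in
/-- The height of a point: `rdeg` of its `x`-coordinate. -/
noncomputable def hgt (P : (W.toAffine⁄F).Point) : ℕ :=
  if h : ∃ r, HasX W j P r then rdeg h.choose else 0

variable {W j}

omit [DecidableEq F] in
lemma HasX.ne_zero {P : (W.toAffine⁄F).Point} {r : RatFunc k} (h : HasX W j P r) : P ≠ 0 := by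
  obtain ⟨y, hy, rfl⟩ := h
  exact Point.some_ne_zero hy

omit [DecidableEq F] in
lemma HasX.unique {P : (W.toAffine⁄F).Point} {r r' : RatFunc k} (h : HasX W j P r)
    (h' : HasX W j P r') : r = r' := by
  obtain ⟨y, hy, rfl⟩ := h
  obtain ⟨y', hy', e⟩ := h'
  rw [Point.some.injEq] at e
  exact (RingHom.injective j.toRingHom) e.1

omit [DecidableEq F] in
lemma HasX.hgt_eq {P : (W.toAffine⁄F).Point} {r : RatFunc k} (h : HasX W j P r) :
    hgt W j P = rdeg r := by
  have hex : ∃ r, HasX W j P r := ⟨r, h⟩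
  unfold hgt
  rw [dif_pos hex]
  rw [hex.choose_spec.unique h]

omit [DecidableEq F] in
lemma hasX_some {x y : F} {h : (W.toAffine⁄F).Nonsingular x y} {r : RatFunc k} :
    HasX W j (.some x y h) r ↔ x = j r := by
  constructor
  · rintro ⟨y', hy', e⟩
    rw [Point.some.injEq] at e
    exact e.1
  · rintro rfl
    exact ⟨y, h, rfl⟩

omit [DecidableEq F] in
@[simp] lemma hgt_zero : hgt W j (0 : (W.toAffine⁄F).Point) = 0 := by
  unfold hgt
  rw [dif_neg]
  rintro ⟨r, hr⟩
  exact hr.ne_zero rfl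

omit [DecidableEq F] in
lemma xRat_zero : XRat W j (0 : (W.toAffine⁄F).Point) := Or.inl rfl

omit [DecidableEq F] in
lemma HasX.xRat {P : (W.toAffine⁄F).Point} {r : RatFunc k} (h : HasX W j P r) : XRat W j P :=
  Or.inr ⟨r, h⟩

omit [DecidableEq F] in
lemma HasX.neg {P : (W.toAffine⁄F).Point} {r : RatFunc k} (h : HasX W j P r) :
    HasX W j (-P) r := by
  obtain ⟨y, hy, rfl⟩ := h
  exact ⟨_, _, Point.neg_some hy⟩

omit [DecidableEq F] in
lemma hasX_neg_iff {P : (W.toAffine⁄F).Point} {r : RatFunc k} :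
    HasX W j (-P) r ↔ HasX W j P r :=
  ⟨fun h => by simpa using h.neg, HasX.neg⟩

omit [DecidableEq F] in
lemma XRat.neg {P : (W.toAffine⁄F).Point} (h : XRat W j P) : XRat W j (-P) := by
  rcases h with rfl | ⟨r, hr⟩
  · exact Or.inl rfl
  · exact hr.neg.xRat

omit [DecidableEq F] in
@[simp] lemma hgt_neg (P : (W.toAffine⁄F).Point) : hgt W j (-P) = hgt W j P := by
  by_cases h : ∃ r, HasX W j P r
  · obtain ⟨r, hr⟩ := h
    rw [hr.hgt_eq, hr.neg.hgt_eq]
  · have h' : ¬ ∃ r, HasX W j (-P) r := fun ⟨r, hr⟩ => h ⟨r, hasX_neg_iff.mp hr⟩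
    unfold hgt
    rw [dif_neg h, dif_neg h']

omit [DecidableEq F] in
lemma XRat.hgt_eq_zero_iff {P : (W.toAffine⁄F).Point} (h : XRat W j P) :
    hgt W j P = 0 ↔ P = 0 ∨ ∃ c : k, HasX W j P (RatFunc.C c) := by
  rcases h with rfl | ⟨r, hr⟩
  · simp
  · rw [hr.hgt_eq, rdeg_eq_zero_iff]
    constructor
    · rintro ⟨c, rfl⟩
      exact Or.inr ⟨c, hr⟩
    · rintro (h0 | ⟨c, hc⟩)
      · exact absurd h0 hr.ne_zero
      · exact ⟨c, hr.unique hc⟩


/-! ### The parallelogram law -/

omit [DecidableEq F] in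
/-- A non-constant rational function is not a root of `Ψ₂Sq` (if `Δ ≠ 0`). -/
lemma rdeg_eq_zero_of_psi2sq (hΔ : (W.baseChange k).Δ ≠ 0) (r : RatFunc k)
    (h : 4 * r ^ 3 + algebraMap k (RatFunc k) (W.baseChange k).b₂ * r ^ 2
      + 2 * algebraMap k (RatFunc k) (W.baseChange k).b₄ * r
      + algebraMap k (RatFunc k) (W.baseChange k).b₆ = 0) : rdeg r = 0 := by
  rw [rdeg_eq_zero_iff]
  by_contra hc
  have hinj := aeval_injective_of_ne_C hc
  set V := W.baseChange k with hV
  have hp : Polynomial.aeval r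
      (Polynomial.C 4 * Polynomial.X ^ 3 + Polynomial.C V.b₂ * Polynomial.X ^ 2
        + Polynomial.C (2 * V.b₄) * Polynomial.X + Polynomial.C V.b₆ : k[X]) = 0 := by
    simp only [map_add, map_mul, map_pow, Polynomial.aeval_C, Polynomial.aeval_X, map_ofNat]
    rw [← h]
  have hp0 := hinj (hp.trans (map_zero _).symm)
  have c3 := congrArg (fun p : k[X] => p.coeff 3) hp0
  have c2 := congrArg (fun p : k[X] => p.coeff 2) hp0
  have c1 := congrArg (fun p : k[X] => p.coeff 1) hp0
  have c0 := congrArg (fun p : k[X] => p.coeff 0) hp0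
  simp [Polynomial.coeff_X, Polynomial.coeff_C, Polynomial.coeff_X_pow] at c3 c2 c1 c0
  apply hΔ
  have h4 : (4 : k) = 0 := c3
  have h8 : (8 : k) = 0 := by linear_combination 2 * h4
  rw [WeierstrassCurve.Δ]
  linear_combination (-V.b₂ * V.b₈ + 9 * V.b₄ * V.b₆) * c2 - 27 * V.b₆ * c0 - V.b₄ ^ 3 * h8


omit [DecidableEq F] in
lemma j_injective : Function.Injective j := RingHom.injective j.toRingHom

/-- Doubling: `hgt (P + P) = 4 hgt P`. -/
theorem hgt_add_self (hΔ : (W.baseChange k).Δ ≠ 0) {P : (W.toAffine⁄F).Point}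
    (hP : XRat W j P) (h2 : XRat W j (P + P)) : hgt W j (P + P) = 4 * hgt W j P := by
  rcases hP with rfl | ⟨r, y, h, rfl⟩
  · simp
  have hr : HasX W j (Point.some (j r) y h) r := ⟨y, h, rfl⟩
  rw [hr.hgt_eq]
  have hb2 : (W.toAffine⁄F).b₂ = j (algebraMap k (RatFunc k) (W.baseChange k).b₂) := by
    rw [AlgHom.commutes]
    simp only [WeierstrassCurve.baseChange, WeierstrassCurve.map_b₂,
      ← IsScalarTower.algebraMap_apply, Affine.baseChange]
  have hb4 : (W.toAffine⁄F).b₄ = j (algebraMap k (RatFunc k) (W.baseChange k).b₄) := by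
    rw [AlgHom.commutes]
    simp only [WeierstrassCurve.baseChange, WeierstrassCurve.map_b₄,
      ← IsScalarTower.algebraMap_apply, Affine.baseChange]
  have hb6 : (W.toAffine⁄F).b₆ = j (algebraMap k (RatFunc k) (W.baseChange k).b₆) := by
    rw [AlgHom.commutes]
    simp only [WeierstrassCurve.baseChange, WeierstrassCurve.map_b₆,
      ← IsScalarTower.algebraMap_apply, Affine.baseChange]
  have hb8 : (W.toAffine⁄F).b₈ = j (algebraMap k (RatFunc k) (W.baseChange k).b₈) := by
    rw [AlgHom.commutes]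
    simp only [WeierstrassCurve.baseChange, WeierstrassCurve.map_b₈,
      ← IsScalarTower.algebraMap_apply, Affine.baseChange]
  by_cases hy : y = (W.toAffine⁄F).negY (j r) y
  · rw [Point.add_self_of_Y_eq hy, hgt_zero]
    have hE := h.1
    rw [Affine.equation_iff] at hE
    have k2 := H11.alg_psi2_sq _ _ _ _ _ _ _ hE
    have hy' : 2 * y + (W.toAffine⁄F).a₁ * j r + (W.toAffine⁄F).a₃ = 0 := by
      have := hy
      simp only [Affine.negY] at this
      linear_combination this
    rw [hy'] at k2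
    have hps : H11.psi2sq (W.toAffine⁄F) (j r) = 0 := by
      simp only [H11.psi2sq, WeierstrassCurve.b₂, WeierstrassCurve.b₄, WeierstrassCurve.b₆]
      linear_combination -k2
    have h0 : rdeg r = 0 := by
      apply rdeg_eq_zero_of_psi2sq (W := W) hΔ
      apply j_injective (j := j)
      rw [map_zero, ← hps]
      simp only [H11.psi2sq, hb2, hb4, hb6, map_add, map_mul, map_pow, map_ofNat]
    rw [h0]
  · rw [Point.add_self_of_Y_ne hy] at h2 ⊢
    rcases h2 with h0 | ⟨r₃, hr₃⟩
    · exact absurd h0 (Point.some_ne_zero _)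
    rw [hr₃.hgt_eq]
    have hx₃ := hasX_some.mp hr₃
    have key := H11.addX_dup (W.toAffine⁄F) h.1 hy
    rw [hx₃] at key
    apply rdeg_double (W.baseChange k) hΔ
    apply j_injective (j := j)
    have : H11.psi2sq (W.toAffine⁄F) (j r) * j r₃ = H11.phi2 (W.toAffine⁄F) (j r) := by
      rw [mul_comm]; exact key
    simp only [H11.psi2sq, H11.phi2, hb2, hb4, hb6, hb8] at this
    simp only [map_add, map_sub, map_mul, map_pow, map_ofNat]
    exact this


/-- **The parallelogram law for the height** on points with `x`-coordinate in `j (k(x))`. -/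
theorem hgt_parallelogram (hΔ : (W.baseChange k).Δ ≠ 0) {P Q : (W.toAffine⁄F).Point}
    (hP : XRat W j P) (hQ : XRat W j Q) (hS : XRat W j (P + Q)) (hD : XRat W j (P - Q)) :
    hgt W j (P + Q) + hgt W j (P - Q) = 2 * hgt W j P + 2 * hgt W j Q := by
  rcases hP with rfl | ⟨r₁, y₁, h₁, rfl⟩
  · simp only [zero_add, zero_sub, hgt_neg, hgt_zero]; ring
  rcases hQ with rfl | ⟨r₂, y₂, h₂, rfl⟩
  · simp only [add_zero, sub_zero, hgt_zero]; ring
  have hr₁ : HasX W j (Point.some (j r₁) y₁ h₁) r₁ := ⟨y₁, h₁, rfl⟩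
  have hr₂ : HasX W j (Point.some (j r₂) y₂ h₂) r₂ := ⟨y₂, h₂, rfl⟩
  by_cases hx : j r₁ = j r₂
  · -- `Q = ± P`
    have hPQ := (Point.X_eq_iff (h₁ := h₁) (h₂ := h₂)).mp hx
    rcases hPQ with e | e
    · rw [e] at hS ⊢
      rw [sub_self, hgt_zero, add_zero, hgt_add_self hΔ hr₂.xRat hS]
      ring
    · have e' : Point.some (j r₂) y₂ h₂ = -Point.some (j r₁) y₁ h₁ := by rw [e, neg_neg]
      rw [e'] at hD ⊢
      rw [sub_neg_eq_add] at hD ⊢
      rw [add_neg_cancel, hgt_zero, zero_add, hgt_add_self hΔ hr₁.xRat hD, hgt_neg]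
      ring
  · -- the generic case
    have hb2 : (W.toAffine⁄F).b₂ = j (algebraMap k (RatFunc k) (W.baseChange k).b₂) := by
      rw [AlgHom.commutes]
      simp only [WeierstrassCurve.baseChange, WeierstrassCurve.map_b₂,
        ← IsScalarTower.algebraMap_apply, Affine.baseChange]
    have hb4 : (W.toAffine⁄F).b₄ = j (algebraMap k (RatFunc k) (W.baseChange k).b₄) := by
      rw [AlgHom.commutes]
      simp only [WeierstrassCurve.baseChange, WeierstrassCurve.map_b₄,
        ← IsScalarTower.algebraMap_apply, Affine.baseChange]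
    have hb6 : (W.toAffine⁄F).b₆ = j (algebraMap k (RatFunc k) (W.baseChange k).b₆) := by
      rw [AlgHom.commutes]
      simp only [WeierstrassCurve.baseChange, WeierstrassCurve.map_b₆,
        ← IsScalarTower.algebraMap_apply, Affine.baseChange]
    have hb8 : (W.toAffine⁄F).b₈ = j (algebraMap k (RatFunc k) (W.baseChange k).b₈) := by
      rw [AlgHom.commutes]
      simp only [WeierstrassCurve.baseChange, WeierstrassCurve.map_b₈,
        ← IsScalarTower.algebraMap_apply, Affine.baseChange]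
    rw [sub_eq_add_neg, Point.neg_some] at hD ⊢
    have e₁ := Point.add_of_X_ne (h₁ := h₁) (h₂ := h₂) hx
    have e₂ := Point.add_of_X_ne (h₁ := h₁) (h₂ := (Affine.nonsingular_neg ..).mpr h₂) hx
    rw [e₁] at hS ⊢
    rw [e₂] at hD ⊢
    rcases hS with h0 | ⟨r₃, hr₃⟩
    · exact absurd h0 (Point.some_ne_zero _)
    rcases hD with h0 | ⟨r₄, hr₄⟩
    · exact absurd h0 (Point.some_ne_zero _)
    rw [hr₃.hgt_eq, hr₄.hgt_eq, hr₁.hgt_eq, hr₂.hgt_eq]
    have hx₃ := hasX_some.mp hr₃
    have hx₄ := hasX_some.mp hr₄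
    have key0 := H11.addX_rel (W.toAffine⁄F) h₁.1 h₂.1 hx 0
    have key1 := H11.addX_rel (W.toAffine⁄F) h₁.1 h₂.1 hx 1
    rw [hx₃, hx₄] at key0 key1
    simp only [H11.symF, hb2, hb4, hb6, hb8] at key0 key1
    apply rdeg_parallelogram (W.baseChange k) hΔ r₁ r₂ r₃ r₄
    · apply j_injective (j := j)
      simp only [map_add, map_sub, map_mul, map_pow, map_ofNat]
      linear_combination key0 - key1
    · apply j_injective (j := j)
      simp only [map_add, map_sub, map_mul, map_pow]
      linear_combination key0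

end height

/-! ### Behaviour under field homomorphisms -/

section maps

variable {R : Type*} [CommRing R] {W : WeierstrassCurve R} {k : Type*} [Field k] [Algebra R k]
  {S : Type*} [CommRing S] [Algebra R S]
  {F : Type*} [Field F] [DecidableEq F] [Algebra R F] [Algebra k F] [IsScalarTower R k F]
  [Algebra S F] [IsScalarTower R S F]
  {F' : Type*} [Field F'] [DecidableEq F'] [Algebra R F'] [Algebra k F'] [IsScalarTower R k F']
  [Algebra S F'] [IsScalarTower R S F']
  {j : RatFunc k →ₐ[k] F} {j' : RatFunc k →ₐ[k] F'}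

lemma HasX.map (σ : F →ₐ[S] F') {r r' : RatFunc k} (hσ : σ (j r) = j' r')
    {P : (W.toAffine⁄F).Point} (h : HasX W j P r) :
    HasX W j' (Point.map (W' := W.toAffine) σ P) r' := by
  obtain ⟨y, hy, rfl⟩ := h
  rw [Point.map_some]
  exact hasX_some.mpr hσ

lemma XRat.map (σ : F →ₐ[S] F') (hσ : ∀ r, ∃ r', σ (j r) = j' r')
    {P : (W.toAffine⁄F).Point} (h : XRat W j P) :
    XRat W j' (Point.map (W' := W.toAffine) σ P) := by
  rcases h with rfl | ⟨r, hr⟩
  · exact Or.inl (map_zero _)
  · obtain ⟨r', hr'⟩ := hσ r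
    exact (hr.map σ hr').xRat

/-- Frobenius-like maps multiply the height by `n`. -/
lemma XRat.hgt_map_pow (σ : F →ₐ[S] F') (n : ℕ) (hσ : ∀ r, σ (j r) = j' (r ^ n))
    {P : (W.toAffine⁄F).Point} (h : XRat W j P) :
    hgt W j' (Point.map (W' := W.toAffine) σ P) = n * hgt W j P := by
  rcases h with rfl | ⟨r, hr⟩
  · rw [map_zero, hgt_zero, hgt_zero, mul_zero]
  · rw [(hr.map σ (hσ r)).hgt_eq, hr.hgt_eq, rdeg_pow]

/-- Substitution `x ↦ s` multiplies the height by `rdeg s`. -/
lemma XRat.hgt_map_comp (σ : F →ₐ[S] F') (s : RatFunc k) (hs : ¬ ∃ c, s = RatFunc.C c)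
    (hσ : ∀ r, σ (j r) = j' (compHom s hs r))
    {P : (W.toAffine⁄F).Point} (h : XRat W j P) :
    hgt W j' (Point.map (W' := W.toAffine) σ P) = hgt W j P * rdeg s := by
  rcases h with rfl | ⟨r, hr⟩
  · rw [map_zero, hgt_zero, hgt_zero, zero_mul]
  · rw [(hr.map σ (hσ r)).hgt_eq, hr.hgt_eq, rdeg_comp]

/-- An injective map which is the identity on `k(x)` preserves the height. -/
lemma XRat.hgt_map_id (σ : F →ₐ[S] F') (hσ : ∀ r, σ (j r) = j' r)
    {P : (W.toAffine⁄F).Point} (h : XRat W j P) :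
    hgt W j' (Point.map (W' := W.toAffine) σ P) = hgt W j P := by
  rcases h with rfl | ⟨r, hr⟩
  · rw [map_zero, hgt_zero, hgt_zero]
  · rw [(hr.map σ (hσ r)).hgt_eq, hr.hgt_eq]

end maps

end Fermat.Agent.Lib.EllFinite.H80
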