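/-
Item 62 (Lib/EllFinite), helper80, package GEN part 2: the function field of a Weierstrass curve as
`AdjoinRoot` of the Weierstrass polynomial over `k(x)`, its generic point, and the universal
property (substitution of a point with transcendental `x`-coordinate).
-/
import Fermat.Agent.Lib.EllFinite.H80_Height
import Mathlib.RingTheory.AdjoinRoot
import Mathlib.RingTheory.Polynomial.GaussLemma
import Mathlib.FieldTheory.RatFunc.AsPolynomial

set_option autoImplicit false
set_option linter.unusedSectionVars false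

namespace Fermat.Agent.Lib.EllFinite.H80

open WeierstrassCurve WeierstrassCurve.Affine
open scoped Polynomial

section field

variable {R : Type*} [CommRing R] (W : WeierstrassCurve R) (k : Type*) [Field k] [Algebra R k]

/-- The Weierstrass polynomial of `W⁄k`, as a polynomial in `Y` over `k(x)`. -/
noncomputable def wpoly : (RatFunc k)[X] :=
  ((W.baseChange k).toAffine.polynomial).map (algebraMap k[X] (RatFunc k))

lemma wpoly_monic : (wpoly W k).Monic := Affine.monic_polynomial.map _

lemma wpoly_irreducible : Irreducible (wpoly W k) :=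
  (Polynomial.Monic.irreducible_iff_irreducible_map_fraction_map Affine.monic_polynomial).mp
    Affine.irreducible_polynomial

instance wpoly_fact : Fact (Irreducible (wpoly W k)) := ⟨wpoly_irreducible W k⟩

lemma wpoly_natDegree : (wpoly W k).natDegree = 2 := by
  rw [wpoly, Polynomial.natDegree_map_eq_of_injective (IsFractionRing.injective k[X] (RatFunc k))]
  exact Affine.natDegree_polynomial

/-- The function field of `W⁄k`. -/
abbrev FF : Type _ := AdjoinRoot (wpoly W k)

noncomputable instance instDecEqFF : DecidableEq (FF W k) := Classical.decEq _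

/-- The embedding `k(x) → FF W k`. -/
noncomputable def jF : RatFunc k →ₐ[k] FF W k := IsScalarTower.toAlgHom k (RatFunc k) (FF W k)

lemma jF_apply (r : RatFunc k) : jF W k r = AdjoinRoot.of (wpoly W k) r := rfl

/-- The coordinate function `x`. -/
noncomputable def fx : FF W k := jF W k RatFunc.X

/-- The coordinate function `y`. -/
noncomputable def fy : FF W k := AdjoinRoot.root (wpoly W k)

lemma jF_C (c : k) : jF W k (RatFunc.C c) = algebraMap k (FF W k) c := by
  rw [← RatFunc.algebraMap_eq_C, AlgHom.commutes]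

lemma jF_algebraMap_poly (p : k[X]) :
    jF W k (algebraMap k[X] (RatFunc k) p) = Polynomial.aeval (fx W k) p := by
  induction p using Polynomial.induction_on' with
  | add p q hp hq => rw [map_add, map_add, map_add, hp, hq]
  | monomial n a =>
    rw [← Polynomial.C_mul_X_pow_eq_monomial]
    simp only [map_mul, map_pow, Polynomial.aeval_C, Polynomial.aeval_X, RatFunc.algebraMap_C,
      RatFunc.algebraMap_X, jF_C, fx]

omit [Algebra R k] in
/-- Evaluation of the Weierstrass polynomial along a ring homomorphism out of `k[X]`. -/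
lemma eval₂_polynomial {A : Type*} [CommRing A] (V : Affine k) (ψ : k[X] →+* A) (y : A) :
    V.polynomial.eval₂ ψ y =
      y ^ 2 + (ψ (Polynomial.C V.a₁) * ψ Polynomial.X + ψ (Polynomial.C V.a₃)) * y
        - (ψ Polynomial.X ^ 3 + ψ (Polynomial.C V.a₂) * ψ Polynomial.X ^ 2
          + ψ (Polynomial.C V.a₄) * ψ Polynomial.X + ψ (Polynomial.C V.a₆)) := by
  simp only [Affine.polynomial, Polynomial.eval₂_add, Polynomial.eval₂_sub, Polynomial.eval₂_mul,
    Polynomial.eval₂_pow, Polynomial.eval₂_C, Polynomial.eval₂_X, map_add, map_mul, map_pow]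

lemma equation_gen : (W.toAffine⁄(FF W k)).Equation (fx W k) (fy W k) := by
  have h : Polynomial.eval₂ ((AdjoinRoot.of (wpoly W k)).comp (algebraMap k[X] (RatFunc k)))
      (fy W k) (W.baseChange k).toAffine.polynomial = 0 := by
    rw [← Polynomial.eval₂_map]
    exact AdjoinRoot.eval₂_root (wpoly W k)
  rw [eval₂_polynomial] at h
  simp only [RingHom.comp_apply, RatFunc.algebraMap_C, RatFunc.algebraMap_X, ← jF_apply,
    jF_C] at h
  rw [Affine.equation_iff]
  simp only [Affine.baseChange, WeierstrassCurve.baseChange, WeierstrassCurve.map_a₁,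
    WeierstrassCurve.map_a₂, WeierstrassCurve.map_a₃, WeierstrassCurve.map_a₄,
    WeierstrassCurve.map_a₆, ← IsScalarTower.algebraMap_apply] at h ⊢
  rw [fx]
  linear_combination h


lemma algebraMap_Δ_ne_zero (hΔ : (W.baseChange k).Δ ≠ 0) {L : Type*} [Field L] [Algebra R L]
    [Algebra k L] [IsScalarTower R k L] : (W.toAffine⁄L).Δ ≠ 0 := by
  have h1 : (W.toAffine⁄L).Δ = algebraMap k L (W.baseChange k).Δ := by
    simp only [Affine.baseChange, WeierstrassCurve.baseChange, WeierstrassCurve.map_Δ,
      ← IsScalarTower.algebraMap_apply]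
  rw [h1]
  exact fun h => hΔ ((map_eq_zero _).mp h)

lemma nonsingular_gen (hΔ : (W.baseChange k).Δ ≠ 0) :
    (W.toAffine⁄(FF W k)).Nonsingular (fx W k) (fy W k) :=
  (Affine.equation_iff_nonsingular_of_Δ_ne_zero (algebraMap_Δ_ne_zero W k hΔ)).mp
    (equation_gen W k)

open Classical in
/-- The generic point `(x, y)`. -/
noncomputable def gpt : (W.toAffine⁄(FF W k)).Point :=
  if h : (W.toAffine⁄(FF W k)).Nonsingular (fx W k) (fy W k) then .some _ _ h else 0

lemma gpt_eq (hΔ : (W.baseChange k).Δ ≠ 0) :
    gpt W k = .some (fx W k) (fy W k) (nonsingular_gen W k hΔ) := by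
  rw [gpt, dif_pos]

lemma hasX_gpt (hΔ : (W.baseChange k).Δ ≠ 0) : HasX W (jF W k) (gpt W k) RatFunc.X := by
  rw [gpt_eq W k hΔ]
  exact hasX_some.mpr rfl

lemma hgt_gpt (hΔ : (W.baseChange k).Δ ≠ 0) : hgt W (jF W k) (gpt W k) = 1 := by
  rw [(hasX_gpt W k hΔ).hgt_eq, rdeg_X]

/-! ### Elements of the function field -/

/-- Every element of the function field is `u + v y` with `u, v ∈ k(x)`. -/
lemma exists_rep (z : FF W k) : ∃ u v : RatFunc k, z = jF W k u + jF W k v * fy W k := by
  obtain ⟨p, rfl⟩ := AdjoinRoot.mk_surjective z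
  set q := p %ₘ wpoly W k with hq
  have hdeg : q.natDegree < 2 := by
    have := Polynomial.natDegree_modByMonic_lt p (wpoly_monic W k)
      (by intro h; have := wpoly_natDegree W k; rw [h] at this; simp at this)
    rwa [wpoly_natDegree] at this
  have hmk : AdjoinRoot.mk (wpoly W k) p = AdjoinRoot.mk (wpoly W k) q := by
    rw [AdjoinRoot.mk_eq_mk]
    refine ⟨p /ₘ wpoly W k, ?_⟩
    have := Polynomial.modByMonic_add_div p (wpoly W k)
    rw [hq]
    linear_combination -this
  have hq2 : q = Polynomial.C (q.coeff 1) * Polynomial.X + Polynomial.C (q.coeff 0) :=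
    Polynomial.eq_X_add_C_of_natDegree_le_one (by omega)
  refine ⟨q.coeff 0, q.coeff 1, ?_⟩
  rw [hmk, hq2]
  simp only [map_add, map_mul, AdjoinRoot.mk_C, AdjoinRoot.mk_X, jF_apply, fy]
  simp only [Polynomial.coeff_add, Polynomial.coeff_C_mul, Polynomial.coeff_X_one,
    Polynomial.coeff_X_zero, Polynomial.coeff_C_zero, Polynomial.coeff_C_succ, mul_one, mul_zero,
    add_zero, zero_add]
  ring

/-- The representation `u + v y` is unique. -/
lemma rep_eq_zero {u v : RatFunc k} (h : jF W k u + jF W k v * fy W k = 0) : u = 0 ∧ v = 0 := by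
  have hmk : AdjoinRoot.mk (wpoly W k) (Polynomial.C v * Polynomial.X + Polynomial.C u) = 0 := by
    simp only [map_add, map_mul, AdjoinRoot.mk_C, AdjoinRoot.mk_X]
    rw [← h, jF_apply, jF_apply, fy]
    ring
  rw [AdjoinRoot.mk_eq_zero] at hmk
  have h0 : Polynomial.C v * Polynomial.X + Polynomial.C u = 0 := by
    apply Polynomial.eq_zero_of_dvd_of_natDegree_lt hmk
    rw [wpoly_natDegree]
    have : (Polynomial.C v * Polynomial.X + Polynomial.C u).natDegree ≤ 1 :=
      Polynomial.natDegree_linear_le
    omega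
  have c0 := congrArg (fun p : (RatFunc k)[X] => p.coeff 0) h0
  have c1 := congrArg (fun p : (RatFunc k)[X] => p.coeff 1) h0
  simp at c0 c1
  exact ⟨c0, c1⟩

lemma rep_unique {u v u' v' : RatFunc k}
    (h : jF W k u + jF W k v * fy W k = jF W k u' + jF W k v' * fy W k) : u = u' ∧ v = v' := by
  have := rep_eq_zero W k (u := u - u') (v := v - v') (by
    rw [map_sub, map_sub]; linear_combination h)
  exact ⟨sub_eq_zero.mp this.1, sub_eq_zero.mp this.2⟩

end field

/-! ### The universal property -/

section pull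

variable {R : Type*} [CommRing R] (W : WeierstrassCurve R) (k : Type*) [Field k] [Algebra R k]
  {L : Type*} [Field L] [Algebra R L] [Algebra k L] [IsScalarTower R k L]

/-- `k(x) → L`, `x ↦ x₀`, for `x₀` transcendental over `k`. -/
noncomputable def ratLift (x₀ : L) (hx : Transcendental k x₀) : RatFunc k →ₐ[k] L :=
  RatFunc.liftAlgHom (Polynomial.aeval x₀)
    (nonZeroDivisors_le_comap_nonZeroDivisors_of_injective _ (transcendental_iff_injective.mp hx))

variable {k}

lemma ratLift_apply (x₀ : L) (hx : Transcendental k x₀) (r : RatFunc k) :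
    ratLift k x₀ hx r = Polynomial.aeval x₀ r.num / Polynomial.aeval x₀ r.denom :=
  RatFunc.liftAlgHom_apply _ _ r

lemma ratLift_algebraMap (x₀ : L) (hx : Transcendental k x₀) (p : k[X]) :
    ratLift k x₀ hx (algebraMap k[X] (RatFunc k) p) = Polynomial.aeval x₀ p := by
  rw [ratLift_apply, RatFunc.num_algebraMap, RatFunc.denom_algebraMap, map_one, div_one]

@[simp] lemma ratLift_X (x₀ : L) (hx : Transcendental k x₀) : ratLift k x₀ hx RatFunc.X = x₀ := by
  rw [← RatFunc.algebraMap_X, ratLift_algebraMap, Polynomial.aeval_X]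

/-- A `k`-algebra homomorphism out of `k(x)` is determined by the image of `x`. -/
lemma ratFunc_algHom_ext {φ ψ : RatFunc k →ₐ[k] L} (h : φ RatFunc.X = ψ RatFunc.X) : φ = ψ := by
  have hp : φ.comp (IsScalarTower.toAlgHom k k[X] (RatFunc k))
      = ψ.comp (IsScalarTower.toAlgHom k k[X] (RatFunc k)) := by
    apply Polynomial.algHom_ext
    simpa using h
  have hp' : ∀ p : k[X], φ (algebraMap k[X] (RatFunc k) p) = ψ (algebraMap k[X] (RatFunc k) p) :=
    fun p => DFunLike.congr_fun hp p
  ext r
  rw [← RatFunc.num_div_denom r, map_div₀, map_div₀, hp', hp']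

lemma transcendental_of_algHom (φ : RatFunc k →ₐ[k] L) : Transcendental k (φ RatFunc.X) := by
  rw [transcendental_iff_injective]
  intro p q hpq
  have h1 : ∀ p : k[X], Polynomial.aeval (φ RatFunc.X) p = φ (algebraMap k[X] (RatFunc k) p) := by
    intro p
    have := Polynomial.aeval_algHom_apply (φ.comp (IsScalarTower.toAlgHom k k[X] (RatFunc k)))
      (Polynomial.X : k[X]) p
    rw [Polynomial.aeval_X_left_apply] at this
    simpa using this
  rw [h1, h1] at hpq
  exact IsFractionRing.injective k[X] (RatFunc k) ((RingHom.injective φ.toRingHom) hpq)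

variable (k)

/-- **Universal property**: the `k`-embedding of the function field attached to a point of `W`
with transcendental `x`-coordinate. -/
noncomputable def pull (x₀ y₀ : L) (hx : Transcendental k x₀)
    (he : (W.toAffine⁄L).Equation x₀ y₀) : FF W k →ₐ[k] L :=
  AdjoinRoot.liftAlgHom (wpoly W k) (ratLift k x₀ hx) y₀ (by
    rw [wpoly, Polynomial.eval₂_map, eval₂_polynomial]
    simp only [RingHom.comp_apply, RatFunc.algebraMap_C, RatFunc.algebraMap_X, AlgHom.coe_toRingHom,
      ratLift_X, ← RatFunc.algebraMap_eq_C, AlgHom.commutes]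
    rw [Affine.equation_iff] at he
    simp only [Affine.baseChange, WeierstrassCurve.baseChange, WeierstrassCurve.map_a₁,
      WeierstrassCurve.map_a₂, WeierstrassCurve.map_a₃, WeierstrassCurve.map_a₄,
      WeierstrassCurve.map_a₆, ← IsScalarTower.algebraMap_apply] at he ⊢
    linear_combination he)

variable {k} {W}

@[simp] lemma pull_jF (x₀ y₀ : L) (hx : Transcendental k x₀)
    (he : (W.toAffine⁄L).Equation x₀ y₀) (r : RatFunc k) :
    pull W k x₀ y₀ hx he (jF W k r) = ratLift k x₀ hx r := by
  rw [pull, jF_apply, AdjoinRoot.liftAlgHom_of]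

@[simp] lemma pull_fx (x₀ y₀ : L) (hx : Transcendental k x₀)
    (he : (W.toAffine⁄L).Equation x₀ y₀) : pull W k x₀ y₀ hx he (fx W k) = x₀ := by
  rw [fx, pull_jF, ratLift_X]

@[simp] lemma pull_fy (x₀ y₀ : L) (hx : Transcendental k x₀)
    (he : (W.toAffine⁄L).Equation x₀ y₀) : pull W k x₀ y₀ hx he (fy W k) = y₀ := by
  rw [pull, fy, AdjoinRoot.liftAlgHom_root]

/-- A `k`-algebra homomorphism out of the function field is determined by the images of `x, y`. -/
lemma ff_algHom_ext {φ ψ : FF W k →ₐ[k] L} (hx : φ (fx W k) = ψ (fx W k))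
    (hy : φ (fy W k) = ψ (fy W k)) : φ = ψ := by
  have h1 : φ.comp (jF W k) = ψ.comp (jF W k) := ratFunc_algHom_ext (by simpa [fx] using hx)
  apply AlgHom.ext
  intro z
  obtain ⟨u, v, rfl⟩ := exists_rep W k z
  have hu := DFunLike.congr_fun h1 u
  have hv := DFunLike.congr_fun h1 v
  simp only [AlgHom.comp_apply] at hu hv
  rw [map_add, map_add, map_mul, map_mul, hu, hv, hy]

variable [DecidableEq L]

lemma map_pull_gpt (hΔ : (W.baseChange k).Δ ≠ 0) (x₀ y₀ : L) (hx : Transcendental k x₀)
    (h : (W.toAffine⁄L).Nonsingular x₀ y₀) :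
    Point.map (W' := W.toAffine) (pull W k x₀ y₀ hx h.1) (gpt W k) = .some x₀ y₀ h := by
  rw [gpt_eq W k hΔ, Point.map_some]
  simp only [pull_fx, pull_fy]

end pull

end Fermat.Agent.Lib.EllFinite.H80
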