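/-
Item 62 (Lib/EllFinite), helper80, package GEN part 3: the hyperelliptic involution of the function
field `FF W k`, odd points, Frobenius, the degree form on `ℤ[Φ] g` and the quadratic relation
for the generic point (T-gen) in `E(FF W k)`.
-/
import Fermat.Agent.Lib.EllFinite.H80_Field
import Fermat.Agent.Lib.EllFinite.H46_DegForm
import Fermat.Agent.Lib.EllFinite.Defs

set_option autoImplicit false
set_option linter.unusedSectionVars false

namespace Fermat.Agent.Lib.EllFinite.H80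

open WeierstrassCurve WeierstrassCurve.Affine
open scoped Polynomial

section involution

variable {R : Type*} [CommRing R] (W : WeierstrassCurve R) (k : Type*) [Field k] [Algebra R k]

lemma transcendental_fx : Transcendental k (fx W k) := transcendental_of_algHom (jF W k)

/-- A homomorphism out of `k(x)` is the lift of the image of `x`. -/
lemma ratLift_eq {L : Type*} [Field L] [Algebra k L] (φ : RatFunc k →ₐ[k] L)
    (h : Transcendental k (φ RatFunc.X)) : ratLift k (φ RatFunc.X) h = φ :=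
  ratFunc_algHom_ext (ratLift_X _ _)

/-- The hyperelliptic involution `y ↦ -y - a₁ x - a₃` of the function field. -/
noncomputable def invF : FF W k →ₐ[k] FF W k :=
  pull W k (fx W k) ((W.toAffine⁄(FF W k)).negY (fx W k) (fy W k)) (transcendental_fx W k)
    ((Affine.equation_neg ..).mpr (equation_gen W k))

@[simp] lemma invF_jF (r : RatFunc k) : invF W k (jF W k r) = jF W k r := by
  rw [invF, pull_jF]
  have := ratLift_eq k (jF W k) (transcendental_fx W k)
  exact DFunLike.congr_fun this r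

@[simp] lemma invF_fx : invF W k (fx W k) = fx W k := by
  rw [invF, pull_fx]

@[simp] lemma invF_fy :
    invF W k (fy W k) = (W.toAffine⁄(FF W k)).negY (fx W k) (fy W k) := by
  rw [invF, pull_fy]

lemma map_invF_gpt (hΔ : (W.baseChange k).Δ ≠ 0) :
    Point.map (W' := W.toAffine) (invF W k) (gpt W k) = -gpt W k := by
  rw [invF, map_pull_gpt hΔ _ _ _ ((Affine.nonsingular_neg ..).mpr (nonsingular_gen W k hΔ)),
    gpt_eq W k hΔ, Point.neg_some]

/-- The odd points: `ι P = -P`. -/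
noncomputable def oddPts : AddSubgroup (W.toAffine⁄(FF W k)).Point :=
  (Point.map (W' := W.toAffine) (invF W k) + AddMonoidHom.id _).ker

variable {W k}

lemma mem_oddPts {P : (W.toAffine⁄(FF W k)).Point} :
    P ∈ oddPts W k ↔ Point.map (W' := W.toAffine) (invF W k) P = -P := by
  rw [oddPts, AddMonoidHom.mem_ker, AddMonoidHom.add_apply, AddMonoidHom.id_apply,
    add_eq_zero_iff_eq_neg]

lemma gpt_mem_oddPts (hΔ : (W.baseChange k).Δ ≠ 0) : gpt W k ∈ oddPts W k :=
  mem_oddPts.mpr (map_invF_gpt W k hΔ)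

/-- `2 y + a₁ x + a₃ ≠ 0` in the function field. -/
lemma two_fy_ne_zero (hΔ : (W.baseChange k).Δ ≠ 0) :
    2 * fy W k + (W.toAffine⁄(FF W k)).a₁ * fx W k + (W.toAffine⁄(FF W k)).a₃ ≠ 0 := by
  intro h
  have h' : jF W k (RatFunc.C (algebraMap R k W.a₁) * RatFunc.X + RatFunc.C (algebraMap R k W.a₃))
      + jF W k 2 * fy W k = 0 := by
    simp only [map_add, map_mul, jF_C, map_ofNat]
    simp only [Affine.baseChange, WeierstrassCurve.baseChange, WeierstrassCurve.map_a₁,
      WeierstrassCurve.map_a₃, IsScalarTower.algebraMap_apply R k (FF W k)] at h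
    rw [← fx]
    linear_combination h
  obtain ⟨h1, h2⟩ := rep_eq_zero W k h'
  have h2' : (2 : k) = 0 := by
    have : RatFunc.C (2 : k) = 0 := by rw [map_ofNat]; exact h2
    exact (map_eq_zero _).mp this
  have ha : RatFunc.C (algebraMap R k W.a₁) * RatFunc.X + RatFunc.C (algebraMap R k W.a₃)
      = algebraMap k[X] (RatFunc k)
        (Polynomial.C (algebraMap R k W.a₁) * Polynomial.X + Polynomial.C (algebraMap R k W.a₃)) := by
    simp only [map_add, map_mul, RatFunc.algebraMap_C, RatFunc.algebraMap_X]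
  rw [ha] at h1
  have h1' := (IsFractionRing.injective k[X] (RatFunc k)) (h1.trans (map_zero _).symm)
  have c0 := congrArg (fun p : k[X] => p.coeff 0) h1'
  have c1 := congrArg (fun p : k[X] => p.coeff 1) h1'
  simp at c0 c1
  apply hΔ
  simp only [WeierstrassCurve.baseChange, WeierstrassCurve.Δ, WeierstrassCurve.b₂,
    WeierstrassCurve.b₄, WeierstrassCurve.b₆, WeierstrassCurve.b₈, WeierstrassCurve.map_a₁,
    WeierstrassCurve.map_a₂, WeierstrassCurve.map_a₃, WeierstrassCurve.map_a₄,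
    WeierstrassCurve.map_a₆]
  rw [c0, c1]
  linear_combination (144 * algebraMap R k W.a₂ * algebraMap R k W.a₆ * algebraMap R k W.a₄
    + 8 * algebraMap R k W.a₂ ^ 2 * algebraMap R k W.a₄ ^ 2
    - 32 * algebraMap R k W.a₂ ^ 3 * algebraMap R k W.a₆ - 216 * algebraMap R k W.a₆ ^ 2
    - 32 * algebraMap R k W.a₄ ^ 3) * h2'


/-- The fixed field of the involution is `k(x)`. -/
lemma exists_jF_of_invF_eq (hΔ : (W.baseChange k).Δ ≠ 0) {z : FF W k} (h : invF W k z = z) :
    ∃ r, z = jF W k r := by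
  obtain ⟨u, v, rfl⟩ := exists_rep W k z
  have h0 : jF W k v * (2 * fy W k + (W.toAffine⁄(FF W k)).a₁ * fx W k
      + (W.toAffine⁄(FF W k)).a₃) = 0 := by
    rw [map_add, map_mul, invF_jF, invF_jF, invF_fy] at h
    simp only [Affine.negY] at h
    linear_combination -h
  rcases mul_eq_zero.mp h0 with hv | h2
  · have hv0 : v = 0 := (map_eq_zero _).mp hv
    exact ⟨u, by rw [hv0, map_zero, zero_mul, add_zero]⟩
  · exact absurd h2 (two_fy_ne_zero hΔ)

/-- Coordinates of an odd affine point. -/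
lemma coords_of_mem_oddPts (hΔ : (W.baseChange k).Δ ≠ 0) {x y : FF W k}
    {h : (W.toAffine⁄(FF W k)).Nonsingular x y} (hP : Point.some x y h ∈ oddPts W k) :
    ∃ r u v : RatFunc k, x = jF W k r ∧ y = jF W k u + jF W k v * fy W k ∧
      2 * u + RatFunc.C (algebraMap R k W.a₁) * r + RatFunc.C (algebraMap R k W.a₃)
        = v * (RatFunc.C (algebraMap R k W.a₁) * RatFunc.X + RatFunc.C (algebraMap R k W.a₃)) := by
  rw [mem_oddPts, Point.map_some, Point.neg_some, Point.some.injEq] at hP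
  obtain ⟨hx, hy⟩ := hP
  obtain ⟨r, rfl⟩ := exists_jF_of_invF_eq hΔ hx
  obtain ⟨u, v, rfl⟩ := exists_rep W k y
  refine ⟨r, u, v, rfl, rfl, ?_⟩
  rw [map_add, map_mul, invF_jF, invF_jF, invF_fy] at hy
  simp only [Affine.negY, Affine.baseChange, WeierstrassCurve.baseChange, WeierstrassCurve.map_a₁,
    WeierstrassCurve.map_a₃, IsScalarTower.algebraMap_apply R k (FF W k), ← jF_C] at hy
  have key : jF W k (2 * u + RatFunc.C (algebraMap R k W.a₁) * r + RatFunc.C (algebraMap R k W.a₃)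
      - v * (RatFunc.C (algebraMap R k W.a₁) * RatFunc.X + RatFunc.C (algebraMap R k W.a₃)))
      + jF W k 0 * fy W k = 0 := by
    simp only [map_add, map_sub, map_mul, map_ofNat, map_zero]
    rw [← fx]
    linear_combination hy
  exact sub_eq_zero.mp (rep_eq_zero W k key).1

lemma xRat_of_mem_oddPts (hΔ : (W.baseChange k).Δ ≠ 0) {P : (W.toAffine⁄(FF W k)).Point}
    (hP : P ∈ oddPts W k) : XRat W (jF W k) P := by
  rcases P with _ | ⟨x, y, h⟩
  · exact Or.inl rfl
  · obtain ⟨r, u, v, rfl, -, -⟩ := coords_of_mem_oddPts hΔ hP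
    exact Or.inr ⟨r, hasX_some.mpr rfl⟩

/-- The parallelogram law on odd points. -/
theorem hgt_para_oddPts (hΔ : (W.baseChange k).Δ ≠ 0) {P Q : (W.toAffine⁄(FF W k)).Point}
    (hP : P ∈ oddPts W k) (hQ : Q ∈ oddPts W k) :
    hgt W (jF W k) (P + Q) + hgt W (jF W k) (P - Q)
      = 2 * hgt W (jF W k) P + 2 * hgt W (jF W k) Q :=
  hgt_parallelogram hΔ (xRat_of_mem_oddPts hΔ hP) (xRat_of_mem_oddPts hΔ hQ)
    (xRat_of_mem_oddPts hΔ (add_mem hP hQ)) (xRat_of_mem_oddPts hΔ (sub_mem hP hQ))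

/-- The height as a function on the group of odd points satisfies the parallelogram law. -/
lemma isPara_hgt (hΔ : (W.baseChange k).Δ ≠ 0) :
    H46.IsPara (fun P : oddPts W k => (hgt W (jF W k) (P : (W.toAffine⁄(FF W k)).Point) : ℤ)) := by
  intro P Q
  have := hgt_para_oddPts hΔ P.2 Q.2
  simp only [AddSubgroup.coe_add, AddSubgroup.coe_sub]
  exact_mod_cast this

lemma hgt_zsmul (hΔ : (W.baseChange k).Δ ≠ 0) {P : (W.toAffine⁄(FF W k)).Point}
    (hP : P ∈ oddPts W k) (n : ℤ) :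
    (hgt W (jF W k) (n • P) : ℤ) = n ^ 2 * hgt W (jF W k) P := by
  have := (isPara_hgt hΔ).map_zsmul n ⟨P, hP⟩
  simpa using this

end involution

/-! ### Frobenius and the action of `ℤ[X]` -/

section frob

variable (ℓ : ℕ) [Fact ℓ.Prime] (W : WeierstrassCurve (ZMod ℓ))

lemma frobPt_some {K : Type*} [Field K] [DecidableEq K] [Algebra (ZMod ℓ) K] {x y : K}
    (h : (W.toAffine⁄K).Nonsingular x y) :
    ∃ h', frobPt ℓ W K (.some x y h) = .some (x ^ ℓ) (y ^ ℓ) h' :=
  ⟨_, rfl⟩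

/-- Frobenius commutes with all homomorphisms. -/
lemma frobPt_map {S : Type*} [CommRing S] [Algebra (ZMod ℓ) S] {K K' : Type*} [Field K] [Field K']
    [DecidableEq K] [DecidableEq K'] [Algebra (ZMod ℓ) K] [Algebra (ZMod ℓ) K'] [Algebra S K]
    [Algebra S K'] [IsScalarTower (ZMod ℓ) S K] [IsScalarTower (ZMod ℓ) S K'] (σ : K →ₐ[S] K')
    (P : (W.toAffine⁄K).Point) :
    frobPt ℓ W K' (Point.map (W' := W.toAffine) σ P)
      = Point.map (W' := W.toAffine) σ (frobPt ℓ W K P) := by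
  rcases P with _ | ⟨x, y, h⟩
  · rfl
  · simp only [frobPt, Point.map_some, frobAlgHom_apply, map_pow]

variable (k : Type*) [Field k] [Algebra (ZMod ℓ) k]

/-- The group of points of `W` over the function field. -/
abbrev EF : Type _ := (W.toAffine⁄(FF W k)).Point

/-- Frobenius as a `ℤ`-linear endomorphism of `E(FF)`. -/
noncomputable def PhiL : Module.End ℤ (EF ℓ W k) := (frobPt ℓ W (FF W k)).toIntLinearMap

/-- The action of `ℤ[X]` on `E(FF)` through Frobenius. -/
noncomputable def act (p : ℤ[X]) : Module.End ℤ (EF ℓ W k) := Polynomial.aeval (PhiL ℓ W k) p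

variable {ℓ W k}

@[simp] lemma PhiL_apply (P : EF ℓ W k) : PhiL ℓ W k P = frobPt ℓ W (FF W k) P := rfl

lemma act_X (P : EF ℓ W k) : act ℓ W k Polynomial.X P = frobPt ℓ W (FF W k) P := by
  rw [act, Polynomial.aeval_X, PhiL_apply]

lemma act_C (n : ℤ) (P : EF ℓ W k) : act ℓ W k (Polynomial.C n) P = n • P := by
  rw [act, Polynomial.aeval_C, Module.algebraMap_end_apply]

lemma act_one (P : EF ℓ W k) : act ℓ W k 1 P = P := by
  rw [act, map_one, Module.End.one_apply]

lemma act_mul (p q : ℤ[X]) (P : EF ℓ W k) : act ℓ W k (p * q) P = act ℓ W k p (act ℓ W k q P) := by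
  simp only [act, map_mul, Module.End.mul_apply]

lemma act_add (p q : ℤ[X]) (P : EF ℓ W k) : act ℓ W k (p + q) P = act ℓ W k p P + act ℓ W k q P := by
  simp only [act, map_add, LinearMap.add_apply]

lemma act_sub (p q : ℤ[X]) (P : EF ℓ W k) : act ℓ W k (p - q) P = act ℓ W k p P - act ℓ W k q P := by
  simp only [act, map_sub, LinearMap.sub_apply]

/-- An additive map commuting with Frobenius commutes with the whole action. -/
lemma act_comm (T : EF ℓ W k →+ EF ℓ W k)
    (hT : ∀ P, T (frobPt ℓ W (FF W k) P) = frobPt ℓ W (FF W k) (T P)) (p : ℤ[X]) (P : EF ℓ W k) :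
    T (act ℓ W k p P) = act ℓ W k p (T P) := by
  induction p using Polynomial.induction_on generalizing P with
  | C a => rw [act_C, act_C, map_zsmul]
  | add p q hp hq => rw [act_add, act_add, map_add, hp, hq]
  | monomial n a ih =>
    have e : (Polynomial.C a * Polynomial.X ^ (n + 1) : ℤ[X])
        = Polynomial.C a * Polynomial.X ^ n * Polynomial.X := by ring
    rw [e, act_mul (Polynomial.C a * Polynomial.X ^ n) Polynomial.X,
      act_mul (Polynomial.C a * Polynomial.X ^ n) Polynomial.X, act_X, act_X, ih, hT]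

lemma act_map (σ : FF W k →ₐ[k] FF W k) (p : ℤ[X]) (P : EF ℓ W k) :
    Point.map (W' := W.toAffine) σ (act ℓ W k p P)
      = act ℓ W k p (Point.map (W' := W.toAffine) σ P) :=
  act_comm _ (fun P => (frobPt_map ℓ W σ P).symm) p P

lemma act_mem_oddPts (p : ℤ[X]) {P : EF ℓ W k} (hP : P ∈ oddPts W k) :
    act ℓ W k p P ∈ oddPts W k := by
  rw [mem_oddPts] at hP ⊢
  rw [act_map, hP, map_neg]

lemma frobPt_mem_oddPts {P : EF ℓ W k} (hP : P ∈ oddPts W k) :
    frobPt ℓ W (FF W k) P ∈ oddPts W k := by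
  rw [← act_X]; exact act_mem_oddPts _ hP

lemma hgt_frobPt {P : EF ℓ W k} (hP : XRat W (jF W k) P) :
    hgt W (jF W k) (frobPt ℓ W (FF W k) P) = ℓ * hgt W (jF W k) P :=
  hP.hgt_map_pow (frobAlgHom ℓ (FF W k)) ℓ (fun r => by rw [frobAlgHom_apply, map_pow])

end frob

/-! ### The degree form -/

section degform

variable {ℓ : ℕ} [Fact ℓ.Prime] {W : WeierstrassCurve (ZMod ℓ)} {k : Type*} [Field k]
  [Algebra (ZMod ℓ) k]

lemma transcendental_jF {s : RatFunc k} (hs : ¬ ∃ c, s = RatFunc.C c) :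
    Transcendental k (jF W k s) := by
  have := transcendental_of_algHom ((jF W k).comp (compHom s hs))
  rwa [AlgHom.comp_apply, compHom_X] at this

/-- Substitution of a point with non-constant `x`-coordinate `s ∈ k(x)` for the generic point. -/
lemma exists_pull (hΔ : (W.baseChange k).Δ ≠ 0) {Q : EF ℓ W k} {s : RatFunc k}
    (hQ : HasX W (jF W k) Q s) (hs : ¬ ∃ c, s = RatFunc.C c) :
    ∃ σ : FF W k →ₐ[k] FF W k, Point.map (W' := W.toAffine) σ (gpt W k) = Q ∧
      ∀ r, σ (jF W k r) = jF W k (compHom s hs r) := by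
  obtain ⟨y, h, rfl⟩ := hQ
  have htr : Transcendental k (jF W k s) := transcendental_jF hs
  refine ⟨pull W k (jF W k s) y htr h.1, map_pull_gpt hΔ _ _ _ h, fun r => ?_⟩
  rw [pull_jF]
  have : ratLift k (jF W k s) htr = (jF W k).comp (compHom s hs) :=
    ratFunc_algHom_ext (by rw [ratLift_X, AlgHom.comp_apply, compHom_X])
  rw [this, AlgHom.comp_apply]

lemma act_gpt_mem (hΔ : (W.baseChange k).Δ ≠ 0) (p : ℤ[X]) :
    act ℓ W k p (gpt W k) ∈ oddPts W k :=
  act_mem_oddPts p (gpt_mem_oddPts hΔ)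

/-- `hgt (α Q) = hgt (α g) * hgt Q` for a non-constant odd point `Q`. -/
lemma hgt_act_of_hasX (hΔ : (W.baseChange k).Δ ≠ 0) {Q : EF ℓ W k} {s : RatFunc k}
    (hQ : HasX W (jF W k) Q s) (hs : ¬ ∃ c, s = RatFunc.C c) (p : ℤ[X]) :
    hgt W (jF W k) (act ℓ W k p Q) = hgt W (jF W k) (act ℓ W k p (gpt W k)) * rdeg s := by
  obtain ⟨σ, hσ, hσj⟩ := exists_pull hΔ hQ hs
  rw [← hσ, ← act_map]
  exact (xRat_of_mem_oddPts hΔ (act_gpt_mem hΔ p)).hgt_map_comp σ s hs hσj

lemma hasX_of_hgt_ne_zero (hΔ : (W.baseChange k).Δ ≠ 0) {Q : EF ℓ W k} (hQ : Q ∈ oddPts W k)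
    (h : hgt W (jF W k) Q ≠ 0) :
    ∃ s : RatFunc k, HasX W (jF W k) Q s ∧ ¬ ∃ c, s = RatFunc.C c := by
  rcases xRat_of_mem_oddPts hΔ hQ with rfl | ⟨s, hs⟩
  · exact absurd hgt_zero h
  · refine ⟨s, hs, fun hc => h ?_⟩
    rw [hs.hgt_eq, rdeg_eq_zero_iff]
    exact hc

/-- A point of `ℤ[Φ] g` of height `0` is zero. -/
theorem act_gpt_eq_zero (hΔ : (W.baseChange k).Δ ≠ 0) (p : ℤ[X])
    (h0 : hgt W (jF W k) (act ℓ W k p (gpt W k)) = 0) : act ℓ W k p (gpt W k) = 0 := by
  set T := act ℓ W k p (gpt W k) with hT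
  have hTo : T ∈ oddPts W k := act_gpt_mem hΔ p
  by_contra hne
  have hTx := xRat_of_mem_oddPts hΔ hTo
  rcases (hTx.hgt_eq_zero_iff).mp h0 with h | ⟨c, hc⟩
  · exact hne h
  -- the key step: `n • T` has the same `x`-coordinate as `T`
  have key : ∀ n : ℤ, n ≠ 0 → (n • T = T ∨ n • T = -T) := by
    intro n hn
    have hno : n • gpt W k ∈ oddPts W k := zsmul_mem (gpt_mem_oddPts hΔ) n
    have hnh : hgt W (jF W k) (n • gpt W k) ≠ 0 := by
      have := hgt_zsmul hΔ (gpt_mem_oddPts hΔ) n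
      rw [hgt_gpt W k hΔ] at this
      intro h
      rw [h] at this
      simp at this
      exact hn ((pow_eq_zero_iff (by norm_num)).mp this.symm)
    obtain ⟨s, hs, hsc⟩ := hasX_of_hgt_ne_zero hΔ hno hnh
    obtain ⟨σ, hσ, hσj⟩ := exists_pull hΔ hs hsc
    have e1 : Point.map (W' := W.toAffine) σ T = n • T := by
      rw [hT, act_map, hσ, map_zsmul]
    have e2 : HasX W (jF W k) (Point.map (W' := W.toAffine) σ T) (RatFunc.C c) := by
      apply hc.map σ
      rw [hσj, ← RatFunc.algebraMap_eq_C, AlgHom.commutes]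
    rw [e1] at e2
    obtain ⟨y, h, e⟩ := hc
    obtain ⟨y', h', e'⟩ := e2
    rw [e', e]
    exact (Point.X_eq_iff (h₁ := h') (h₂ := h)).mp rfl
  have h2 := key 2 (by norm_num)
  have h3 := key 3 (by norm_num)
  have e2 : (2 : ℤ) • T = T + T := two_zsmul T
  have e3 : (3 : ℤ) • T = T + T + T := by
    rw [show (3 : ℤ) = 2 + 1 by norm_num, add_zsmul, two_zsmul, one_zsmul]
  rw [e2] at h2
  rw [e3] at h3
  apply hne
  rcases h2 with h2 | h2
  · exact add_eq_left.mp h2 |>.symm ▸ rfl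
  · have h3' : T + T + T = 0 := by rw [h2]; exact neg_add_cancel T
    rw [h3'] at h3
    rcases h3 with h3 | h3
    · exact h3.symm
    · exact neg_eq_zero.mp h3.symm

/-- Multiplicativity of the degree. -/
theorem hgt_act_mul (hΔ : (W.baseChange k).Δ ≠ 0) (p q : ℤ[X]) :
    hgt W (jF W k) (act ℓ W k (p * q) (gpt W k))
      = hgt W (jF W k) (act ℓ W k p (gpt W k)) * hgt W (jF W k) (act ℓ W k q (gpt W k)) := by
  rw [act_mul]
  by_cases h0 : hgt W (jF W k) (act ℓ W k q (gpt W k)) = 0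
  · rw [h0, act_gpt_eq_zero hΔ q h0, map_zero, hgt_zero, mul_zero]
  · obtain ⟨s, hs, hsc⟩ := hasX_of_hgt_ne_zero hΔ (act_gpt_mem hΔ q) h0
    rw [hgt_act_of_hasX hΔ hs hsc, hs.hgt_eq]


variable (ℓ W k)

/-- The annihilator of the generic point in `ℤ[X]`. -/
noncomputable def annG : Ideal ℤ[X] where
  carrier := {p | act ℓ W k p (gpt W k) = 0}
  add_mem' := fun {a b} ha hb => by
    have ha' : act ℓ W k a (gpt W k) = 0 := ha
    have hb' : act ℓ W k b (gpt W k) = 0 := hb
    show act ℓ W k (a + b) (gpt W k) = 0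
    rw [act_add, ha', hb', add_zero]
  zero_mem' := by
    show act ℓ W k 0 (gpt W k) = 0
    rw [act, map_zero, LinearMap.zero_apply]
  smul_mem' := fun c x hx => by
    have hx' : act ℓ W k x (gpt W k) = 0 := hx
    show act ℓ W k (c • x) (gpt W k) = 0
    rw [smul_eq_mul, act_mul, hx', map_zero]

variable {ℓ W k}

lemma mem_annG {p : ℤ[X]} : p ∈ annG ℓ W k ↔ act ℓ W k p (gpt W k) = 0 := Iff.rfl

variable (ℓ W k)

/-- The ring `ℤ[Φ]` acting faithfully on the generic point. -/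
abbrev RG : Type := ℤ[X] ⧸ annG ℓ W k

/-- The degree form on `ℤ[Φ]`. -/
noncomputable def degG (a : RG ℓ W k) : ℤ :=
  hgt W (jF W k) (act ℓ W k (Quotient.out a) (gpt W k))

variable {ℓ W k}

lemma degG_mk (p : ℤ[X]) :
    degG ℓ W k (Ideal.Quotient.mk (annG ℓ W k) p) = hgt W (jF W k) (act ℓ W k p (gpt W k)) := by
  have h1 : Ideal.Quotient.mk (annG ℓ W k) (Quotient.out (Ideal.Quotient.mk (annG ℓ W k) p))
      = Ideal.Quotient.mk (annG ℓ W k) p := Ideal.Quotient.mk_out _
  rw [Ideal.Quotient.eq, mem_annG, act_sub, sub_eq_zero] at h1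
  rw [degG, h1]

theorem isDegForm_degG (hΔ : (W.baseChange k).Δ ≠ 0) : H46.IsDegForm (degG ℓ W k) where
  mul := by
    intro a b
    obtain ⟨p, rfl⟩ := Ideal.Quotient.mk_surjective a
    obtain ⟨q, rfl⟩ := Ideal.Quotient.mk_surjective b
    rw [← map_mul, degG_mk, degG_mk, degG_mk, hgt_act_mul hΔ]
    push_cast
    rfl
  para := by
    intro a b
    obtain ⟨p, rfl⟩ := Ideal.Quotient.mk_surjective a
    obtain ⟨q, rfl⟩ := Ideal.Quotient.mk_surjective b
    rw [← map_add, ← map_sub, degG_mk, degG_mk, degG_mk, degG_mk, act_add, act_sub]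
    exact_mod_cast hgt_para_oddPts hΔ (act_gpt_mem hΔ p) (act_gpt_mem hΔ q)
  one := by
    rw [← map_one (Ideal.Quotient.mk (annG ℓ W k)), degG_mk, act_one, hgt_gpt W k hΔ]
    rfl
  eq_zero := by
    intro a ha
    obtain ⟨p, rfl⟩ := Ideal.Quotient.mk_surjective a
    rw [degG_mk] at ha
    rw [Ideal.Quotient.eq_zero_iff_mem, mem_annG]
    exact act_gpt_eq_zero hΔ p (by exact_mod_cast ha)

/-- **T-gen** in `E(FF W k)`: the quadratic relation for the generic point and the degree form on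
`ℤ g + ℤ Φ g`. -/
theorem tgen_FF (hΔ : (W.baseChange k).Δ ≠ 0) :
    ∃ t : ℤ,
      frobPt ℓ W (FF W k) (frobPt ℓ W (FF W k) (gpt W k))
          - t • frobPt ℓ W (FF W k) (gpt W k) + (ℓ : ℤ) • gpt W k = 0 ∧
      ∀ m n : ℤ, (m • gpt W k + n • frobPt ℓ W (FF W k) (gpt W k)) ∈ oddPts W k ∧
        (hgt W (jF W k) (m • gpt W k + n • frobPt ℓ W (FF W k) (gpt W k)) : ℤ)
          = m ^ 2 + t * m * n + ℓ * n ^ 2 := by
  have H := isDegForm_degG (ℓ := ℓ) (W := W) (k := k) hΔ
  set a : RG ℓ W k := Ideal.Quotient.mk (annG ℓ W k) Polynomial.X with ha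
  have hda : degG ℓ W k a = ℓ := by
    rw [ha, degG_mk, act_X, hgt_frobPt (xRat_of_mem_oddPts hΔ (gpt_mem_oddPts hΔ)),
      hgt_gpt W k hΔ, mul_one]
  refine ⟨H46.trDeg (degG ℓ W k) a, ?_, fun m n => ⟨?_, ?_⟩⟩
  · have hq := H.quadratic a
    have e : a ^ 2 - ((H46.trDeg (degG ℓ W k) a : ℤ) : RG ℓ W k) * a
        + ((degG ℓ W k a : ℤ) : RG ℓ W k)
        = Ideal.Quotient.mk (annG ℓ W k)
          (Polynomial.X ^ 2 - Polynomial.C (H46.trDeg (degG ℓ W k) a) * Polynomial.X
            + Polynomial.C (degG ℓ W k a)) := by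
      simp only [map_add, map_sub, map_mul, map_pow, ha, eq_intCast Polynomial.C, map_intCast]
    rw [e, Ideal.Quotient.eq_zero_iff_mem, mem_annG, act_add, act_sub, pow_two, act_mul, act_mul,
      act_X, act_X, act_C, act_C, hda] at hq
    exact hq
  · exact add_mem (zsmul_mem (gpt_mem_oddPts hΔ) m)
      (zsmul_mem (frobPt_mem_oddPts (gpt_mem_oddPts hΔ)) n)
  · have hl := H.deg_lin a n m
    have e : ((n : ℤ) : RG ℓ W k) * a + ((m : ℤ) : RG ℓ W k)
        = Ideal.Quotient.mk (annG ℓ W k)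
          (Polynomial.C n * Polynomial.X + Polynomial.C m) := by
      simp only [map_add, map_mul, ha, eq_intCast Polynomial.C, map_intCast]
    rw [e, degG_mk, act_add, act_mul, act_X, act_C, act_C, hda] at hl
    rw [add_comm, hl]
    ring

end degform

end Fermat.Agent.Lib.EllFinite.H80
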