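/-
Item 62 (Lib/EllFinite), helper80, package GEN part 4: the bridge from `FF W k` (AdjoinRoot over
`k(x)`) to helper7's `KE W k` (Mathlib `FunctionField`), and the proof of `Stmt_TGEN`.
-/
import Fermat.Agent.Lib.EllFinite.H80_Generic
import Fermat.Agent.Lib.EllFinite.Stmts

set_option autoImplicit false
set_option linter.unusedSectionVars false

namespace Fermat.Agent.Lib.EllFinite.H80

open WeierstrassCurve WeierstrassCurve.Affine
open scoped Polynomial

section bridge

variable {R : Type*} [CommRing R] (W : WeierstrassCurve R) (k : Type*) [Field k] [Algebra R k]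

lemma ratEmb_algebraMap (p : k[X]) :
    ratEmb W k (algebraMap k[X] (RatFunc k) p) = algebraMap k[X] (KE W k) p := by
  rw [ratEmb, RatFunc.liftAlgHom_apply, RatFunc.num_algebraMap, RatFunc.denom_algebraMap, map_one,
    div_one]
  rfl

lemma ratEmb_X : ratEmb W k RatFunc.X = gx W k := by
  rw [← RatFunc.algebraMap_X, ratEmb_algebraMap, gx]

lemma ratEmb_comp :
    ((ratEmb W k : RatFunc k →ₐ[k] KE W k) : RatFunc k →+* KE W k).comp
        (algebraMap k[X] (RatFunc k))
      = (algebraMap (W.baseChange k).toAffine.CoordinateRing (KE W k)).comp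
          (AdjoinRoot.of (W.baseChange k).toAffine.polynomial) := by
  ext p
  · simp only [RingHom.comp_apply, AlgHom.coe_toRingHom]
    rw [ratEmb_algebraMap]
    rfl
  · simp only [RingHom.comp_apply, AlgHom.coe_toRingHom]
    rw [ratEmb_algebraMap]
    rfl

/-- The bridge `FF W k → KE W k`. -/
noncomputable def bridge : FF W k →ₐ[k] KE W k :=
  AdjoinRoot.liftAlgHom (wpoly W k) (ratEmb W k) (gy W k) (by
    rw [wpoly, Polynomial.eval₂_map]
    have h := AdjoinRoot.eval₂_root (W.baseChange k).toAffine.polynomial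
    have h2 := congrArg (algebraMap (W.baseChange k).toAffine.CoordinateRing (KE W k)) h
    rw [Polynomial.hom_eval₂, map_zero] at h2
    rw [show ((ratEmb W k : RatFunc k →ₐ[k] KE W k) : RatFunc k →+* KE W k).comp
        (algebraMap k[X] (RatFunc k)) = _ from ratEmb_comp W k]
    exact h2)

@[simp] lemma bridge_jF (r : RatFunc k) : bridge W k (jF W k r) = ratEmb W k r := by
  rw [bridge, jF_apply, AdjoinRoot.liftAlgHom_of]

@[simp] lemma bridge_fx : bridge W k (fx W k) = gx W k := by
  rw [fx, bridge_jF, ratEmb_X]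

@[simp] lemma bridge_fy : bridge W k (fy W k) = gy W k := by
  rw [bridge, fy, AdjoinRoot.liftAlgHom_root]

lemma nonsingular_gx_gy (hΔ : (W.baseChange k).Δ ≠ 0) :
    (W.toAffine⁄(KE W k)).Nonsingular (gx W k) (gy W k) := by
  have h := (W.toAffine.baseChange_nonsingular (bridge W k).injective (fx W k) (fy W k)).mpr
    (nonsingular_gen W k hΔ)
  rwa [bridge_fx, bridge_fy] at h

lemma gen_eq (hΔ : (W.baseChange k).Δ ≠ 0) :
    gen W k = .some (gx W k) (gy W k) (nonsingular_gx_gy W k hΔ) := by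
  rw [gen, dif_pos]

lemma map_bridge_gpt (hΔ : (W.baseChange k).Δ ≠ 0) :
    Point.map (W' := W.toAffine) (bridge W k) (gpt W k) = gen W k := by
  rw [gpt_eq W k hΔ, gen_eq W k hΔ, Point.map_some, Point.some.injEq]
  exact ⟨bridge_fx W k, bridge_fy W k⟩

lemma ratEmb_injective : Function.Injective (ratEmb W k) := RingHom.injective (ratEmb W k).toRingHom

variable {W k}

lemma ht_some {r : RatFunc k} {y : KE W k}
    (h : (W.toAffine⁄(KE W k)).Nonsingular (ratEmb W k r) y) :
    ht W k (.some (ratEmb W k r) y h) = rdeg r := by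
  have hex : ∃ r' : RatFunc k, ratEmb W k r' = ratEmb W k r := ⟨r, rfl⟩
  unfold ht
  simp only
  rw [dif_pos hex]
  rw [ratEmb_injective W k hex.choose_spec]

lemma ht_map_bridge {P : (W.toAffine⁄(FF W k)).Point} (hP : XRat W (jF W k) P) :
    ht W k (Point.map (W' := W.toAffine) (bridge W k) P) = hgt W (jF W k) P := by
  rcases hP with rfl | ⟨r, y, h, rfl⟩
  · rw [hgt_zero]; rfl
  · have hr : HasX W (jF W k) (Point.some (jF W k r) y h) r := ⟨y, h, rfl⟩
    rw [hr.hgt_eq, Point.map_some]
    have e : ∀ (x' : KE W k) (hx : x' = ratEmb W k r) (y' : KE W k)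
        (h' : (W.toAffine⁄(KE W k)).Nonsingular x' y'), ht W k (.some x' y' h') = rdeg r := by
      intro x' hx y' h'
      subst hx
      exact ht_some h'
    exact e _ (bridge_jF W k r) _ _

lemma isOdd_map_bridge (hΔ : (W.baseChange k).Δ ≠ 0) {P : (W.toAffine⁄(FF W k)).Point}
    (hP : P ∈ oddPts W k) : IsOdd W k (Point.map (W' := W.toAffine) (bridge W k) P) := by
  rcases P with _ | ⟨x, y, h⟩
  · exact trivial
  · obtain ⟨r, u, v, hx, hy, huv⟩ := coords_of_mem_oddPts hΔ hP
    rw [Point.map_some]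
    refine ⟨r, u, v, ?_, ?_, huv⟩
    · rw [hx, bridge_jF]
    · rw [hy, map_add, map_mul, bridge_jF, bridge_jF, bridge_fy]

end bridge

/-- **Stmt_TGEN** (helper7's interface). -/
theorem stmt_TGEN : Stmt_TGEN := by
  intro ℓ _ W hΔ k _ _
  have hΔ' : (W.baseChange k).Δ ≠ 0 := by
    rw [WeierstrassCurve.baseChange, WeierstrassCurve.map_Δ]
    exact fun h => hΔ ((map_eq_zero _).mp h)
  obtain ⟨t, h1, h2⟩ := tgen_FF (ℓ := ℓ) (W := W) (k := k) hΔ'
  have hg := map_bridge_gpt W k hΔ'
  have hΦ : ∀ P : (W.toAffine⁄(FF W k)).Point,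
      frobPt ℓ W (KE W k) (Point.map (W' := W.toAffine) (bridge W k) P)
        = Point.map (W' := W.toAffine) (bridge W k) (frobPt ℓ W (FF W k) P) :=
    fun P => frobPt_map ℓ W (bridge W k) P
  refine ⟨t, ?_, fun m n => ?_⟩
  · have := congrArg (Point.map (W' := W.toAffine) (bridge W k)) h1
    rw [map_add, map_sub, map_zsmul, map_zsmul, ← hΦ, ← hΦ, hg, map_zero] at this
    exact this
  · obtain ⟨ho, hh⟩ := h2 m n
    have e : m • gen W k + n • frobPt ℓ W (KE W k) (gen W k)
        = Point.map (W' := W.toAffine) (bridge W k)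
            (m • gpt W k + n • frobPt ℓ W (FF W k) (gpt W k)) := by
      rw [map_add, map_zsmul, map_zsmul, ← hΦ, hg]
    rw [e]
    refine ⟨isOdd_map_bridge hΔ' ho, ?_⟩
    rw [ht_map_bridge (xRat_of_mem_oddPts hΔ' ho)]
    exact hh

end Fermat.Agent.Lib.EllFinite.H80
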