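/-
Item 62 (Lib/EllFinite), helper80, route B: points with coordinates algebraic over `k`
form a subgroup of `E(L)`; a point outside has transcendental `x`-coordinate.
-/
import Fermat.Agent.Lib.EllFinite.H80_Field
import Mathlib.FieldTheory.AlgebraicClosure

set_option autoImplicit false
set_option linter.unusedSectionVars false

namespace Fermat.Agent.Lib.EllFinite.H80

open WeierstrassCurve WeierstrassCurve.Affine
open scoped Polynomial

section algpts

variable {R : Type*} [CommRing R] (W : WeierstrassCurve R) (k : Type*) [Field k] [Algebra R k]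
  (L : Type*) [Field L] [DecidableEq L] [Algebra R L] [Algebra k L] [IsScalarTower R k L]

noncomputable instance instDecEqAlgClosure : DecidableEq ↥(algebraicClosure k L) :=
  Classical.decEq _

/-- The subgroup of points with coordinates algebraic over `k`. -/
noncomputable def algPts : AddSubgroup (W.toAffine⁄L).Point :=
  (Point.map (W' := W.toAffine) (algebraicClosure k L).val).range

variable {W k L}

omit [DecidableEq L] in
/-- If `x` is algebraic over `k` and `(x, y)` is on the curve, then `y` is algebraic over `k`. -/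
lemma isAlgebraic_y {x y : L} (h : (W.toAffine⁄L).Equation x y) (hx : IsAlgebraic k x) :
    IsAlgebraic k y := by
  rw [← mem_algebraicClosure_iff] at hx ⊢
  set K' := algebraicClosure k L with hK'
  rw [mem_algebraicClosure_iff']
  rw [Affine.equation_iff] at h
  have hcoef : ∀ a : R, algebraMap R L a ∈ K' := by
    intro a
    rw [IsScalarTower.algebraMap_apply R k L]
    exact K'.algebraMap_mem _
  have hb : (W.toAffine⁄L).a₁ * x + (W.toAffine⁄L).a₃ ∈ K' :=
    K'.add_mem (K'.mul_mem (hcoef _) hx) (hcoef _)
  have hc : x ^ 3 + (W.toAffine⁄L).a₂ * x ^ 2 + (W.toAffine⁄L).a₄ * x + (W.toAffine⁄L).a₆ ∈ K' :=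
    K'.add_mem (K'.add_mem (K'.add_mem (pow_mem hx 3) (K'.mul_mem (hcoef _) (pow_mem hx 2)))
      (K'.mul_mem (hcoef _) hx)) (hcoef _)
  have hint : IsIntegral K' y := by
    refine ⟨Polynomial.X ^ 2 + Polynomial.C ⟨_, hb⟩ * Polynomial.X - Polynomial.C ⟨_, hc⟩, ?_, ?_⟩
    · have e : (Polynomial.X ^ 2 + Polynomial.C (⟨_, hb⟩ : K') * Polynomial.X
          - Polynomial.C (⟨_, hc⟩ : K') : K'[X])
          = Polynomial.X ^ 2 + (Polynomial.C (⟨_, hb⟩ : K') * Polynomial.X
            + Polynomial.C (-(⟨_, hc⟩ : K'))) := by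
        rw [map_neg]; ring
      rw [e]
      apply Polynomial.monic_X_pow_add
      exact lt_of_le_of_lt (Polynomial.degree_linear_le) (by norm_num)
    · simp only [Polynomial.eval₂_sub, Polynomial.eval₂_add, Polynomial.eval₂_mul,
        Polynomial.eval₂_pow, Polynomial.eval₂_X, Polynomial.eval₂_C,
        IntermediateField.algebraMap_apply]
      linear_combination h
  exact isIntegral_trans y hint

lemma some_mem_algPts {x y : L} {h : (W.toAffine⁄L).Nonsingular x y} :
    Point.some x y h ∈ algPts W k L ↔ IsAlgebraic k x := by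
  constructor
  · rintro ⟨P, hP⟩
    rcases P with _ | ⟨x', y', h'⟩
    · exact absurd hP.symm (Point.some_ne_zero h)
    · rw [Point.map_some, Point.some.injEq] at hP
      rw [← hP.1, ← mem_algebraicClosure_iff]
      exact x'.2
  · intro hx
    have hy := isAlgebraic_y h.1 hx
    rw [← mem_algebraicClosure_iff] at hx hy
    have h' : (W.toAffine⁄↥(algebraicClosure k L)).Nonsingular ⟨x, hx⟩ ⟨y, hy⟩ :=
      (W.toAffine.baseChange_nonsingular (algebraicClosure k L).val.injective _ _).mp h
    exact ⟨.some _ _ h', rfl⟩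

lemma transcendental_of_not_mem_algPts {P : (W.toAffine⁄L).Point} (hP : P ∉ algPts W k L) :
    ∃ (x y : L) (h : (W.toAffine⁄L).Nonsingular x y), P = .some x y h ∧ Transcendental k x := by
  rcases P with _ | ⟨x, y, h⟩
  · exact absurd (zero_mem _) hP
  · exact ⟨x, y, h, rfl, fun hx => hP (some_mem_algPts.mpr hx)⟩

variable [DecidableEq k]

/-- Points defined over `k` are algebraic. -/
lemma map_ofId_mem_algPts (P : (W.toAffine⁄k).Point) :
    Point.map (W' := W.toAffine) (Algebra.ofId k L) P ∈ algPts W k L := by
  rcases P with _ | ⟨x, y, h⟩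
  · exact zero_mem _
  · rw [Point.map_some, some_mem_algPts]
    exact isAlgebraic_algebraMap x

end algpts

end Fermat.Agent.Lib.EllFinite.H80
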