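/-
Item 62 (Lib/EllFinite), helper80, route B: `Stmt_SPEC_rel` by GENERIC TRANSLATION
(no valuation rings): for `P ∈ E(k)` the point `P + g` is again a generic point, so a relation
at `g` gives the same relation at `P + g`, hence at `P`.
-/
import Fermat.Agent.Lib.EllFinite.H80_Bridge
import Fermat.Agent.Lib.EllFinite.H80_AlgPts

set_option autoImplicit false
set_option linter.unusedSectionVars false

namespace Fermat.Agent.Lib.EllFinite.H80

open WeierstrassCurve WeierstrassCurve.Affine
open scoped Polynomial

section translate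

variable {R : Type*} [CommRing R] {W : WeierstrassCurve R} {k : Type*} [Field k] [Algebra R k]

lemma gpt_not_mem_algPts (hΔ : (W.baseChange k).Δ ≠ 0) : gpt W k ∉ algPts W k (FF W k) := by
  rw [gpt_eq W k hΔ, some_mem_algPts]
  exact transcendental_fx W k

variable [DecidableEq k]

/-- **Generic translation**: for `P ∈ E(k)` there is a `k`-endomorphism of the function field
sending the generic point `g` to `P + g`. -/
theorem exists_translate (hΔ : (W.baseChange k).Δ ≠ 0) (P : (W.toAffine⁄k).Point) :
    ∃ σ : FF W k →ₐ[k] FF W k, Point.map (W' := W.toAffine) σ (gpt W k)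
      = Point.map (W' := W.toAffine) (Algebra.ofId k (FF W k)) P + gpt W k := by
  have hQ : Point.map (W' := W.toAffine) (Algebra.ofId k (FF W k)) P + gpt W k
      ∉ algPts W k (FF W k) := by
    intro h
    apply gpt_not_mem_algPts (W := W) (k := k) hΔ
    have := sub_mem h (map_ofId_mem_algPts (L := FF W k) P)
    rwa [add_sub_cancel_left] at this
  obtain ⟨x, y, h, e, hx⟩ := transcendental_of_not_mem_algPts hQ
  exact ⟨pull W k x y hx h.1, by rw [e]; exact map_pull_gpt hΔ x y hx h⟩

end translate

/-- **Stmt_SPEC_rel** (helper7's interface), by generic translation. -/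
theorem stmt_SPEC_rel : Stmt_SPEC_rel := by
  intro ℓ _ W hΔ k _ _ _ a b c hrel P
  have hΔ' : (W.baseChange k).Δ ≠ 0 := by
    rw [WeierstrassCurve.baseChange, WeierstrassCurve.map_Δ]
    exact fun h => hΔ ((map_eq_zero _).mp h)
  -- the relation in `E(FF)`
  have hrelF : a • gpt W k + b • frobPt ℓ W (FF W k) (gpt W k)
      + c • frobPt ℓ W (FF W k) (frobPt ℓ W (FF W k) (gpt W k)) = 0 := by
    apply Point.map_injective (W' := W.toAffine) (bridge W k)
    rw [map_add, map_add, map_zsmul, map_zsmul, map_zsmul, ← frobPt_map, ← frobPt_map,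
      ← frobPt_map, map_bridge_gpt W k hΔ', map_zero]
    exact hrel
  obtain ⟨σ, hσ⟩ := exists_translate hΔ' P
  set PF := Point.map (W' := W.toAffine) (Algebra.ofId k (FF W k)) P with hPF
  have h1 := congrArg (Point.map (W' := W.toAffine) σ) hrelF
  rw [map_add, map_add, map_zsmul, map_zsmul, map_zsmul, ← frobPt_map, ← frobPt_map,
    ← frobPt_map, hσ, map_zero] at h1
  simp only [map_add] at h1
  have h2 : a • PF + b • frobPt ℓ W (FF W k) PF
      + c • frobPt ℓ W (FF W k) (frobPt ℓ W (FF W k) PF) = 0 := by
    have e : a • (PF + gpt W k) + b • (frobPt ℓ W (FF W k) PF + frobPt ℓ W (FF W k) (gpt W k))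
        + c • (frobPt ℓ W (FF W k) (frobPt ℓ W (FF W k) PF)
          + frobPt ℓ W (FF W k) (frobPt ℓ W (FF W k) (gpt W k)))
        = (a • PF + b • frobPt ℓ W (FF W k) PF
          + c • frobPt ℓ W (FF W k) (frobPt ℓ W (FF W k) PF))
          + (a • gpt W k + b • frobPt ℓ W (FF W k) (gpt W k)
          + c • frobPt ℓ W (FF W k) (frobPt ℓ W (FF W k) (gpt W k))) := by
      simp only [smul_add]; abel
    rw [e, hrelF, add_zero] at h1
    exact h1
  apply Point.map_injective (W' := W.toAffine) (Algebra.ofId k (FF W k))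
  rw [map_add, map_add, map_zsmul, map_zsmul, map_zsmul, ← frobPt_map, ← frobPt_map,
    ← frobPt_map, map_zero]
  exact h2

end Fermat.Agent.Lib.EllFinite.H80
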