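/-
Item 62 / cluster E, helper46: `E[p](K)` is a 2-dimensional `𝔽_p`-vector space, for an elliptic
curve over an algebraically closed field `K` with `p ≠ 0` in `K`; stated for the module structure of
the prelude (`WeierstrassCurve.Affine.Point.instModuleZModTorsionBy`).
-/
import Fermat.Agent.Lib.TorsionGen.Count
import Fermat.Prelude.Def_FLTPrelim_GaloisRep
import Mathlib.LinearAlgebra.Dimension.Finite
import Mathlib.FieldTheory.Finiteness
import Mathlib.LinearAlgebra.FiniteDimensional.Basic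
import Mathlib.Algebra.Field.ZMod

set_option autoImplicit false

namespace Fermat.Agent.Lib.EllFinite.H46

open WeierstrassCurve WeierstrassCurve.Affine

variable {R : Type*} {K : Type*} [CommRing R] [Field K] [DecidableEq K] [IsAlgClosed K]
  [Algebra R K]

/-- `#E[n](K) = n²`. -/
theorem natCard_torsionBy (W' : Affine R) (hΔ : (W'⁄K).Δ ≠ 0) {n : ℕ} (hn : (n : K) ≠ 0) :
    Nat.card (Submodule.torsionBy ℤ (W'⁄K).Point n) = n ^ 2 :=
  Fermat.Agent.Lib.TorsionGen.card_torsionBy_eq (W := (W'⁄K)) hΔ hn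

/-- `E[n](K)` is finite. -/
theorem finite_torsionBy (W' : Affine R) (hΔ : (W'⁄K).Δ ≠ 0) {n : ℕ} (hn : (n : K) ≠ 0) :
    Finite (Submodule.torsionBy ℤ (W'⁄K).Point n) := by
  apply Nat.finite_of_card_ne_zero
  rw [natCard_torsionBy W' hΔ hn]
  have : n ≠ 0 := by rintro rfl; simp at hn
  positivity

/-- `dim_{𝔽_p} E[p](K) = 2`. -/
theorem finrank_torsionBy (W' : Affine R) (hΔ : (W'⁄K).Δ ≠ 0) {p : ℕ} [Fact p.Prime]
    (hp : (p : K) ≠ 0) :
    Module.finrank (ZMod p) (Submodule.torsionBy ℤ (W'⁄K).Point p) = 2 := by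
  have := finite_torsionBy W' hΔ hp
  have : Module.Finite (ZMod p) (Submodule.torsionBy ℤ (W'⁄K).Point p) := Module.Finite.of_finite
  have h1 := Module.natCard_eq_pow_finrank (K := ZMod p)
    (V := Submodule.torsionBy ℤ (W'⁄K).Point p)
  rw [natCard_torsionBy W' hΔ hp, Nat.card_zmod] at h1
  exact (Nat.pow_right_injective (Fact.out : p.Prime).two_le h1).symm

omit [DecidableEq K] [IsAlgClosed K] in
lemma baseChange_Δ_ne_zero (W' : Affine R) (hinj : Function.Injective (algebraMap R K))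
    (hΔ : W'.Δ ≠ 0) : (W'⁄K).Δ ≠ 0 := by
  have h : (W'⁄K).Δ = algebraMap R K W'.Δ := WeierstrassCurve.map_Δ W' (algebraMap R K)
  rw [h]
  exact fun h0 => hΔ (hinj (by rw [h0, map_zero]))

/-- `dim_{𝔽_p} E[p](ℚ̄) = 2` for an elliptic curve over `ℚ`. -/
theorem finrank_torsionBy_rat (E : WeierstrassCurve ℚ) (hΔ : E.Δ ≠ 0) (p : ℕ) [Fact p.Prime] :
    Module.finrank (ZMod p)
      (Submodule.torsionBy ℤ (E⁄(AlgebraicClosure ℚ)).Point p) = 2 :=
  finrank_torsionBy E (baseChange_Δ_ne_zero E (algebraMap ℚ (AlgebraicClosure ℚ)).injective hΔ)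
    (by exact_mod_cast (Fact.out : p.Prime).ne_zero)

/-- `#E[n](ℚ̄) = n²` for an elliptic curve over `ℚ`. -/
theorem natCard_torsionBy_rat (E : WeierstrassCurve ℚ) (hΔ : E.Δ ≠ 0) {n : ℕ} (hn : n ≠ 0) :
    Nat.card (Submodule.torsionBy ℤ (E⁄(AlgebraicClosure ℚ)).Point n) = n ^ 2 :=
  natCard_torsionBy E (baseChange_Δ_ne_zero E (algebraMap ℚ (AlgebraicClosure ℚ)).injective hΔ)
    (by exact_mod_cast hn)

/-- `dim_{𝔽_p} E[p](ℚ̄) = 2` for an integral model. -/
theorem finrank_torsionBy_int (W : WeierstrassCurve ℤ) (hΔ : W.Δ ≠ 0) (p : ℕ) [Fact p.Prime] :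
    Module.finrank (ZMod p)
      (Submodule.torsionBy ℤ ((W.map (Int.castRingHom ℚ))⁄(AlgebraicClosure ℚ)).Point p) = 2 := by
  apply finrank_torsionBy_rat
  rw [WeierstrassCurve.map_Δ]
  simpa using hΔ

end Fermat.Agent.Lib.EllFinite.H46
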