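/-
Item 62 (Lib/EllFinite), helper46: pure arithmetic for the scalar case.
If `p² ∣ c'² - a c' + l` for every integer lift `c'` of `c : ZMod p` which is prime to `l`, then
`2 c = a` and `c² = l` in `ZMod p`.
-/
import Mathlib.Data.ZMod.Basic
import Mathlib.Data.Nat.Prime.Basic
import Mathlib.Data.Nat.Prime.Int
import Mathlib.Data.Int.GCD
import Mathlib.Tactic.LinearCombination
import Mathlib.Tactic.Ring
import Mathlib.Tactic.Linarith

set_option autoImplicit false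

namespace Fermat.Agent.Lib.EllFinite.H46

/-- Two lifts `c'`, `c' + p u` of `c`, both prime to `l`, with `p ∤ u`. -/
lemma exists_two_lifts {p l : ℕ} (hp : p.Prime) (hl : l.Prime) (hpl : p ≠ l) (c₀ : ℤ) :
    ∃ c' u : ℤ, (c' : ZMod p) = (c₀ : ZMod p) ∧ ¬ (l : ℤ) ∣ c' ∧ ¬ (l : ℤ) ∣ c' + p * u ∧
      ¬ (p : ℤ) ∣ u := by
  have hlp : ¬ (l : ℤ) ∣ (p : ℤ) := by
    intro h
    have := (Nat.prime_dvd_prime_iff_eq hl hp).mp (Int.natCast_dvd_natCast.mp h)
    exact hpl this.symm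
  have hlP : Prime (l : ℤ) := Nat.prime_iff_prime_int.mp hl
  have hpP : Prime (p : ℤ) := Nat.prime_iff_prime_int.mp hp
  have cast_eq : ∀ k : ℤ, ((c₀ + p * k : ℤ) : ZMod p) = (c₀ : ZMod p) := by
    intro k; push_cast; simp
  -- if `l ∣ c₀ + p k₁` and `l ∣ c₀ + p k₂` then `l ∣ k₁ - k₂`
  have key : ∀ k₁ k₂ : ℤ, (l : ℤ) ∣ c₀ + p * k₁ → (l : ℤ) ∣ c₀ + p * k₂ → (l : ℤ) ∣ k₁ - k₂ := by
    intro k₁ k₂ h1 h2
    have : (l : ℤ) ∣ (p : ℤ) * (k₁ - k₂) := by
      have := dvd_sub h1 h2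
      have e : c₀ + p * k₁ - (c₀ + p * k₂) = (p : ℤ) * (k₁ - k₂) := by ring
      rwa [e] at this
    exact (hlP.dvd_or_dvd this).resolve_left hlp
  rcases Nat.lt_or_ge l 3 with hl3 | hl3
  · -- `l = 2`, `p` odd: use `u = 2`
    have hl2 : l = 2 := by have := hl.two_le; omega
    have hp2 : ¬ (p : ℤ) ∣ 2 := by
      intro h
      have h' : p ∣ 2 := by exact_mod_cast h
      have := (Nat.prime_dvd_prime_iff_eq hp Nat.prime_two).mp h'
      exact hpl (by rw [this, hl2])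
    by_cases h0 : (l : ℤ) ∣ c₀ + p * 0
    · -- then `k = 1, 3` are good
      have h1 : ¬ (l : ℤ) ∣ c₀ + p * 1 := by
        intro h
        have := key 1 0 h h0
        rw [hl2] at this
        norm_num at this
      have h3 : ¬ (l : ℤ) ∣ c₀ + p * 3 := by
        intro h
        have := key 3 0 h h0
        rw [hl2] at this
        norm_num at this
      refine ⟨c₀ + p * 1, 2, cast_eq 1, h1, ?_, hp2⟩
      have e : c₀ + p * 1 + p * 2 = c₀ + (p : ℤ) * 3 := by ring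
      rw [e]; exact h3
    · have h2 : ¬ (l : ℤ) ∣ c₀ + p * 2 := by
        intro h
        apply h0
        have e : c₀ + (p : ℤ) * 0 = c₀ + p * 2 - (l : ℤ) * p := by rw [hl2]; push_cast; ring
        rw [e]
        exact dvd_sub h (dvd_mul_right _ _)
      refine ⟨c₀ + p * 0, 2, cast_eq 0, h0, ?_, hp2⟩
      have e : c₀ + p * 0 + p * 2 = c₀ + (p : ℤ) * 2 := by ring
      rw [e]; exact h2
  · -- `l ≥ 3`: use `u = 1`
    have hp1 : ¬ (p : ℤ) ∣ 1 := by
      intro h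
      have := Int.eq_one_of_dvd_one (by positivity) h
      have := hp.one_lt
      omega
    have hl1 : ¬ (l : ℤ) ∣ 1 := by
      intro h
      have := Int.eq_one_of_dvd_one (by positivity) h
      omega
    have hl2 : ¬ (l : ℤ) ∣ 2 := by
      intro h
      have := Int.le_of_dvd (by norm_num) h
      omega
    by_cases h0 : (l : ℤ) ∣ c₀ + p * 0
    · have h1 : ¬ (l : ℤ) ∣ c₀ + p * 1 := fun h => hl1 (by simpa using key 1 0 h h0)
      have h2 : ¬ (l : ℤ) ∣ c₀ + p * 2 := fun h => hl2 (by simpa using key 2 0 h h0)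
      refine ⟨c₀ + p * 1, 1, cast_eq 1, h1, ?_, hp1⟩
      have e : c₀ + p * 1 + p * 1 = c₀ + (p : ℤ) * 2 := by ring
      rw [e]; exact h2
    · by_cases h1 : (l : ℤ) ∣ c₀ + p * 1
      · have hm : ¬ (l : ℤ) ∣ c₀ + p * (-1) := by
          intro h
          have := key 1 (-1) h1 h
          norm_num at this
          exact hl2 this
        refine ⟨c₀ + p * (-1), 1, cast_eq (-1), hm, ?_, hp1⟩
        have e : c₀ + p * (-1) + p * 1 = c₀ + (p : ℤ) * 0 := by ring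
        rw [e]; exact h0
      · refine ⟨c₀ + p * 0, 1, cast_eq 0, h0, ?_, hp1⟩
        have e : c₀ + p * 0 + p * 1 = c₀ + (p : ℤ) * 1 := by ring
        rw [e]; exact h1

/-- The scalar case: `2 c = a` and `c² = l` in `ZMod p`. -/
theorem scalar_case {p l : ℕ} (hp : p.Prime) (hl : l.Prime) (hpl : p ≠ l) (a : ℤ) (c : ZMod p)
    (h : ∀ c' : ℤ, (c' : ZMod p) = c → ¬ (l : ℤ) ∣ c' → (p : ℤ) ^ 2 ∣ c' ^ 2 - a * c' + l) :
    2 * c = (a : ZMod p) ∧ c ^ 2 = (l : ZMod p) := by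
  have : Fact p.Prime := ⟨hp⟩
  obtain ⟨c₀, hc₀⟩ : ∃ c₀ : ℤ, (c₀ : ZMod p) = c := ⟨c.val, by simp⟩
  obtain ⟨c', u, hc', h1, h2, hu⟩ := exists_two_lifts hp hl hpl c₀
  have hpP : Prime (p : ℤ) := Nat.prime_iff_prime_int.mp hp
  have d1 := h c' (hc'.trans hc₀) h1
  have d2 := h (c' + p * u) (by push_cast; simp [hc', hc₀]) h2
  -- difference
  have d3 : (p : ℤ) ^ 2 ∣ (p : ℤ) * (u * (2 * c' + p * u - a)) := by
    have := dvd_sub d2 d1
    have e : (c' + p * u) ^ 2 - a * (c' + p * u) + l - (c' ^ 2 - a * c' + l) =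
        (p : ℤ) * (u * (2 * c' + p * u - a)) := by ring
    rwa [e] at this
  have hp0 : (p : ℤ) ≠ 0 := by exact_mod_cast hp.ne_zero
  have d4 : (p : ℤ) ∣ u * (2 * c' + p * u - a) := by
    rw [pow_two] at d3
    exact (mul_dvd_mul_iff_left hp0).mp d3
  have d5 : (p : ℤ) ∣ 2 * c' + p * u - a := (hpP.dvd_or_dvd d4).resolve_left hu
  have d6 : (p : ℤ) ∣ 2 * c' - a := by
    have e : 2 * c' - a = (2 * c' + p * u - a) - (p : ℤ) * u := by ring
    rw [e]
    exact dvd_sub d5 (dvd_mul_right _ _)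
  have e1 : 2 * c = (a : ZMod p) := by
    have := (ZMod.intCast_zmod_eq_zero_iff_dvd (2 * c' - a) p).mpr d6
    push_cast at this
    rw [hc', hc₀] at this
    exact sub_eq_zero.mp this
  refine ⟨e1, ?_⟩
  have d7 : (p : ℤ) ∣ c' ^ 2 - a * c' + l := dvd_trans (dvd_pow_self _ (by norm_num)) d1
  have := (ZMod.intCast_zmod_eq_zero_iff_dvd (c' ^ 2 - a * c' + l) p).mpr d7
  push_cast at this
  rw [hc', hc₀, ← e1] at this
  linear_combination -this

end Fermat.Agent.Lib.EllFinite.H46
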