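/-
Item 62 (Lib/EllFinite), helper46: pure linear algebra.
An endomorphism `f` of a 2-dimensional vector space with `f² - a f + l = 0` has trace `a` and
determinant `l`, provided this is known in the scalar case.
-/
import Mathlib.LinearAlgebra.Trace
import Mathlib.LinearAlgebra.Determinant
import Mathlib.LinearAlgebra.Dimension.Free
import Mathlib.LinearAlgebra.FreeModule.Finite.Basic
import Mathlib.LinearAlgebra.Matrix.ToLin
import Mathlib.Tactic.FinCases
import Mathlib.Tactic.LinearCombination
import Mathlib.Tactic.FieldSimp

set_option autoImplicit false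

namespace Fermat.Agent.Lib.EllFinite.H46

open Matrix

variable {F : Type*} [Field F]

/-- Cayley–Hamilton for `2 × 2` matrices. -/
lemma cayley_hamilton_two (M : Matrix (Fin 2) (Fin 2) F) :
    M * M - M.trace • M + M.det • (1 : Matrix (Fin 2) (Fin 2) F) = 0 := by
  ext i j
  fin_cases i <;> fin_cases j <;>
    simp [Matrix.mul_apply, Fin.sum_univ_two, Matrix.trace, Matrix.det_fin_two] <;> ring

/-- Matrix form. -/
theorem matrix_trace_det_of_quadratic (M : Matrix (Fin 2) (Fin 2) F) (a l : F)
    (h : M * M - a • M + l • (1 : Matrix (Fin 2) (Fin 2) F) = 0)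
    (hscalar : ∀ c : F, M = c • (1 : Matrix (Fin 2) (Fin 2) F) → 2 * c = a ∧ c ^ 2 = l) :
    M.trace = a ∧ M.det = l := by
  have hCH := cayley_hamilton_two M
  have key : (a - M.trace) • M = (l - M.det) • (1 : Matrix (Fin 2) (Fin 2) F) := by
    have : (a - M.trace) • M - (l - M.det) • (1 : Matrix (Fin 2) (Fin 2) F) =
        (M * M - M.trace • M + M.det • (1 : Matrix (Fin 2) (Fin 2) F)) -
          (M * M - a • M + l • (1 : Matrix (Fin 2) (Fin 2) F)) := by
      simp only [sub_smul]; abel
    rw [hCH, h, sub_zero] at this
    exact sub_eq_zero.mp this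
  by_cases hat : a = M.trace
  · refine ⟨hat.symm, ?_⟩
    rw [hat, sub_self, zero_smul] at key
    have := congrFun (congrFun key 0) 0
    simp at this
    exact (sub_eq_zero.mp this.symm).symm
  · exfalso
    have hne : a - M.trace ≠ 0 := sub_ne_zero.mpr hat
    obtain ⟨c, hc⟩ : ∃ c : F, c = (a - M.trace)⁻¹ * (l - M.det) := ⟨_, rfl⟩
    have hM : M = c • (1 : Matrix (Fin 2) (Fin 2) F) := by
      have := congrArg (fun N => (a - M.trace)⁻¹ • N) key
      simp only [smul_smul, inv_mul_cancel₀ hne, one_smul] at this
      rw [hc]
      exact this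
    obtain ⟨h1, -⟩ := hscalar c hM
    apply hat
    rw [← h1]
    have ht : M.trace = 2 * c := by
      rw [hM]
      simp [Matrix.trace]
    exact ht.symm

variable {V : Type*} [AddCommGroup V] [Module F V]

/-- An endomorphism `f` of a 2-dimensional space with `f² - a f + l = 0` has trace `a` and
determinant `l`, provided this holds when `f` is a scalar. -/
theorem trace_det_of_quadratic (hV : Module.finrank F V = 2) (f : Module.End F V) (a l : F)
    (h : f * f - a • f + l • (1 : Module.End F V) = 0)
    (hscalar : ∀ c : F, f = c • (1 : Module.End F V) → 2 * c = a ∧ c ^ 2 = l) :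
    LinearMap.trace F V f = a ∧ LinearMap.det f = l := by
  have : Module.Finite F V := Module.finite_of_finrank_pos (by rw [hV]; norm_num)
  let b : Module.Basis (Fin 2) F V := Module.finBasisOfFinrankEq F V hV
  set M := LinearMap.toMatrix b b f with hM
  have htr : LinearMap.trace F V f = M.trace := LinearMap.trace_eq_matrix_trace F b f
  have hdet : LinearMap.det f = M.det := (LinearMap.det_toMatrix b f).symm
  rw [htr, hdet]
  apply matrix_trace_det_of_quadratic M a l
  · have := congrArg (LinearMap.toMatrix b b) h
    simpa [LinearMap.toMatrix_mul, hM, Module.End.mul_eq_comp, LinearMap.toMatrix_comp b b b,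
      Module.End.one_eq_id, LinearMap.toMatrix_id] using this
  · intro c hc
    apply hscalar c
    apply (LinearMap.toMatrix b b).injective
    rw [← hM, hc]
    simp [Module.End.one_eq_id]

end Fermat.Agent.Lib.EllFinite.H46
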