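/-
Item 62, assembly FIN (helper7): `Stmt_FINCORE` ⇒ `Stmt_FIN` (linear algebra on `E[p](k)`).
`Stmt_FINCORE` is the common target of the two routes (SPEC+FIB+CNT, or generic points).
-/
import Fermat.Agent.Lib.EllFinite.Stmts
import Fermat.Agent.Lib.EllFinite.H46_Finrank
import Fermat.Agent.Lib.EllFinite.H46_TraceDet
import Fermat.Agent.Lib.EllFinite.H46_ScalarArith

set_option autoImplicit false

namespace Fermat.Agent.Lib.EllFinite

open WeierstrassCurve WeierstrassCurve.Affine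

/-- (FINCORE) Over an algebraically closed `k ⊇ ZMod ℓ`: an integer `t` with `φ² - tφ + ℓ = 0` on
`E(k)`, `1 - t + ℓ = #E(ZMod ℓ)`, and `p² ∣ c'² - t c' + ℓ` whenever `φ = c'` on `E[p](k)`. -/
def Stmt_FINCORE : Prop :=
  ∀ (ℓ : ℕ) [Fact ℓ.Prime] (W : WeierstrassCurve (ZMod ℓ)), W.Δ ≠ 0 →
  ∀ (k : Type) [Field k] [IsAlgClosed k] [DecidableEq k] [Algebra (ZMod ℓ) k],
    ∃ t : ℤ,
      (∀ P : (W.toAffine⁄k).Point,
        frobPt ℓ W k (frobPt ℓ W k P) - t • frobPt ℓ W k P + (ℓ : ℤ) • P = 0) ∧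
      (1 - t + (ℓ : ℤ) = (W.card : ℤ)) ∧
      ∀ (p : ℕ) [Fact p.Prime], p ≠ ℓ → ∀ c' : ℤ,
        (∀ P : (W.toAffine⁄k).Point, (p : ℤ) • P = 0 → frobPt ℓ W k P = c' • P) →
        (p : ℤ) ^ 2 ∣ c' ^ 2 - t * c' + ℓ

namespace H7

theorem fin_of_fincore (hcore : Stmt_FINCORE) : Stmt_FIN := by
  intro ℓ p _ _ hpℓ W hΔ k _ _ _ _
  obtain ⟨t, hrel, hcard, hsc⟩ := hcore ℓ W hΔ k
  have hℓ : ℓ.Prime := Fact.out
  have hp : p.Prime := Fact.out
  have : CharP k ℓ := (Algebra.charP_iff (ZMod ℓ) k ℓ).mp inferInstance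
  have hpk : ((p : ℕ) : k) ≠ 0 := by
    intro h
    have := (CharP.cast_eq_zero_iff k ℓ p).mp h
    exact hpℓ ((Nat.prime_dvd_prime_iff_eq hℓ hp).mp this).symm
  have hΔk : (W.toAffine⁄k).Δ ≠ 0 :=
    H46.baseChange_Δ_ne_zero W.toAffine (algebraMap (ZMod ℓ) k).injective hΔ
  have hV := H46.finrank_torsionBy (K := k) W.toAffine hΔk hpk
  set f := torsEnd p (frobPt ℓ W k) with hf
  have hquad : f * f - (t : ZMod p) • f + ((ℓ : ℤ) : ZMod p) • (1 : Module.End (ZMod p) _) = 0 := by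
    ext x
    simp only [LinearMap.sub_apply, LinearMap.add_apply, Module.End.mul_apply, LinearMap.smul_apply,
      Module.End.one_apply, LinearMap.zero_apply]
    rw [Int.cast_smul_eq_zsmul, Int.cast_smul_eq_zsmul]
    simp only [Submodule.coe_add, Submodule.coe_sub, Submodule.coe_smul, torsEnd_apply_coe, hf,
      Submodule.coe_zero]
    exact hrel x
  have hscalar : ∀ c : ZMod p, f = c • (1 : Module.End (ZMod p) _) →
      2 * c = (t : ZMod p) ∧ c ^ 2 = ((ℓ : ℤ) : ZMod p) := by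
    intro c hc
    have := H46.scalar_case hp hℓ hpℓ t c (fun c' hc' _ => by
      apply hsc p hpℓ c'
      intro P hP
      have hmem : P ∈ Submodule.torsionBy ℤ (W.toAffine⁄k).Point p := by
        rw [Submodule.mem_torsionBy_iff]; exact_mod_cast hP
      have h1 : f ⟨P, hmem⟩ = c • (⟨P, hmem⟩ : Submodule.torsionBy ℤ (W.toAffine⁄k).Point p) := by
        rw [hc]; rfl
      have h2 := congrArg Subtype.val h1
      rw [← hc', Int.cast_smul_eq_zsmul] at h2
      simpa [hf] using h2)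
    simpa using this
  obtain ⟨htr, hdet⟩ := H46.trace_det_of_quadratic hV f (t : ZMod p) ((ℓ : ℤ) : ZMod p) hquad hscalar
  refine ⟨?_, ?_⟩
  · rw [htr]
    congr 1
    linarith
  · rw [hdet]; simp

end H7

end Fermat.Agent.Lib.EllFinite
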