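/-
Item 62 (helper7): basic facts on the generic point of `Defs.lean`
(`ratEmb`, `gx`, `gy`, `gen`, `ht`), needed by SEP / CNT / FIN.
-/
import Fermat.Agent.Lib.EllFinite.Stmts

set_option autoImplicit false

namespace Fermat.Agent.Lib.EllFinite.H7

open WeierstrassCurve WeierstrassCurve.Affine
open scoped Polynomial

section

variable {R : Type*} [CommRing R] (W : WeierstrassCurve R) (k : Type*) [Field k] [Algebra R k]

theorem ratEmb_injective : Function.Injective (ratEmb W k) := (ratEmb W k).toRingHom.injective

set_option backward.isDefEq.respectTransparency.types false in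
theorem ratEmb_algebraMap (p : k[X]) :
    ratEmb W k (algebraMap k[X] (RatFunc k) p) = algebraMap k[X] (KE W k) p := by
  have h := RatFunc.liftAlgHom_apply_div (S := k) (L := KE W k)
    (φ := IsScalarTower.toAlgHom k k[X] (KE W k)) (hφ := by
      intro p hp
      simp only [Submonoid.mem_comap, mem_nonZeroDivisors_iff_ne_zero] at hp ⊢
      intro h
      apply hp
      apply algebraMap_poly_injective W k
      simpa using h) p 1
  simp only [map_one, div_one] at h
  exact h

theorem ratEmb_X : ratEmb W k RatFunc.X = gx W k := by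
  rw [← RatFunc.algebraMap_X, ratEmb_algebraMap]; rfl

theorem ratEmb_C (c : k) : ratEmb W k (RatFunc.C c) = algebraMap k (KE W k) c := by
  rw [← RatFunc.algebraMap_C, ratEmb_algebraMap, ← Polynomial.algebraMap_eq,
    ← IsScalarTower.algebraMap_apply]

theorem ratEmb_C_algebraMap (a : R) :
    ratEmb W k (RatFunc.C (algebraMap R k a)) = algebraMap R (KE W k) a := by
  rw [ratEmb_C]; rfl

theorem ht_some (r : RatFunc k) (y : KE W k)
    (h : (W.toAffine⁄(KE W k)).Nonsingular (ratEmb W k r) y) :
    ht W k (Point.some (ratEmb W k r) y h) = H80.rdeg r := by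
  unfold ht
  have hex : ∃ r' : RatFunc k, ratEmb W k r' = ratEmb W k r := ⟨r, rfl⟩
  simp only [hex, dite_true]
  congr 1
  exact ratEmb_injective W k hex.choose_spec

theorem ht_zero : ht W k 0 = 0 := rfl

theorem algebraMap_mk_C (p : k[X]) :
    algebraMap (W.baseChange k).toAffine.CoordinateRing (KE W k)
      (CoordinateRing.mk (W.baseChange k).toAffine (Polynomial.C p))
      = algebraMap k[X] (KE W k) p := by
  rw [IsScalarTower.algebraMap_apply k[X] (W.baseChange k).toAffine.CoordinateRing (KE W k)]
  rfl

theorem gen_equation : (W.toAffine⁄(KE W k)).Equation (gx W k) (gy W k) := by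
  have h0 : CoordinateRing.mk (W.baseChange k).toAffine (W.baseChange k).toAffine.polynomial = 0 :=
    AdjoinRoot.mk_self
  have h1 := congrArg (algebraMap (W.baseChange k).toAffine.CoordinateRing (KE W k)) h0
  rw [map_zero] at h1
  rw [Affine.equation_iff']
  rw [← h1]
  simp only [Affine.polynomial, map_sub, map_add, map_mul, map_pow, gx, gy, algebraMap_mk_C]
  have e : ∀ a : R, algebraMap k[X] (KE W k) (Polynomial.C (algebraMap R k a))
      = algebraMap R (KE W k) a := fun a => rfl
  simp only [WeierstrassCurve.baseChange, WeierstrassCurve.map_a₁, WeierstrassCurve.map_a₂,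
    WeierstrassCurve.map_a₃, WeierstrassCurve.map_a₄, WeierstrassCurve.map_a₆, e]
  ring

theorem gen_nonsingular (hΔ : (W.toAffine⁄(KE W k)).Δ ≠ 0) :
    (W.toAffine⁄(KE W k)).Nonsingular (gx W k) (gy W k) := by
  have : (W.toAffine⁄(KE W k)).IsElliptic := ⟨isUnit_iff_ne_zero.mpr hΔ⟩
  exact (Affine.equation_iff_nonsingular).mp (gen_equation W k)

theorem gen_eq (hΔ : (W.toAffine⁄(KE W k)).Δ ≠ 0) :
    gen W k = Point.some (gx W k) (gy W k) (gen_nonsingular W k hΔ) := by
  unfold gen
  rw [dif_pos (gen_nonsingular W k hΔ)]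

theorem algebraMap_KE_injective [Nontrivial R] (hinj : Function.Injective (algebraMap R k)) :
    Function.Injective (algebraMap R (KE W k)) := by
  intro a b hab
  apply hinj
  apply (algebraMap k (KE W k)).injective
  exact hab

theorem Δ_KE_ne_zero (hinj : Function.Injective (algebraMap R k)) (hΔ : W.Δ ≠ 0) :
    (W.toAffine⁄(KE W k)).Δ ≠ 0 := by
  have h : (W.toAffine⁄(KE W k)).Δ = algebraMap R (KE W k) W.Δ :=
    WeierstrassCurve.map_Δ W (algebraMap R (KE W k))
  rw [h]
  intro h0
  apply hΔ
  apply hinj
  apply (algebraMap k (KE W k)).injective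
  rw [map_zero, map_zero]
  exact h0

end

end Fermat.Agent.Lib.EllFinite.H7
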