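/-
Item 62, package SEP (helper7): separability of `φ - 1`, polynomial core.

`S(u,v,t)` = the totally symmetric biquadratic form (`H11.symF`), homogenised in `t = n/d`:
`Sh u v n d = d² S(u, v, n/d)`.  Key identity (`4 b₈ = b₂ b₆ - b₄²`):
  `(∂_v Sh)² = 4 (u d - n)² Sh + Ψ(u) Ψh(n,d) d`.
If `w = n/d ∈ k(x)` (char `ℓ`) satisfies `S(x^ℓ, x, w) = 0` and `n' d - n d' = 0`, then `n' = d' = 0`,
so differentiating gives `(∂_v Sh)(x^ℓ, x, n, d) = 0`, hence `Ψ(x^ℓ) Ψh(n,d) d = 0`: impossible if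
`Ψ ≠ 0` and `Ψ(w) ≠ 0`.
-/
import Mathlib.Algebra.Polynomial.Derivative
import Mathlib.Algebra.Polynomial.Expand
import Mathlib.Algebra.CharP.Lemmas
import Mathlib.RingTheory.Polynomial.Content
import Mathlib.RingTheory.Coprime.Lemmas
import Mathlib.Tactic.LinearCombination
import Mathlib.Tactic.Ring

set_option autoImplicit false

namespace Fermat.Agent.Lib.EllFinite.H7

open Polynomial

section forms

variable {A : Type*} [CommRing A]

/-- `d² S(u, v, n/d)` for the symmetric biquadratic form `S`. -/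
def Sh (b₂ b₄ b₆ b₈ u v n d : A) : A :=
  u ^ 2 * v ^ 2 * d ^ 2 + u ^ 2 * n ^ 2 + v ^ 2 * n ^ 2 - 2 * u * v * ((u + v) * n * d + n ^ 2)
    - b₂ * u * v * n * d - b₄ * (u * v * d ^ 2 + u * n * d + v * n * d)
    - b₆ * (u * d ^ 2 + v * d ^ 2 + n * d) - b₈ * d ^ 2

/-- The partial derivative of `Sh` in `v`. -/
def Shv (b₂ b₄ b₆ u v n d : A) : A :=
  2 * u ^ 2 * v * d ^ 2 + 2 * v * n ^ 2 - 2 * u * ((u + v) * n * d + n ^ 2) - 2 * u * v * n * d
    - b₂ * u * n * d - b₄ * (u * d ^ 2 + n * d) - b₆ * d ^ 2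

/-- `Ψ₂Sq(x) = 4x³ + b₂x² + 2b₄x + b₆`. -/
def Psi (b₂ b₄ b₆ x : A) : A := 4 * x ^ 3 + b₂ * x ^ 2 + 2 * b₄ * x + b₆

/-- `d³ Ψ₂Sq(n/d)`. -/
def Psih (b₂ b₄ b₆ n d : A) : A := 4 * n ^ 3 + b₂ * n ^ 2 * d + 2 * b₄ * n * d ^ 2 + b₆ * d ^ 3

/-- The discriminant identity. -/
theorem Shv_sq (b₂ b₄ b₆ b₈ u v n d : A) (hrel : 4 * b₈ = b₂ * b₆ - b₄ ^ 2) :
    Shv b₂ b₄ b₆ u v n d ^ 2 =
      4 * (u * d - n) ^ 2 * Sh b₂ b₄ b₆ b₈ u v n d + Psi b₂ b₄ b₆ u * Psih b₂ b₄ b₆ n d * d := by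
  unfold Shv Sh Psi Psih
  linear_combination (u * d - n) ^ 2 * d ^ 2 * hrel

end forms

variable {k : Type*} [Field k]

/-- If `n' d = n d'` with `n, d` coprime, then `d' = 0` and `n' = 0`. -/
theorem derivative_eq_zero_of_wronskian {n d : k[X]} (hcop : IsCoprime n d) (hd : d ≠ 0)
    (hW : derivative n * d - n * derivative d = 0) : derivative n = 0 ∧ derivative d = 0 := by
  have h1 : d ∣ n * derivative d := ⟨derivative n, by linear_combination -hW⟩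
  have h2 : d ∣ derivative d := hcop.symm.dvd_of_dvd_mul_left h1
  have h3 : derivative d = 0 :=
    Polynomial.eq_zero_of_dvd_of_degree_lt h2 (Polynomial.degree_derivative_lt hd)
  refine ⟨?_, h3⟩
  rw [h3, mul_zero, sub_zero] at hW
  exact (mul_eq_zero.mp hW).resolve_right hd

/-- (SEP, polynomial core). -/
theorem sep_core (ℓ : ℕ) [Fact ℓ.Prime] [CharP k ℓ] (b₂ b₄ b₆ b₈ : k)
    (hrel : 4 * b₈ = b₂ * b₆ - b₄ ^ 2) (n d : k[X]) (hcop : IsCoprime n d) (hd : d ≠ 0)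
    (hS : Sh (C b₂) (C b₄) (C b₆) (C b₈) (X ^ ℓ) X n d = 0)
    (hΨ : Psi (C b₂) (C b₄) (C b₆) (X : k[X]) ≠ 0)
    (hw : Psih (C b₂) (C b₄) (C b₆) n d ≠ 0) :
    derivative n * d - n * derivative d ≠ 0 := by
  intro hW
  obtain ⟨hn', hd'⟩ := derivative_eq_zero_of_wronskian hcop hd hW
  have hℓ0 : ((ℓ : ℕ) : k[X]) = 0 := by
    have : ((ℓ : ℕ) : k) = 0 := CharP.cast_eq_zero k ℓ
    rw [← Polynomial.C_eq_natCast, this, C_0]
  -- differentiate `hS`
  have hder : derivative (Sh (C b₂) (C b₄) (C b₆) (C b₈) (X ^ ℓ) X n d)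
      = Shv (C b₂) (C b₄) (C b₆) (X ^ ℓ) X n d := by
    have hXℓ : derivative ((X : k[X]) ^ ℓ) = 0 := by
      rw [derivative_X_pow, CharP.cast_eq_zero k ℓ, C_0, zero_mul]
    unfold Sh Shv
    simp only [derivative_sub, derivative_add, derivative_mul, hXℓ, derivative_X,
      derivative_C, hn', hd', derivative_ofNat, pow_two, mul_zero, zero_mul, add_zero, zero_add,
      sub_zero, mul_one]
    ring
  have hSv : Shv (C b₂) (C b₄) (C b₆) (X ^ ℓ) X n d = 0 := by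
    rw [← hder, hS, derivative_zero]
  have hrel' : (4 : k[X]) * C b₈ = C b₂ * C b₆ - C b₄ ^ 2 := by
    have := congrArg (C : k → k[X]) hrel
    have h4 : (C (4 : k) : k[X]) = 4 := rfl
    rw [C_mul, h4, C_sub, C_mul, C_pow] at this
    exact this
  have key := Shv_sq (C b₂) (C b₄) (C b₆) (C b₈) (X ^ ℓ) X n d hrel'
  rw [hSv, hS] at key
  have hprod : Psi (C b₂) (C b₄) (C b₆) ((X : k[X]) ^ ℓ) * Psih (C b₂) (C b₄) (C b₆) n d * d = 0 := by
    linear_combination -key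
  have hΨℓ : Psi (C b₂) (C b₄) (C b₆) ((X : k[X]) ^ ℓ) ≠ 0 := by
    have hexp : Psi (C b₂) (C b₄) (C b₆) ((X : k[X]) ^ ℓ)
        = expand k ℓ (Psi (C b₂) (C b₄) (C b₆) (X : k[X])) := by
      unfold Psi
      simp only [map_add, map_mul, map_pow, expand_X, expand_C, map_ofNat]
    rw [hexp]
    intro h
    exact hΨ ((Polynomial.expand_eq_zero (Fact.out : ℓ.Prime).pos).mp h)
  rcases mul_eq_zero.mp hprod with h | h
  · rcases mul_eq_zero.mp h with h | h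
    · exact hΨℓ h
    · exact hw h
  · exact hd h

end Fermat.Agent.Lib.EllFinite.H7
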