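/-
Item 62, package SEP (helper7): `Stmt_TGEN → Stmt_SEP`.
The `x`-coordinate `r` of `gen - Φ gen` satisfies `S(x, x^ℓ, r) = 0`; `gen - Φ gen` is not
2-torsion (Hasse bound + `ht (2Q) = 4 ht Q`); conclude by `H7.sep_core`.
-/
import Fermat.Agent.Lib.EllFinite.H7_Gen
import Fermat.Agent.Lib.EllFinite.H7_Sep
import Fermat.Agent.Lib.Torsion.H11_XOnly

set_option autoImplicit false

namespace Fermat.Agent.Lib.EllFinite.H7

open WeierstrassCurve WeierstrassCurve.Affine Polynomial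
open Fermat.Agent.Lib.Torsion

/-- Hasse bound (weak form) from the nonnegativity of the degree form. -/
theorem hasse_pos (ℓ : ℕ) (hℓ : 2 ≤ ℓ) (t : ℤ)
    (h : ∀ m n : ℤ, 0 ≤ m ^ 2 + t * m * n + ℓ * n ^ 2) : 0 < 1 - t + (ℓ : ℤ) := by
  have h1 := h (-t) 2
  have h2 : (2 : ℤ) ≤ ℓ := by exact_mod_cast hℓ
  by_contra hcon
  push Not at hcon
  nlinarith [mul_self_nonneg ((ℓ : ℤ) - 1), mul_self_nonneg (t - 1 - ℓ)]

/-- The form is positive definite: it vanishes only at `(0, 0)`. -/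
theorem form_pos (ℓ : ℕ) (hℓ : ℓ.Prime) (t : ℤ)
    (h : ∀ m n : ℤ, 0 ≤ m ^ 2 + t * m * n + ℓ * n ^ 2) (m n : ℤ) (hmn : m ≠ 0 ∨ n ≠ 0) :
    0 < m ^ 2 + t * m * n + ℓ * n ^ 2 := by
  rcases (h m n).lt_or_eq with h0 | h0
  · exact h0
  exfalso
  -- `t² ≤ 4ℓ`
  have h1 := h (-t) 2
  have hn : n ≠ 0 := by
    rintro rfl
    simp only [ne_eq, not_true_eq_false, or_false] at hmn
    have : m ^ 2 = 0 := by linarith
    exact hmn (pow_eq_zero_iff (two_ne_zero) |>.mp this)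
  -- `(2m + t n)² = (t² - 4ℓ) n²`
  have h2 : (2 * m + t * n) ^ 2 = (t ^ 2 - 4 * ℓ) * n ^ 2 := by linear_combination -4 * h0
  have h3 : t ^ 2 - 4 * (ℓ : ℤ) = 0 := by
    have hn2 : 0 < n ^ 2 := by positivity
    have : 0 ≤ (t ^ 2 - 4 * (ℓ : ℤ)) * n ^ 2 := by rw [← h2]; positivity
    have h4 : 0 ≤ t ^ 2 - 4 * (ℓ : ℤ) := by
      by_contra hc
      push Not at hc
      nlinarith
    nlinarith
  -- `4ℓ = t²` is impossible for a prime `ℓ`
  have h5 : (ℓ : ℤ) ∣ t ^ 2 := ⟨4, by linarith⟩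
  have hP : Prime (ℓ : ℤ) := Nat.prime_iff_prime_int.mp hℓ
  obtain ⟨s, rfl⟩ := hP.dvd_of_dvd_pow h5
  have h6 : (ℓ : ℤ) * s ^ 2 = 4 := by
    have hℓ0 : (ℓ : ℤ) ≠ 0 := hP.ne_zero
    apply mul_left_cancel₀ hℓ0
    linear_combination h3
  have h7 : (ℓ : ℤ) ∣ 4 := ⟨s ^ 2, h6.symm⟩
  have h8 : ℓ ∣ 4 := by exact_mod_cast h7
  have h9 : ℓ = 2 := by
    have : ℓ ∣ 2 ^ 2 := by simpa using h8
    exact (Nat.prime_dvd_prime_iff_eq hℓ Nat.prime_two).mp (hℓ.dvd_of_dvd_pow this)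
  subst h9
  have h10 : s ^ 2 = 2 := by push_cast at h6; linarith
  have h11 : s ^ 2 ≤ 2 := h10.le
  have hs : |s| ≤ 1 := by
    by_contra hc
    push Not at hc
    have : 2 ≤ |s| := hc
    have : 4 ≤ |s| ^ 2 := by nlinarith
    rw [sq_abs] at this
    linarith
  have : s ^ 2 ≤ 1 := by
    have := abs_le.mp hs
    nlinarith
  linarith

section

variable {F : Type*} [Field F]

/-- `d² S(X^ℓ, X, n/d)` in `k(x)`. -/
theorem Sh_eq_symF (b₂ b₄ b₆ b₈ u v n d : F) (hd : d ≠ 0) :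
    Sh b₂ b₄ b₆ b₈ u v n d = d ^ 2 *
      ((v ^ 2 * u ^ 2 + v ^ 2 * (n / d) ^ 2 + u ^ 2 * (n / d) ^ 2)
        - 2 * v * u * (n / d) * (v + u + n / d)
        - b₂ * v * u * (n / d) - b₄ * (v * u + v * (n / d) + u * (n / d))
        - b₆ * (v + u + n / d) - b₈) := by
  unfold Sh
  field_simp
  ring

theorem Psih_eq (b₂ b₄ b₆ n d : F) (hd : d ≠ 0) :
    Psih b₂ b₄ b₆ n d = d ^ 3 * Psi b₂ b₄ b₆ (n / d) := by
  unfold Psih Psi
  field_simp

end

/-- `Ψ₂Sq ≠ 0` as a polynomial when `Δ ≠ 0`. -/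
theorem Psi_X_ne_zero {k : Type*} [Field k] (b₂ b₄ b₆ b₈ : k)
    (hΔ : -b₂ ^ 2 * b₈ - 8 * b₄ ^ 3 - 27 * b₆ ^ 2 + 9 * b₂ * b₄ * b₆ ≠ 0) :
    Psi (C b₂) (C b₄) (C b₆) (X : k[X]) ≠ 0 := by
  intro h
  apply hΔ
  unfold Psi at h
  have c3 := congrArg (fun p : k[X] => p.coeff 3) h
  have c2 := congrArg (fun p : k[X] => p.coeff 2) h
  have c0 := congrArg (fun p : k[X] => p.coeff 0) h
  have e4 : (4 : k[X]) = C (4 : k) := rfl
  have e2 : (2 : k[X]) = C (2 : k) := rfl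
  simp only [e4, e2, coeff_add, coeff_C_mul, coeff_X_pow, coeff_C, coeff_zero] at c3 c2 c0
  norm_num at c3 c2 c0
  have h8 : (8 : k) = 0 := by linear_combination 2 * c3
  rw [c2, c0, h8]
  ring

theorem sep_of_tgen (hT : Stmt_TGEN) : Stmt_SEP := by
  intro ℓ _ W hΔ k _ _ r y h hQ
  obtain ⟨t, -, hform⟩ := hT ℓ W hΔ k
  have hℓ : ℓ.Prime := Fact.out
  have hchar : CharP k ℓ := (Algebra.charP_iff (ZMod ℓ) k ℓ).mp inferInstance
  have hinj : Function.Injective (algebraMap (ZMod ℓ) k) := (algebraMap (ZMod ℓ) k).injective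
  have hΔK : (W.toAffine⁄(KE W k)).Δ ≠ 0 := Δ_KE_ne_zero W k hinj hΔ
  have hgen := gen_eq W k hΔK
  have hnn : ∀ m n : ℤ, 0 ≤ m ^ 2 + t * m * n + ℓ * n ^ 2 := fun m n => by
    rw [← (hform m n).2]; exact Int.natCast_nonneg _
  have hpos : 0 < 1 - t + (ℓ : ℤ) := hasse_pos ℓ hℓ.two_le t hnn
  -- the point `Q`
  have hQ' : (1 : ℤ) • gen W k + (-1 : ℤ) • frobPt ℓ W (KE W k) (gen W k)
      = Point.some (ratEmb W k r) y h := by
    rw [one_smul, neg_smul, one_smul, ← sub_eq_add_neg]; exact hQ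
  -- `2Q ≠ 0`
  have h2Q : Point.some (ratEmb W k r) y h + Point.some (ratEmb W k r) y h ≠ 0 := by
    intro h0
    have h1 := (hform 2 (-2)).2
    have e : (2 : ℤ) • gen W k + (-2 : ℤ) • frobPt ℓ W (KE W k) (gen W k)
        = Point.some (ratEmb W k r) y h + Point.some (ratEmb W k r) y h := by
      rw [← hQ']
      simp only [one_smul, neg_smul, two_smul]
      abel
    rw [e, h0, ht_zero] at h1
    push_cast at h1
    linarith
  have hy : y ≠ (W.toAffine⁄(KE W k)).negY (ratEmb W k r) y := by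
    intro hy
    apply h2Q
    exact Point.add_of_Y_eq rfl hy
  -- `Ψ₂Sq (x(Q)) ≠ 0`
  have hψ : H11.psi2sq (W.toAffine⁄(KE W k)) (ratEmb W k r) ≠ 0 := by
    have heq := (Affine.equation_iff _ _).mp h.1
    have h1 := H11.alg_psi2_sq _ _ _ _ _ _ _ heq
    have h2 : H11.psi2sq (W.toAffine⁄(KE W k)) (ratEmb W k r)
        = (y - (W.toAffine⁄(KE W k)).negY (ratEmb W k r) y) ^ 2 := by
      have : y - (W.toAffine⁄(KE W k)).negY (ratEmb W k r) y
          = 2 * y + (W.toAffine⁄(KE W k)).a₁ * ratEmb W k r + (W.toAffine⁄(KE W k)).a₃ := by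
        simp only [Affine.negY]; ring
      rw [this, h1]
      simp only [H11.psi2sq, WeierstrassCurve.b₂, WeierstrassCurve.b₄, WeierstrassCurve.b₆]
    rw [h2]
    exact pow_ne_zero 2 (sub_ne_zero.mpr hy)
  -- the relation `S(x, x^ℓ, r) = 0`
  have hfx : frobAlgHom ℓ (KE W k) (gx W k) = (gx W k) ^ ℓ := rfl
  have hXne : (gx W k) ≠ frobAlgHom ℓ (KE W k) (gx W k) := by
    rw [hfx, ← ratEmb_X, ← map_pow]
    intro h0
    have h1 := ratEmb_injective W k h0
    have h2 : (X : k[X]) = X ^ ℓ := by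
      apply IsFractionRing.injective k[X] (RatFunc k)
      rw [map_pow, RatFunc.algebraMap_X]
      exact h1
    have h3 := congrArg Polynomial.natDegree h2
    rw [natDegree_X, natDegree_X_pow] at h3
    have := hℓ.two_le
    omega
  have hns₂ : (W.toAffine⁄(KE W k)).Nonsingular (frobAlgHom ℓ (KE W k) (gx W k))
      (frobAlgHom ℓ (KE W k) (gy W k)) :=
    (W.toAffine.baseChange_nonsingular (frobAlgHom ℓ (KE W k)).injective ..).mpr
        (gen_nonsingular W k hΔK)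
  have hΦ : frobPt ℓ W (KE W k) (gen W k) = Point.some _ _ hns₂ := by
    rw [hgen]; rfl
  have hsym : H11.symF (W.toAffine⁄(KE W k)) (gx W k) ((gx W k) ^ ℓ) (ratEmb W k r) = 0 := by
    have hsub : gen W k - frobPt ℓ W (KE W k) (gen W k) = Point.some (ratEmb W k r) y h := hQ
    rw [hΦ, hgen, sub_eq_add_neg, Point.neg_some, Point.add_of_X_ne hXne] at hsub
    have hx := (Point.some.inj hsub).1
    have h₁ : (W.toAffine⁄(KE W k)).Equation (gx W k) (gy W k) := gen_equation W k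
    have h₂ := ((Affine.nonsingular_neg ..).mpr hns₂).1
    have := H11.addX_rel (W.toAffine⁄(KE W k)) h₁ h₂ hXne (ratEmb W k r)
    rw [hx, sub_self, zero_mul, zero_mul] at this
    rw [← hfx]
    exact this.symm
  -- transport to polynomials
  have hιd : algebraMap k[X] (RatFunc k) r.denom ≠ 0 := by
    intro h0
    exact r.denom_ne_zero (IsFractionRing.injective k[X] (RatFunc k) (by rw [h0, map_zero]))
  have hr : algebraMap k[X] (RatFunc k) r.num / algebraMap k[X] (RatFunc k) r.denom = r :=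
    RatFunc.num_div_denom r
  have hb : ∀ a : ZMod ℓ, algebraMap (ZMod ℓ) (KE W k) a
      = ratEmb W k (algebraMap k[X] (RatFunc k) (C (algebraMap (ZMod ℓ) k a))) := fun a => by
    rw [RatFunc.algebraMap_C, ratEmb_C_algebraMap]
  have hgx : gx W k = ratEmb W k (algebraMap k[X] (RatFunc k) X) := by
    rw [RatFunc.algebraMap_X, ratEmb_X]
  have hS : Sh (C (algebraMap (ZMod ℓ) k W.b₂)) (C (algebraMap (ZMod ℓ) k W.b₄))
      (C (algebraMap (ZMod ℓ) k W.b₆)) (C (algebraMap (ZMod ℓ) k W.b₈)) (X ^ ℓ) X r.num r.denom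
      = 0 := by
    apply IsFractionRing.injective k[X] (RatFunc k)
    rw [map_zero]
    have e1 : algebraMap k[X] (RatFunc k) (Sh (C (algebraMap (ZMod ℓ) k W.b₂))
        (C (algebraMap (ZMod ℓ) k W.b₄)) (C (algebraMap (ZMod ℓ) k W.b₆))
        (C (algebraMap (ZMod ℓ) k W.b₈)) (X ^ ℓ) X r.num r.denom)
        = Sh (algebraMap k[X] (RatFunc k) (C (algebraMap (ZMod ℓ) k W.b₂)))
          (algebraMap k[X] (RatFunc k) (C (algebraMap (ZMod ℓ) k W.b₄)))
          (algebraMap k[X] (RatFunc k) (C (algebraMap (ZMod ℓ) k W.b₆)))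
          (algebraMap k[X] (RatFunc k) (C (algebraMap (ZMod ℓ) k W.b₈)))
          (algebraMap k[X] (RatFunc k) X ^ ℓ) (algebraMap k[X] (RatFunc k) X)
          (algebraMap k[X] (RatFunc k) r.num) (algebraMap k[X] (RatFunc k) r.denom) := by
      unfold Sh
      simp only [map_add, map_sub, map_mul, map_pow, map_ofNat]
    rw [e1, Sh_eq_symF _ _ _ _ _ _ _ _ hιd, hr]
    apply mul_eq_zero_of_right
    apply ratEmb_injective W k
    rw [map_zero, ← hsym]
    unfold H11.symF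
    simp only [map_add, map_sub, map_mul, map_pow, map_ofNat, WeierstrassCurve.baseChange,
      WeierstrassCurve.map_b₂, WeierstrassCurve.map_b₄, WeierstrassCurve.map_b₆,
      WeierstrassCurve.map_b₈, hb, hgx]
  have hw : Psih (C (algebraMap (ZMod ℓ) k W.b₂)) (C (algebraMap (ZMod ℓ) k W.b₄))
      (C (algebraMap (ZMod ℓ) k W.b₆)) r.num r.denom ≠ 0 := by
    intro h0
    apply hψ
    have e1 := congrArg (algebraMap k[X] (RatFunc k)) h0
    have e2 : algebraMap k[X] (RatFunc k) (Psih (C (algebraMap (ZMod ℓ) k W.b₂))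
        (C (algebraMap (ZMod ℓ) k W.b₄)) (C (algebraMap (ZMod ℓ) k W.b₆)) r.num r.denom)
        = Psih (algebraMap k[X] (RatFunc k) (C (algebraMap (ZMod ℓ) k W.b₂)))
          (algebraMap k[X] (RatFunc k) (C (algebraMap (ZMod ℓ) k W.b₄)))
          (algebraMap k[X] (RatFunc k) (C (algebraMap (ZMod ℓ) k W.b₆)))
          (algebraMap k[X] (RatFunc k) r.num) (algebraMap k[X] (RatFunc k) r.denom) := by
      unfold Psih
      simp only [map_add, map_sub, map_mul, map_pow, map_ofNat]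
    rw [e2, Psih_eq _ _ _ _ _ hιd, hr, map_zero] at e1
    have e3 := (mul_eq_zero.mp e1).resolve_left (pow_ne_zero 3 hιd)
    have e4 := congrArg (ratEmb W k) e3
    rw [map_zero] at e4
    rw [← e4]
    unfold H11.psi2sq Psi
    simp only [map_add, map_sub, map_mul, map_pow, map_ofNat, WeierstrassCurve.baseChange,
      WeierstrassCurve.map_b₂, WeierstrassCurve.map_b₄, WeierstrassCurve.map_b₆, hb]
  have hrel : 4 * algebraMap (ZMod ℓ) k W.b₈
      = algebraMap (ZMod ℓ) k W.b₂ * algebraMap (ZMod ℓ) k W.b₆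
        - algebraMap (ZMod ℓ) k W.b₄ ^ 2 := by
    have := congrArg (algebraMap (ZMod ℓ) k) W.b_relation
    simpa only [map_mul, map_sub, map_pow, map_ofNat] using this
  have hΨ : Psi (C (algebraMap (ZMod ℓ) k W.b₂)) (C (algebraMap (ZMod ℓ) k W.b₄))
      (C (algebraMap (ZMod ℓ) k W.b₆)) (X : k[X]) ≠ 0 := by
    apply Psi_X_ne_zero _ _ _ (algebraMap (ZMod ℓ) k W.b₈)
    have h1 : algebraMap (ZMod ℓ) k W.Δ ≠ 0 := fun h0 => hΔ (hinj (by rw [h0, map_zero]))
    have h2 : algebraMap (ZMod ℓ) k W.Δ = -algebraMap (ZMod ℓ) k W.b₂ ^ 2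
        * algebraMap (ZMod ℓ) k W.b₈ - 8 * algebraMap (ZMod ℓ) k W.b₄ ^ 3
        - 27 * algebraMap (ZMod ℓ) k W.b₆ ^ 2
        + 9 * algebraMap (ZMod ℓ) k W.b₂ * algebraMap (ZMod ℓ) k W.b₄
          * algebraMap (ZMod ℓ) k W.b₆ := by
      simp only [WeierstrassCurve.Δ, map_add, map_sub, map_mul, map_pow, map_neg, map_ofNat]
    rw [← h2]
    exact h1
  exact sep_core ℓ _ _ _ _ hrel r.num r.denom (RatFunc.isCoprime_num_denom r) r.denom_ne_zero hS
    hΨ hw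

end Fermat.Agent.Lib.EllFinite.H7
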