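/-
Item 62, assembly FINCORE, route A (helper7):
`Stmt_TGEN + Stmt_SPEC_rel + Stmt_CNT + Stmt_FIX ⇒ Stmt_FINCORE`  (SEP comes from TGEN).
-/
import Fermat.Agent.Lib.EllFinite.H7_SepStmt
import Fermat.Agent.Lib.EllFinite.H7_Fin

set_option autoImplicit false

namespace Fermat.Agent.Lib.EllFinite.H7

open WeierstrassCurve WeierstrassCurve.Affine Polynomial

section

variable {R : Type*} [CommRing R] (W : WeierstrassCurve R) (k : Type*) [Field k] [Algebra R k]

/-- A point of positive height is affine with `x`-coordinate a non-constant element of `k(x)`. -/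
theorem exists_rep_of_ht_pos (P : (W.toAffine⁄(KE W k)).Point) (hpos : 0 < ht W k P) :
    ∃ (r : RatFunc k) (y : KE W k) (h : (W.toAffine⁄(KE W k)).Nonsingular (ratEmb W k r) y),
      P = Point.some (ratEmb W k r) y h ∧ H80.rdeg r = ht W k P ∧ ¬ ∃ c, r = RatFunc.C c := by
  rcases P with _ | ⟨x, y, h⟩
  · exact absurd hpos (by simp [ht])
  · by_cases hex : ∃ r : RatFunc k, ratEmb W k r = x
    · obtain ⟨r, rfl⟩ := hex
      refine ⟨r, y, h, rfl, (ht_some W k r y h).symm, ?_⟩
      intro hc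
      rw [ht_some] at hpos
      have := (H80.rdeg_eq_zero_iff r).mpr hc
      omega
    · exfalso
      simp only [ht, hex, dite_false] at hpos
      exact lt_irrefl _ hpos

end

theorem fincore_of (hT : Stmt_TGEN) (hS : Stmt_SPEC_rel) (hC : Stmt_CNT) (hF : Stmt_FIX) :
    Stmt_FINCORE := by
  intro ℓ _ W hΔ k _ _ _ _
  have hSEP := sep_of_tgen hT
  obtain ⟨t, hrelgen, hform⟩ := hT ℓ W hΔ k
  have hℓ : ℓ.Prime := Fact.out
  have hchar : CharP k ℓ := (Algebra.charP_iff (ZMod ℓ) k ℓ).mp inferInstance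
  have hinj : Function.Injective (algebraMap (ZMod ℓ) k) := (algebraMap (ZMod ℓ) k).injective
  have hnn : ∀ m n : ℤ, 0 ≤ m ^ 2 + t * m * n + ℓ * n ^ 2 := fun m n => by
    rw [← (hform m n).2]; exact Int.natCast_nonneg _
  have hpos : 0 < 1 - t + (ℓ : ℤ) := hasse_pos ℓ hℓ.two_le t hnn
  refine ⟨t, ?_, ?_, ?_⟩
  · -- the relation on `E(k)`
    intro P
    have h1 := hS ℓ W hΔ k (ℓ : ℤ) (-t) 1 (by
      rw [one_smul, neg_smul]
      rw [← hrelgen]
      abel) P
    rw [one_smul, neg_smul] at h1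
    rw [← h1]
    abel
  · -- the count
    have hht := (hform 1 (-1)).2
    have hht' : (0 : ℤ) < (ht W k ((1 : ℤ) • gen W k + (-1 : ℤ) • frobPt ℓ W (KE W k) (gen W k)) : ℤ) := by
      rw [hht]; linarith
    obtain ⟨r, y, h, hQ, hrd, hnc⟩ := exists_rep_of_ht_pos W k
      ((1 : ℤ) • gen W k + (-1 : ℤ) • frobPt ℓ W (KE W k) (gen W k)) (Int.natCast_pos.mp hht')
    obtain ⟨e, he, hcard⟩ := hC ℓ W hΔ k 1 (-1) r y h hQ hnc
    have hQ' : gen W k - frobPt ℓ W (KE W k) (gen W k) = Point.some (ratEmb W k r) y h := by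
      rw [← hQ, one_smul, neg_smul, one_smul, sub_eq_add_neg]
    have he0 : e = 0 := he (hSEP ℓ W hΔ k r y h hQ')
    rw [he0, pow_zero, mul_one] at hcard
    have hfix := hF ℓ W hΔ k
    have hcongr : Nat.card {P : (W.toAffine⁄k).Point // (1 : ℤ) • P + (-1 : ℤ) • frobPt ℓ W k P = 0}
        = Nat.card {P : (W.toAffine⁄k).Point // frobPt ℓ W k P = P} := by
      apply Nat.card_congr
      apply Equiv.subtypeEquivRight
      intro P
      rw [one_smul, neg_smul, one_smul, ← sub_eq_add_neg, sub_eq_zero]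
      exact eq_comm
    rw [← hfix, ← hcongr, hcard, hrd, hht]
    ring
  · -- the scalar case
    intro p _ hpℓ c' hc'
    have hp : p.Prime := Fact.out
    have hht := (hform c' (-1)).2
    have hval : c' ^ 2 + t * c' * (-1) + (ℓ : ℤ) * (-1) ^ 2 = c' ^ 2 - t * c' + ℓ := by ring
    rw [hval] at hht
    rw [← hht]
    rcases Nat.eq_zero_or_pos (ht W k (c' • gen W k + (-1 : ℤ) • frobPt ℓ W (KE W k) (gen W k)))
      with h0 | hpos'
    · rw [h0]; simp
    obtain ⟨r, y, h, hQ, hrd, hnc⟩ := exists_rep_of_ht_pos W k _ hpos'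
    obtain ⟨e, -, hcard⟩ := hC ℓ W hΔ k c' (-1) r y h hQ hnc
    rw [← hrd, ← hcard]
    push_cast
    apply Dvd.dvd.mul_right
    -- Lagrange
    let α : (W.toAffine⁄k).Point →+ (W.toAffine⁄k).Point :=
      c' • AddMonoidHom.id _ + (-1 : ℤ) • frobPt ℓ W k
    have hker : Nat.card {P : (W.toAffine⁄k).Point // c' • P + (-1 : ℤ) • frobPt ℓ W k P = 0}
        = Nat.card α.ker := by
      apply Nat.card_congr
      apply Equiv.subtypeEquivRight
      intro P
      rw [AddMonoidHom.mem_ker]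
      rfl
    have hpk : ((p : ℕ) : k) ≠ 0 := by
      intro h
      have := (CharP.cast_eq_zero_iff k ℓ p).mp h
      exact hpℓ ((Nat.prime_dvd_prime_iff_eq hℓ hp).mp this).symm
    have hΔk : (W.toAffine⁄k).Δ ≠ 0 := H46.baseChange_Δ_ne_zero W.toAffine hinj hΔ
    have hcardp := H46.natCard_torsionBy (K := k) W.toAffine hΔk hpk
    have hle : (Submodule.torsionBy ℤ (W.toAffine⁄k).Point p).toAddSubgroup ≤ α.ker := by
      intro P hP
      rw [AddMonoidHom.mem_ker]
      have hP' : (p : ℤ) • P = 0 := by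
        have := (Submodule.mem_torsionBy_iff _ _).mp hP
        exact_mod_cast this
      show c' • P + (-1 : ℤ) • frobPt ℓ W k P = 0
      rw [hc' P hP']
      simp
    have hdvd := AddSubgroup.card_dvd_of_le hle
    have hcardp' : Nat.card (Submodule.torsionBy ℤ (W.toAffine⁄k).Point p).toAddSubgroup = p ^ 2 :=
      hcardp
    rw [hcardp'] at hdvd
    rw [hker]
    exact_mod_cast hdvd

end Fermat.Agent.Lib.EllFinite.H7
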