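/-
Item 62, assembly MAIN (helper7): `Stmt_FIN` + `Stmt_REDTORS` ⇒ `Stmt_main`.
-/
import Fermat.Agent.Lib.EllFinite.Stmts
import Fermat.Agent.Lib.EllFinite.H46_Finrank

set_option autoImplicit false

namespace Fermat.Agent.Lib.EllFinite.H7

open WeierstrassCurve WeierstrassCurve.Affine

/-- trace and determinant are invariant under conjugation by a linear equivalence. -/
theorem trace_det_of_intertwine {F V V' : Type*} [Field F] [AddCommGroup V] [Module F V]
    [AddCommGroup V'] [Module F V'] (e : V ≃ₗ[F] V') (g : Module.End F V) (f : Module.End F V')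
    (h : ∀ x, e (g x) = f (e x)) :
    LinearMap.trace F V g = LinearMap.trace F V' f ∧ LinearMap.det g = LinearMap.det f := by
  have hf : f = e.conj g := by
    ext x
    simp only [LinearEquiv.conj_apply, LinearMap.coe_comp, LinearEquiv.coe_coe,
      Function.comp_apply]
    rw [h, LinearEquiv.apply_symm_apply]
  rw [hf]
  exact ⟨(LinearMap.trace_conj' g e).symm, (LinearMap.det_conj g e).symm⟩

theorem reductionMod_Δ_ne_zero (W : WeierstrassCurve ℤ) (ℓ : ℕ) (h : W.IsGoodPrimeFor ℓ) :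
    (W.reductionMod ℓ).Δ ≠ 0 := by
  unfold WeierstrassCurve.reductionMod
  rw [WeierstrassCurve.map_Δ]
  intro h0
  apply h
  exact (ZMod.intCast_zmod_eq_zero_iff_dvd _ _).mp (by simpa using h0)

theorem apOfModel_eq (W : WeierstrassCurve ℤ) (ℓ : ℕ) :
    W.apOfModel ℓ = (ℓ : ℤ) + 1 - ((W.reductionMod ℓ).card : ℤ) := by
  unfold WeierstrassCurve.apOfModel WeierstrassCurve.traceOfFrobenius
  rw [Nat.card_zmod]

/-- MAIN from FIN and RED-TORS. -/
theorem main_of (hFIN : Stmt_FIN) (hRT : Stmt_REDTORS) : Stmt_main := by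
  intro W p ℓ _ hℓ hpℓ hgood A hA σ hσ
  have : Fact ℓ.Prime := ⟨hℓ⟩
  have hΔ : W.Δ ≠ 0 := by
    intro h0
    apply hgood
    rw [h0]
    exact dvd_zero _
  refine ⟨H46.finrank_torsionBy_int W hΔ p, ?_⟩
  obtain ⟨k, _, _, _, _, e, he⟩ := hRT W p ℓ hpℓ hgood A hA σ hσ
  obtain ⟨htr, hdet⟩ := hFIN ℓ p hpℓ (W.reductionMod ℓ) (reductionMod_Δ_ne_zero W ℓ hgood) k
  obtain ⟨h1, h2⟩ := trace_det_of_intertwine e
    (Point.galoisRepModuleEnd ℚ (W.map (Int.castRingHom ℚ)).toAffine p σ)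
    (torsEnd p (frobPt ℓ (W.reductionMod ℓ) k)) he
  refine ⟨?_, ?_⟩
  · rw [Point.galoisTrace_def, h1, htr, apOfModel_eq]
  · rw [h2, hdet]

end Fermat.Agent.Lib.EllFinite.H7
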