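/-
Item 62 (Lib/EllFinite), package CNT (helper90): counting core.

`V` a Weierstrass curve over an algebraically closed field `k`, `Δ ≠ 0`, `α` an additive endomorphism of
`V.Point` which on affine points outside the poles of `r ∈ k(x)` is given on `x`-coordinates by `r`.
If the generic fibre of `r` has `N` points, then `ker α` has `N` points.
-/
import Mathlib.AlgebraicGeometry.EllipticCurve.Affine.Point
import Mathlib.FieldTheory.RatFunc.AsPolynomial
import Mathlib.FieldTheory.IsAlgClosed.Basic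
import Mathlib.Data.Set.Card

set_option autoImplicit false

namespace Fermat.Agent.Lib.EllFinite.H90

open Polynomial WeierstrassCurve WeierstrassCurve.Affine

/-! ### Abstract group lemma -/

/-- If a finite nonempty set `S` is the union of the fibres of `α` over `R` and `-R`, `R ≠ -R`,
then `#S = 2 * #ker α`. -/
theorem ncard_eq_two_mul_card_ker {E : Type*} [AddCommGroup E] (α : E →+ E) (R : E) (hR : R ≠ -R)
    (S : Set E) (hS : ∀ P, P ∈ S ↔ α P = R ∨ α P = -R) (hfin : S.Finite) (hne : S.Nonempty) :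
    S.ncard = 2 * Nat.card {P : E // α P = 0} := by
  classical
  set Ap : Set E := {P | α P = R} with hAp
  set Am : Set E := {P | α P = -R} with hAm
  have hSeq : S = Ap ∪ Am := by
    ext P
    simp [hS, hAp, hAm]
  have hApfin : Ap.Finite := hfin.subset (by rw [hSeq]; exact Set.subset_union_left)
  have hAmfin : Am.Finite := hfin.subset (by rw [hSeq]; exact Set.subset_union_right)
  have hdisj : Disjoint Ap Am := by
    rw [Set.disjoint_left]
    intro P h1 h2
    simp only [hAp, hAm, Set.mem_ofPred_eq] at h1 h2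
    exact hR (h1.symm.trans h2)
  have hneg : Am = (fun P => -P) '' Ap := by
    ext P
    simp only [hAm, hAp, Set.mem_ofPred_eq, Set.mem_image]
    constructor
    · intro h
      exact ⟨-P, by rw [map_neg, h, neg_neg], neg_neg P⟩
    · rintro ⟨Q, hQ, rfl⟩
      rw [map_neg, hQ]
  have hcardm : Am.ncard = Ap.ncard := by
    rw [hneg]
    exact Set.ncard_image_of_injective _ neg_injective
  obtain ⟨P₁, hP₁⟩ : Ap.Nonempty := by
    obtain ⟨P, hP⟩ := hne
    rcases (hS P).mp hP with h | h
    · exact ⟨P, h⟩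
    · exact ⟨-P, by simp only [hAp, Set.mem_ofPred_eq]; rw [map_neg, h, neg_neg]⟩
  have hcoset : Ap = (fun Q => P₁ + Q) '' {Q : E | α Q = 0} := by
    ext P
    simp only [hAp, Set.mem_ofPred_eq, Set.mem_image]
    constructor
    · intro h
      refine ⟨P - P₁, ?_, by abel⟩
      rw [map_sub, h, hP₁, sub_self]
    · rintro ⟨Q, hQ, rfl⟩
      rw [map_add, hQ, add_zero]
      exact hP₁
  have hcardp : Ap.ncard = Nat.card {P : E // α P = 0} := by
    rw [hcoset, Set.ncard_image_of_injective _ (add_right_injective P₁)]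
    exact (Nat.card_coe_set_eq {Q : E | α Q = 0}).symm
  rw [hSeq, Set.ncard_union_eq hdisj hApfin hAmfin, hcardm, hcardp]
  ring

/-! ### Points above a given `x`-coordinate -/

section Curve

variable {k : Type*} [Field k] (V : WeierstrassCurve.Affine k)

/-- `(2y + a₁x + a₃)²` as a polynomial in `x` (the polynomial `Ψ₂Sq`). -/
noncomputable def psi2sq : k[X] :=
  C 4 * X ^ 3 + C V.b₂ * X ^ 2 + C (2 * V.b₄) * X + C V.b₆

lemma psi2sq_ne_zero (hΔ : V.Δ ≠ 0) : psi2sq V ≠ 0 := by
  intro h
  have h3 : (psi2sq V).coeff 3 = 0 := by rw [h, coeff_zero]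
  have h2 : (psi2sq V).coeff 2 = 0 := by rw [h, coeff_zero]
  have h1 : (psi2sq V).coeff 1 = 0 := by rw [h, coeff_zero]
  have h0 : (psi2sq V).coeff 0 = 0 := by rw [h, coeff_zero]
  simp only [psi2sq, coeff_add, coeff_C_mul, coeff_X_pow, coeff_C, coeff_X] at h3 h2 h1 h0
  norm_num at h3 h2 h1 h0
  apply hΔ
  rw [WeierstrassCurve.Δ, h2, h0]
  have : (8 : k) * V.b₄ ^ 3 = (4 : k) * (2 * V.b₄) * V.b₄ ^ 2 := by ring
  simp [this, h1]

lemma eval_psi2sq {x y : k} (h : V.Equation x y) :
    (psi2sq V).eval x = (y - V.negY x y) ^ 2 := by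
  rw [equation_iff] at h
  simp only [psi2sq, eval_add, eval_mul, eval_C, eval_pow, eval_X, negY, WeierstrassCurve.b₂,
    WeierstrassCurve.b₄, WeierstrassCurve.b₆]
  linear_combination (-4 : k) * h

lemma eq_negY_iff {x y : k} (h : V.Equation x y) :
    y = V.negY x y ↔ (psi2sq V).eval x = 0 := by
  rw [eval_psi2sq V h, sq_eq_zero_iff, sub_eq_zero]

/-- The `x`-coordinate of a point (junk value `0` at the zero point). -/
def xc : V.Point → k
  | .zero => 0
  | .some x _ _ => x

@[simp] lemma xc_some {x y : k} (h : V.Nonsingular x y) : xc V (Point.some x y h) = x := rfl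

lemma xc_neg (P : V.Point) : xc V (-P) = xc V P := by
  cases P with
  | zero => rfl
  | some x y h => rfl

variable [IsAlgClosed k]

lemma exists_equation (x : k) : ∃ y : k, V.Equation x y := by
  have hdeg : (X ^ 2 + C (V.a₁ * x + V.a₃) * X - C (x ^ 3 + V.a₂ * x ^ 2 + V.a₄ * x + V.a₆)
      : k[X]).degree ≠ 0 := by
    have : (X ^ 2 + C (V.a₁ * x + V.a₃) * X - C (x ^ 3 + V.a₂ * x ^ 2 + V.a₄ * x + V.a₆)
      : k[X]).natDegree = 2 := by
      compute_degree!
    intro h0
    rw [degree_eq_natDegree (by intro hz; rw [hz] at this; simp at this), this] at h0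
    norm_num at h0
  obtain ⟨y, hy⟩ := IsAlgClosed.exists_root _ hdeg
  refine ⟨y, ?_⟩
  rw [equation_iff]
  simp only [IsRoot.def, eval_sub, eval_add, eval_pow, eval_X, eval_mul, eval_C] at hy
  linear_combination hy

/-- A chosen point above `x`. -/
noncomputable def ptAbove (hΔ : V.Δ ≠ 0) (x : k) : V.Point :=
  Point.some x (exists_equation V x).choose
    ((V.equation_iff_nonsingular_of_Δ_ne_zero hΔ).mp (exists_equation V x).choose_spec)

lemma xc_ptAbove (hΔ : V.Δ ≠ 0) (x : k) : xc V (ptAbove V hΔ x) = x := rfl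

lemma ptAbove_ne_zero (hΔ : V.Δ ≠ 0) (x : k) : ptAbove V hΔ x ≠ 0 := Point.some_ne_zero _

lemma neg_ptAbove_ne_zero (hΔ : V.Δ ≠ 0) (x : k) : -ptAbove V hΔ x ≠ 0 := by
  rw [ptAbove, Point.neg_some]
  exact Point.some_ne_zero _

lemma eq_or_eq_neg_ptAbove [DecidableEq k] (hΔ : V.Δ ≠ 0) {x y : k} (h : V.Nonsingular x y) :
    Point.some x y h = ptAbove V hΔ x ∨ Point.some x y h = -ptAbove V hΔ x := by
  have hy := Y_eq_of_X_eq h.1 (exists_equation V x).choose_spec rfl
  rcases hy with hy | hy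
  · left
    simp only [ptAbove]
    congr
  · right
    simp only [ptAbove, Point.neg_some]
    congr

lemma ptAbove_ne_neg (hΔ : V.Δ ≠ 0) {x : k} (hx : (psi2sq V).eval x ≠ 0) :
    ptAbove V hΔ x ≠ -ptAbove V hΔ x := by
  intro h
  simp only [ptAbove, Point.neg_some] at h
  have h' := (Point.some.injEq ..).mp h
  exact hx ((eq_negY_iff V (exists_equation V x).choose_spec).mp h'.2)

/-- The set of affine points with `x`-coordinate in `F`. -/
def ptsAbove (F : Set k) : Set V.Point :=
  {P | ∃ (x y : k) (h : V.Nonsingular x y), P = Point.some x y h ∧ x ∈ F}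

lemma ptsAbove_eq_image [DecidableEq k] (hΔ : V.Δ ≠ 0) (F : Set k) :
    ptsAbove V F = (fun p : k × Bool => if p.2 then ptAbove V hΔ p.1 else -ptAbove V hΔ p.1) ''
      (F ×ˢ (Set.univ : Set Bool)) := by
  ext P
  simp only [ptsAbove, Set.mem_ofPred_eq, Set.mem_image, Set.mem_prod, Set.mem_univ, and_true,
    Prod.exists, Bool.exists_bool]
  constructor
  · rintro ⟨x, y, h, rfl, hx⟩
    refine ⟨x, ?_⟩
    rcases eq_or_eq_neg_ptAbove V hΔ h with h1 | h1
    · right; exact ⟨hx, by simp [h1]⟩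
    · left; exact ⟨hx, by simp [h1]⟩
  · rintro ⟨x, ⟨hx, hP⟩ | ⟨hx, hP⟩⟩
    · simp only [Bool.false_eq_true, if_false] at hP
      rw [ptAbove, Point.neg_some] at hP
      exact ⟨x, _, _, hP.symm, hx⟩
    · simp only [if_true] at hP
      exact ⟨x, _, _, hP.symm, hx⟩

lemma finite_ptsAbove [DecidableEq k] (hΔ : V.Δ ≠ 0) {F : Set k} (hF : F.Finite) :
    (ptsAbove V F).Finite := by
  rw [ptsAbove_eq_image V hΔ]
  exact (hF.prod Set.finite_univ).image _

lemma ncard_ptsAbove [DecidableEq k] (hΔ : V.Δ ≠ 0) {F : Set k} (hF : F.Finite)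
    (hpsi : ∀ x ∈ F, (psi2sq V).eval x ≠ 0) :
    (ptsAbove V F).ncard = 2 * F.ncard := by
  have hF' := hF
  rw [ptsAbove_eq_image V hΔ, Set.InjOn.ncard_image, Set.ncard_prod, Set.ncard_univ,
    Nat.card_eq_fintype_card, Fintype.card_bool, mul_comm]
  rintro ⟨x, b⟩ ⟨hx, -⟩ ⟨x', b'⟩ ⟨hx', -⟩ heq
  simp only at heq hx hx'
  have hxx : x = x' := by
    have := congrArg (xc V) heq
    cases b <;> cases b' <;> simpa [xc_neg, xc_ptAbove] using this
  subst hxx
  have hb : b = b' := by
    cases b <;> cases b'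
    · rfl
    · simp only [Bool.false_eq_true, if_false, if_true] at heq
      exact absurd heq.symm (ptAbove_ne_neg V hΔ (hpsi x hx))
    · simp only [Bool.false_eq_true, if_false, if_true] at heq
      exact absurd heq (ptAbove_ne_neg V hΔ (hpsi x hx))
    · rfl
  rw [hb]

end Curve

end Fermat.Agent.Lib.EllFinite.H90
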