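/-
Item 62 (Lib/EllFinite), package FIB (helper90).

Pure polynomial / rational-function fibre count over an algebraically closed field `k` of
exponential characteristic `l`:  for coprime `n d : k[X]`, not both constant, there is `e` such that
for all but finitely many `c : k`
  `#{x | d(x) ≠ 0 ∧ n(x) = c * d(x)} * l ^ e = max (deg n) (deg d)`,
and `e = 0` as soon as the Wronskian `n' d - n d'` is nonzero.
-/
import Mathlib.FieldTheory.RatFunc.AsPolynomial
import Mathlib.FieldTheory.IsAlgClosed.Basic
import Mathlib.FieldTheory.Perfect
import Mathlib.FieldTheory.Separable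
import Mathlib.Algebra.Polynomial.Expand
import Mathlib.Data.Set.Card
import Mathlib.RingTheory.Coprime.Lemmas

namespace Fermat.Agent.Lib.EllFinite.H90

open Polynomial

variable {k : Type*} [Field k]

/-- Fibre of the rational map `n/d` over `c` (points where `d` does not vanish). -/
def polyFib (n d : k[X]) (c : k) : Set k := {x | d.eval x ≠ 0 ∧ n.eval x = c * d.eval x}

/-- The Wronskian `n' d - n d'`. -/
noncomputable def wron (n d : k[X]) : k[X] := derivative n * d - n * derivative d

lemma eval_ne_zero_of_isCoprime {n d : k[X]} (hc : IsCoprime n d) {x c : k}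
    (h : n.eval x = c * d.eval x) : d.eval x ≠ 0 := by
  intro hd
  obtain ⟨a, b, hab⟩ := hc
  have := congrArg (eval x) hab
  simp [hd, h] at this

lemma polyFib_eq_roots [DecidableEq k] {n d : k[X]} (hc : IsCoprime n d) (c : k)
    (hP : n - C c * d ≠ 0) :
    polyFib n d c = ((n - C c * d).roots.toFinset : Set k) := by
  ext x
  simp only [polyFib, Set.mem_ofPred_eq, Finset.mem_coe, Multiset.mem_toFinset, mem_roots hP,
    IsRoot.def, eval_sub, eval_mul, eval_C, sub_eq_zero]
  exact ⟨fun h => h.2, fun h => ⟨eval_ne_zero_of_isCoprime hc h, h⟩⟩

lemma natDegree_sub_C_mul {n d : k[X]} {c : k}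
    (hcoeff : n.coeff (max n.natDegree d.natDegree) ≠ c * d.coeff (max n.natDegree d.natDegree)) :
    (n - C c * d).natDegree = max n.natDegree d.natDegree := by
  apply le_antisymm
  · exact (natDegree_sub_le _ _).trans (max_le_max le_rfl (natDegree_C_mul_le _ _))
  · apply le_natDegree_of_ne_zero
    simpa [coeff_sub, coeff_C_mul, sub_ne_zero] using hcoeff

lemma finite_coeff_exc {n d : k[X]} (hD : 0 < max n.natDegree d.natDegree) :
    {c : k | n.coeff (max n.natDegree d.natDegree) =
      c * d.coeff (max n.natDegree d.natDegree)}.Finite := by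
  set D := max n.natDegree d.natDegree with hDdef
  by_cases hd : d.coeff D = 0
  · have hdD : d.natDegree ≠ D := by
      intro h
      have h0 : d.leadingCoeff = 0 := by rw [leadingCoeff, h]; exact hd
      rw [leadingCoeff_eq_zero] at h0
      rw [h0, natDegree_zero] at h
      omega
    have hnD : n.natDegree = D := by
      rcases max_choice n.natDegree d.natDegree with h | h
      · exact h.symm ▸ rfl
      · exact absurd (h.symm ▸ rfl : d.natDegree = D) hdD
    have hn0 : n ≠ 0 := by
      rintro rfl
      rw [natDegree_zero] at hnD
      omega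
    have : n.coeff D ≠ 0 := by
      rw [← hnD]
      exact leadingCoeff_ne_zero.mpr hn0
    convert Set.finite_empty
    ext c
    simp [hd, this]
  · refine (Set.finite_singleton (n.coeff D / d.coeff D)).subset ?_
    intro c hc
    simp only [Set.mem_ofPred_eq] at hc
    simp only [Set.mem_singleton_iff]
    field_simp
    exact hc.symm

lemma wron_eval_eq_zero {n d : k[X]} {c x : k} (h0 : (n - C c * d).eval x = 0)
    (h1 : (derivative (n - C c * d)).eval x = 0) : (wron n d).eval x = 0 := by
  simp only [eval_sub, eval_mul, eval_C, derivative_sub, derivative_mul, derivative_C, zero_mul,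
    zero_add, sub_eq_zero] at h0 h1
  simp only [wron, eval_sub, eval_mul, h0, h1]
  ring

/-- Separable case: the generic fibre has exactly `max (deg n) (deg d)` points. -/
theorem finite_ncard_polyFib_ne [IsAlgClosed k] {n d : k[X]} (hc : IsCoprime n d)
    (hD : 0 < max n.natDegree d.natDegree) (hW : wron n d ≠ 0) :
    {c : k | (polyFib n d c).ncard ≠ max n.natDegree d.natDegree}.Finite := by
  classical
  have hE2 : ((wron n d).roots.toFinset.image (fun x => n.eval x / d.eval x) : Set k).Finite :=
    Finset.finite_toSet _
  refine ((finite_coeff_exc hD).union hE2).subset ?_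
  intro c hcne
  by_contra hnot
  simp only [Set.mem_union, Set.mem_ofPred_eq, Finset.coe_image, Set.mem_image, Finset.mem_coe,
    Multiset.mem_toFinset, not_or, not_exists, not_and] at hnot
  obtain ⟨h1, h2⟩ := hnot
  apply hcne
  have hdeg := natDegree_sub_C_mul (n := n) (d := d) (c := c) h1
  have hP : n - C c * d ≠ 0 := by
    intro h
    rw [h, natDegree_zero] at hdeg
    omega
  rw [polyFib_eq_roots hc c hP, Set.ncard_coe_finset]
  have hnodup : (n - C c * d).roots.Nodup := by
    rw [Multiset.nodup_iff_count_le_one]
    intro x
    rw [count_roots]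
    by_contra hlt
    rw [not_le] at hlt
    rw [one_lt_rootMultiplicity_iff_isRoot hP] at hlt
    obtain ⟨hr0, hr1⟩ := hlt
    have hWx := wron_eval_eq_zero hr0 hr1
    have hx : n.eval x = c * d.eval x := by
      simpa [sub_eq_zero] using hr0
    have hdx := eval_ne_zero_of_isCoprime hc hx
    refine h2 x ((mem_roots hW).mpr hWx) ?_
    rw [hx]
    field_simp
  rw [Multiset.toFinset_card_of_nodup hnodup, IsAlgClosed.card_roots_eq_natDegree, hdeg]

/-- Main fibre count for a coprime pair of polynomials. -/
theorem exists_ncard_polyFib [IsAlgClosed k] (l : ℕ) [ExpChar k l] :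
    ∀ (D : ℕ) (n d : k[X]), IsCoprime n d → max n.natDegree d.natDegree = D → 0 < D →
      ∃ e : ℕ, {c : k | (polyFib n d c).ncard * l ^ e ≠ D}.Finite ∧ (wron n d ≠ 0 → e = 0) := by
  intro D
  induction D using Nat.strong_induction_on with
  | _ D ih =>
    intro n d hc hD hpos
    by_cases hW : wron n d = 0
    · -- inseparable case
      have hd0 : d ≠ 0 := by
        rintro rfl
        have hu : IsUnit n := isCoprime_zero_right.mp hc
        have := natDegree_eq_zero_of_isUnit hu
        rw [this, natDegree_zero] at hD
        omega
      have hWeq : derivative n * d = n * derivative d := by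
        simpa [wron, sub_eq_zero] using hW
      have hd' : derivative d = 0 := by
        have hdvd : d ∣ derivative d :=
          hc.symm.dvd_of_dvd_mul_left (Dvd.intro_left _ hWeq)
        exact eq_zero_of_dvd_of_degree_lt hdvd (degree_derivative_lt hd0)
      have hn' : derivative n = 0 := by
        by_cases hn0 : n = 0
        · rw [hn0, derivative_zero]
        · have hdvd : n ∣ derivative n :=
            hc.dvd_of_dvd_mul_right (Dvd.intro _ hWeq.symm)
          exact eq_zero_of_dvd_of_degree_lt hdvd (degree_derivative_lt hn0)
      obtain _ | @⟨_, hprime, hchar⟩ := ‹ExpChar k l›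
      · -- characteristic zero: impossible
        exfalso
        have h1 := Polynomial.derivative_eq_zero.mp hn'
        have h2 := Polynomial.derivative_eq_zero.mp hd'
        rw [h1, h2] at hD
        simp at hD
        omega
      · have : ExpChar k l := ExpChar.prime hprime
        have : PerfectRing k l :=
          ⟨⟨frobenius_inj k l, fun x => IsAlgClosed.exists_pow_nat_eq x hprime.pos⟩⟩
        have hen : expand k l (contract l n) = n := expand_contract' l hn'
        have hed : expand k l (contract l d) = d := expand_contract' l hd'
        set n₁ : k[X] := (contract l n).map ((frobeniusEquiv k l).symm : k →+* k) with hn₁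
        set d₁ : k[X] := (contract l d).map ((frobeniusEquiv k l).symm : k →+* k) with hd₁
        have hfrob : ∀ f : k[X],
            (f.map ((frobeniusEquiv k l).symm : k →+* k)) ^ l = expand k l f := by
          intro f
          have hcomp : (frobenius k l).comp ((frobeniusEquiv k l).symm : k →+* k) =
              RingHom.id k := by
            ext x
            simp
          rw [← map_frobenius_expand (p := l), map_expand, map_map, hcomp, Polynomial.map_id]
        have hn₁l : n₁ ^ l = n := by rw [hn₁, hfrob, hen]
        have hd₁l : d₁ ^ l = d := by rw [hd₁, hfrob, hed]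
        have hc₁ : IsCoprime n₁ d₁ := by
          rw [← hn₁l, ← hd₁l] at hc
          exact (IsCoprime.pow_iff hprime.pos hprime.pos).mp hc
        have hD₁ : l * max n₁.natDegree d₁.natDegree = D := by
          rw [← hD, ← hn₁l, ← hd₁l, natDegree_pow, natDegree_pow, Nat.mul_max_mul_left]
        have hpos₁ : 0 < max n₁.natDegree d₁.natDegree := by
          rcases Nat.eq_zero_or_pos (max n₁.natDegree d₁.natDegree) with h | h
          · rw [h, mul_zero] at hD₁; omega
          · exact h
        have hlt : max n₁.natDegree d₁.natDegree < D := by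
          rw [← hD₁]
          have := hprime.two_le
          nlinarith
        obtain ⟨e₁, hfin, -⟩ := ih _ hlt n₁ d₁ hc₁ rfl hpos₁
        refine ⟨e₁ + 1, ?_, fun h => absurd hW h⟩
        refine (hfin.image (frobenius k l)).subset ?_
        intro c hcne
        simp only [Set.mem_ofPred_eq] at hcne
        refine ⟨(frobeniusEquiv k l).symm c, ?_, by simp⟩
        simp only [Set.mem_ofPred_eq]
        intro heq
        apply hcne
        have hfib : polyFib n d c = polyFib n₁ d₁ ((frobeniusEquiv k l).symm c) := by
          ext x
          simp only [polyFib, Set.mem_ofPred_eq]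
          rw [← hn₁l, ← hd₁l, eval_pow, eval_pow]
          have hcl : c = ((frobeniusEquiv k l).symm c) ^ l := by
            simp [← frobenius_def]
          constructor
          · rintro ⟨h1, h2⟩
            refine ⟨fun h => h1 (by rw [h, zero_pow hprime.ne_zero]), ?_⟩
            apply frobenius_inj k l
            rw [frobenius_def, frobenius_def, mul_pow, ← hcl]
            exact h2
          · rintro ⟨h1, h2⟩
            refine ⟨pow_ne_zero _ h1, ?_⟩
            rw [h2, mul_pow, ← hcl]
        rw [hfib, pow_succ, ← mul_assoc, heq, mul_comm, hD₁]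
    · exact ⟨0, by simpa [hD] using finite_ncard_polyFib_ne hc (hD ▸ hpos) hW, fun _ => rfl⟩

/-! ### Rational functions -/

lemma max_natDegree_pos_of_ne_C (R : RatFunc k) (hR : ∀ a : k, R ≠ RatFunc.C a) :
    0 < max R.num.natDegree R.denom.natDegree := by
  by_contra h
  have h0 : max R.num.natDegree R.denom.natDegree = 0 := by omega
  have hn : R.num.natDegree = 0 := by
    have := le_max_left R.num.natDegree R.denom.natDegree
    omega
  have hd : R.denom.natDegree = 0 := by
    have := le_max_right R.num.natDegree R.denom.natDegree
    omega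
  obtain ⟨a, ha⟩ := natDegree_eq_zero.mp hn
  have hd1 : R.denom = 1 := by
    obtain ⟨b, hb⟩ := natDegree_eq_zero.mp hd
    have hm := R.monic_denom
    rw [← hb] at hm ⊢
    rw [Monic, leadingCoeff_C] at hm
    rw [hm, C_1]
  apply hR a
  have := R.num_div_denom
  rw [hd1, ← ha] at this
  rw [← this]
  simp

/-- Fibre count for a nonconstant rational function `R` over an algebraically closed field of
exponential characteristic `l`: there is `e` with `#R⁻¹(c) * l ^ e = rdeg R` for all but finitely
many `c`, and `e = 0` if the Wronskian of `(num, denom)` is nonzero. Here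
`rdeg R = max R.num.natDegree R.denom.natDegree`. -/
theorem exists_ncard_ratFib [IsAlgClosed k] (l : ℕ) [ExpChar k l] (R : RatFunc k)
    (hR : ∀ a : k, R ≠ RatFunc.C a) :
    ∃ e : ℕ,
      {c : k | (polyFib R.num R.denom c).ncard * l ^ e ≠
        max R.num.natDegree R.denom.natDegree}.Finite ∧
      (wron R.num R.denom ≠ 0 → e = 0) :=
  exists_ncard_polyFib l _ R.num R.denom (RatFunc.isCoprime_num_denom R) rfl
    (max_natDegree_pos_of_ne_C R hR)

/-- The fibre in terms of evaluation of the rational function. -/
lemma polyFib_num_denom (R : RatFunc k) (c : k) :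
    polyFib R.num R.denom c = {x | R.denom.eval x ≠ 0 ∧ R.eval (RingHom.id k) x = c} := by
  ext x
  simp only [polyFib, Set.mem_ofPred_eq, RatFunc.eval, eval₂_id]
  constructor
  · rintro ⟨h1, h2⟩
    exact ⟨h1, by rw [h2]; field_simp⟩
  · rintro ⟨h1, h2⟩
    exact ⟨h1, by rw [← h2]; field_simp⟩

/-- All fibres are finite (for a nonconstant pair). -/
lemma finite_polyFib {n d : k[X]} (hc : IsCoprime n d) (c : k) (hP : n - C c * d ≠ 0) :
    (polyFib n d c).Finite := by
  classical
  rw [polyFib_eq_roots hc c hP]
  exact Finset.finite_toSet _

end Fermat.Agent.Lib.EllFinite.H90
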