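/-
Item 62 (Lib/EllFinite), package FIB (helper90): the exact interface `Stmt_FIB` of `Defs.lean`.
-/
import Fermat.Agent.Lib.EllFinite.Defs
import Fermat.Agent.Lib.EllFinite.H90_Fib

set_option autoImplicit false

namespace Fermat.Agent.Lib.EllFinite.H90

open Polynomial

/-- (FIB) proved. -/
theorem stmt_FIB : Fermat.Agent.Lib.EllFinite.Stmt_FIB := by
  intro k _ _ ℓ _ r hr
  have hR : ∀ a : k, r ≠ RatFunc.C a := fun a h => hr ⟨a, h⟩
  obtain ⟨e, hfin, he⟩ := exists_ncard_ratFib ℓ r hR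
  refine ⟨e, hfin.toFinset, fun h => he h, ?_⟩
  intro c hc
  have hc' : ¬ ((polyFib r.num r.denom c).ncard * ℓ ^ e ≠
      max r.num.natDegree r.denom.natDegree) := by
    intro h
    exact hc (hfin.mem_toFinset.mpr h)
  rw [not_not] at hc'
  have hcard : Nat.card {x : k // r.denom.eval x ≠ 0 ∧ r.num.eval x = c * r.denom.eval x} =
      (polyFib r.num r.denom c).ncard :=
    Nat.card_coe_set_eq (polyFib r.num r.denom c)
  rw [hcard, hc']
  rfl

end Fermat.Agent.Lib.EllFinite.H90
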