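/-
Item 62 (Lib/EllFinite), package CNT (helper90): `Stmt_CNT` from `Stmt_SPEC_val` (and FIB, proved).
-/
import Fermat.Agent.Lib.EllFinite.Stmts
import Fermat.Agent.Lib.EllFinite.H90_FibStmt
import Fermat.Agent.Lib.EllFinite.H90_CntCore

set_option autoImplicit false

namespace Fermat.Agent.Lib.EllFinite.H90

open Polynomial WeierstrassCurve WeierstrassCurve.Affine

/-- Counting core: the kernel of `α` has as many points as the generic fibre of `r`. -/
theorem card_ker_of_spec {k : Type*} [Field k] [IsAlgClosed k] [DecidableEq k]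
    (V : WeierstrassCurve.Affine k) (hΔ : V.Δ ≠ 0)
    (α : V.Point →+ V.Point) (r : RatFunc k) (ℓ e D : ℕ) (Z : Finset k)
    (hspec : ∀ (x₀ y₀ : k) (h₀ : V.Nonsingular x₀ y₀), r.denom.eval x₀ ≠ 0 →
      ∃ (y₁ : k) (h₁ : V.Nonsingular (r.num.eval x₀ / r.denom.eval x₀) y₁),
        α (Point.some x₀ y₀ h₀) = Point.some (r.num.eval x₀ / r.denom.eval x₀) y₁ h₁)
    (hfib : ∀ c ∉ Z, (polyFib r.num r.denom c).ncard * ℓ ^ e = D)
    (hD : D ≠ 0) :
    Nat.card {P : V.Point // α P = 0} * ℓ ^ e = D := by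
  classical
  -- the exceptional sets
  set B2 : Finset k := (psi2sq V).roots.toFinset with hB2
  set B3 : Finset k := B2.image (fun x₀ => r.num.eval x₀ / r.denom.eval x₀) with hB3
  have hpoles : {x : k | r.denom.eval x = 0}.Finite := by
    refine (Finset.finite_toSet r.denom.roots.toFinset).subset ?_
    intro x hx
    simp only [Finset.mem_coe, Multiset.mem_toFinset, mem_roots r.denom_ne_zero, IsRoot.def]
    exact hx
  have hDfin : (ptsAbove V {x : k | r.denom.eval x = 0}).Finite := finite_ptsAbove V hΔ hpoles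
  set B4 : Set k := (fun P => xc V (α P)) '' (ptsAbove V {x : k | r.denom.eval x = 0}) with hB4
  have hB4fin : B4.Finite := hDfin.image _
  have hbad : ((↑Z : Set k) ∪ ↑B2 ∪ ↑B3 ∪ B4).Finite :=
    (((Finset.finite_toSet Z).union (Finset.finite_toSet B2)).union
      (Finset.finite_toSet B3)).union hB4fin
  obtain ⟨c, hc⟩ := hbad.exists_notMem
  simp only [Set.mem_union, not_or, Finset.mem_coe] at hc
  obtain ⟨⟨⟨hcZ, hc2⟩, hc3⟩, hc4⟩ := hc
  have hpsic : (psi2sq V).eval c ≠ 0 := by
    intro h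
    apply hc2
    rw [hB2, Multiset.mem_toFinset, mem_roots (psi2sq_ne_zero V hΔ)]
    exact h
  -- the fibre of `r` over `c`
  have hcard := hfib c hcZ
  set F : Set k := polyFib r.num r.denom c with hF
  have hFne : F.ncard ≠ 0 := by
    intro h0
    rw [h0, zero_mul] at hcard
    exact hD hcard.symm
  have hFfin : F.Finite := Set.finite_of_ncard_ne_zero hFne
  have hFpsi : ∀ x ∈ F, (psi2sq V).eval x ≠ 0 := by
    intro x hx hpx
    apply hc3
    rw [hB3, Finset.mem_image]
    refine ⟨x, ?_, ?_⟩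
    · rw [hB2, Multiset.mem_toFinset, mem_roots (psi2sq_ne_zero V hΔ)]
      exact hpx
    · obtain ⟨h1, h2⟩ := hx
      rw [h2]
      field_simp
  -- the points above the fibre
  have hS2 : (ptsAbove V F).ncard = 2 * F.ncard := ncard_ptsAbove V hΔ hFfin hFpsi
  have hSfin : (ptsAbove V F).Finite := finite_ptsAbove V hΔ hFfin
  have hSne : (ptsAbove V F).Nonempty := by
    rw [← Set.ncard_pos hSfin, hS2]
    omega
  -- the point `R` above `c`
  set R : V.Point := ptAbove V hΔ c with hR
  have hRneg : R ≠ -R := ptAbove_ne_neg V hΔ hpsic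
  have hxR : ∀ Q : V.Point, Q ≠ 0 → xc V Q = c → Q = R ∨ Q = -R := by
    intro Q hQ0 hQc
    cases Q with
    | zero => exact absurd rfl hQ0
    | some x y h =>
      simp only [xc_some] at hQc
      subst hQc
      exact eq_or_eq_neg_ptAbove V hΔ h
  have hSchar : ∀ P, P ∈ ptsAbove V F ↔ α P = R ∨ α P = -R := by
    intro P
    constructor
    · rintro ⟨x, y, h, rfl, hx⟩
      obtain ⟨hx1, hx2⟩ := hx
      obtain ⟨y₁, h₁, hα⟩ := hspec x y h hx1
      apply hxR
      · rw [hα]; exact Point.some_ne_zero _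
      · rw [hα, xc_some, hx2]
        field_simp
    · intro hP
      have hαx : xc V (α P) = c := by
        rcases hP with h | h
        · rw [h]; rfl
        · rw [h, xc_neg]; rfl
      cases P with
      | zero =>
        exfalso
        have h0 : α (0 : V.Point) = 0 := map_zero α
        rcases hP with h | h
        · exact ptAbove_ne_zero V hΔ c (h.symm.trans h0)
        · exact neg_ptAbove_ne_zero V hΔ c (h.symm.trans h0)
      | some x y h =>
        by_cases hden : r.denom.eval x = 0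
        · exfalso
          apply hc4
          rw [hB4]
          exact ⟨Point.some x y h, ⟨x, y, h, rfl, hden⟩, hαx⟩
        · obtain ⟨y₁, h₁, hα⟩ := hspec x y h hden
          refine ⟨x, y, h, rfl, hden, ?_⟩
          rw [hα, xc_some] at hαx
          rw [← hαx]
          field_simp
  have hker := ncard_eq_two_mul_card_ker α R hRneg (ptsAbove V F) hSchar hSfin hSne
  have hFK : F.ncard = Nat.card {P : V.Point // α P = 0} := by
    have := hS2.symm.trans hker
    omega
  rw [← hFK]
  exact hcard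

/-- (CNT) from (SPEC-val). -/
theorem stmt_CNT_of (hSPEC : Stmt_SPEC_val) : Stmt_CNT := by
  intro ℓ _ W hΔ k _ _ _ _ m n r y h hgen hr
  have hchar : CharP k ℓ := (Algebra.charP_iff (ZMod ℓ) k ℓ).mp inferInstance
  have hexp : ExpChar k ℓ := ExpChar.prime (Fact.out : ℓ.Prime)
  have hR : ∀ a : k, r ≠ RatFunc.C a := fun a ha => hr ⟨a, ha⟩
  obtain ⟨e, hfin, he⟩ := exists_ncard_ratFib ℓ r hR
  refine ⟨e, he, ?_⟩
  have hΔk : (W.toAffine⁄k).Δ ≠ 0 := by
    change (W.map (algebraMap (ZMod ℓ) k)).Δ ≠ 0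
    rw [WeierstrassCurve.map_Δ]
    exact fun h0 => hΔ ((map_eq_zero_iff _ (algebraMap (ZMod ℓ) k).injective).mp h0)
  have hD : max r.num.natDegree r.denom.natDegree ≠ 0 :=
    (max_natDegree_pos_of_ne_C r hR).ne'
  let α : (W.toAffine⁄k).Point →+ (W.toAffine⁄k).Point :=
    m • AddMonoidHom.id (W.toAffine⁄k).Point + n • frobPt ℓ W k
  have hαP : ∀ P : (W.toAffine⁄k).Point, α P = m • P + n • frobPt ℓ W k P := fun P => by
    simp [α]
  have hmain := card_ker_of_spec (W.toAffine⁄k) hΔk α r ℓ e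
    (max r.num.natDegree r.denom.natDegree) hfin.toFinset
    (fun x₀ y₀ h₀ hden => by
      obtain ⟨y₁, h₁, hα⟩ := hSPEC ℓ W hΔ k m n r y h hgen x₀ y₀ h₀ hden
      exact ⟨y₁, h₁, by rw [hαP]; exact hα⟩)
    (fun c hc => by
      have hc' : ¬ ((polyFib r.num r.denom c).ncard * ℓ ^ e ≠
          max r.num.natDegree r.denom.natDegree) := fun h => hc (hfin.mem_toFinset.mpr h)
      exact not_not.mp hc')
    hD
  simp only [hαP] at hmain
  rw [hmain]
  rfl

end Fermat.Agent.Lib.EllFinite.H90
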