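/-
Item 62 (Lib/EllFinite), package FIX (helper90): the fixed points of the `ℓ`-power Frobenius on
`E(k)` are the `ZMod ℓ`-points: `Nat.card {P // frobPt ℓ W k P = P} = W.card`.
-/
import Fermat.Agent.Lib.EllFinite.Stmts

set_option autoImplicit false

namespace Fermat.Agent.Lib.EllFinite.H90

open Polynomial WeierstrassCurve WeierstrassCurve.Affine

/-- In a field `k` over `ZMod ℓ`, the solutions of `x ^ ℓ = x` are the elements of the prime
field. -/
theorem mem_range_algebraMap_of_pow_eq (ℓ : ℕ) [Fact ℓ.Prime] {k : Type*} [Field k]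
    [Algebra (ZMod ℓ) k] {x : k} (hx : x ^ ℓ = x) : ∃ a : ZMod ℓ, algebraMap (ZMod ℓ) k a = x := by
  classical
  have hℓ : ℓ.Prime := Fact.out
  set P : k[X] := X ^ ℓ - X with hP
  have hPdeg : P.natDegree = ℓ := by
    rw [hP]
    have h1 : 1 < ℓ := hℓ.one_lt
    compute_degree!
    · simp [h1.ne]
    · omega
  have hP0 : P ≠ 0 := by
    intro h
    rw [h, natDegree_zero] at hPdeg
    exact hℓ.ne_zero hPdeg.symm
  have hinj : Function.Injective (algebraMap (ZMod ℓ) k) := (algebraMap (ZMod ℓ) k).injective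
  set S : Finset k := Finset.univ.image (algebraMap (ZMod ℓ) k) with hS
  have hScard : S.card = ℓ := by
    rw [hS, Finset.card_image_of_injective _ hinj, Finset.card_univ, ZMod.card]
  have hSsub : S ⊆ P.roots.toFinset := by
    intro z hz
    rw [hS, Finset.mem_image] at hz
    obtain ⟨a, -, rfl⟩ := hz
    rw [Multiset.mem_toFinset, mem_roots hP0, IsRoot.def, hP, eval_sub, eval_pow, eval_X,
      ← map_pow, ZMod.pow_card, sub_self]
  have hle : P.roots.toFinset.card ≤ S.card := by
    rw [hScard]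
    calc P.roots.toFinset.card ≤ Multiset.card P.roots := Multiset.toFinset_card_le _
      _ ≤ P.natDegree := card_roots' P
      _ = ℓ := hPdeg
  have hEq : S = P.roots.toFinset := Finset.eq_of_subset_of_card_le hSsub hle
  have hxroot : x ∈ P.roots.toFinset := by
    rw [Multiset.mem_toFinset, mem_roots hP0, IsRoot.def, hP, eval_sub, eval_pow, eval_X, hx,
      sub_self]
  rw [← hEq, hS, Finset.mem_image] at hxroot
  obtain ⟨a, -, ha⟩ := hxroot
  exact ⟨a, ha⟩

section

variable (ℓ : ℕ) [Fact ℓ.Prime] (W : WeierstrassCurve (ZMod ℓ)) (k : Type*) [Field k]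
  [DecidableEq k] [Algebra (ZMod ℓ) k]

omit [DecidableEq k] in
lemma nonsingular_incl (x y : ZMod ℓ) :
    (W.toAffine⁄k).Nonsingular (algebraMap (ZMod ℓ) k x) (algebraMap (ZMod ℓ) k y) ↔
      W.toAffine.Nonsingular x y :=
  W.toAffine.map_nonsingular (f := algebraMap (ZMod ℓ) k) (algebraMap (ZMod ℓ) k).injective x y

/-- The inclusion `E(ZMod ℓ) → E(k)`. -/
noncomputable def inclPt : W.toAffine.Point → (W.toAffine⁄k).Point
  | .zero => 0
  | .some x y h => Point.some (algebraMap (ZMod ℓ) k x) (algebraMap (ZMod ℓ) k y)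
      ((nonsingular_incl ℓ W k x y).mpr h)

lemma inclPt_injective : Function.Injective (inclPt ℓ W k) := by
  have hinj : Function.Injective (algebraMap (ZMod ℓ) k) := (algebraMap (ZMod ℓ) k).injective
  rintro (_ | ⟨x, y, h⟩) (_ | ⟨x', y', h'⟩) hPQ
  · rfl
  · exact absurd hPQ.symm (Point.some_ne_zero _)
  · exact absurd hPQ (Point.some_ne_zero _)
  · simp only [inclPt] at hPQ
    have hPQ' := (Point.some.injEq ..).mp hPQ
    obtain ⟨h1, h2⟩ := hPQ'
    have hx : x = x' := hinj h1
    have hy : y = y' := hinj h2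
    simp only [Point.some.injEq]
    exact ⟨hx, hy⟩

lemma frobPt_some {x y : k} (h : (W.toAffine⁄k).Nonsingular x y) :
    ∃ h' : (W.toAffine⁄k).Nonsingular (x ^ ℓ) (y ^ ℓ),
      frobPt ℓ W k (Point.some x y h) = Point.some (x ^ ℓ) (y ^ ℓ) h' :=
  ⟨_, rfl⟩

lemma frobPt_inclPt (P : W.toAffine.Point) : frobPt ℓ W k (inclPt ℓ W k P) = inclPt ℓ W k P := by
  cases P with
  | zero => exact map_zero _
  | some x y h =>
    obtain ⟨h', hf⟩ := frobPt_some ℓ W k ((nonsingular_incl ℓ W k x y).mpr h)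
    simp only [inclPt]
    rw [hf]
    simp only [Point.some.injEq]
    constructor
    · rw [← map_pow, ZMod.pow_card]
    · rw [← map_pow, ZMod.pow_card]

lemma exists_inclPt_of_fixed (Q : (W.toAffine⁄k).Point) (hQ : frobPt ℓ W k Q = Q) :
    ∃ P : W.toAffine.Point, inclPt ℓ W k P = Q := by
  cases Q with
  | zero => exact ⟨0, rfl⟩
  | some x y h =>
    obtain ⟨h', hf⟩ := frobPt_some ℓ W k h
    rw [hf] at hQ
    simp only [Point.some.injEq] at hQ
    obtain ⟨a, rfl⟩ := mem_range_algebraMap_of_pow_eq ℓ hQ.1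
    obtain ⟨b, rfl⟩ := mem_range_algebraMap_of_pow_eq ℓ hQ.2
    exact ⟨Point.some a b ((nonsingular_incl ℓ W k a b).mp h), rfl⟩

theorem card_fixed_eq : Nat.card {P : (W.toAffine⁄k).Point // frobPt ℓ W k P = P} = W.card := by
  have hbij : Function.Bijective
      (fun P : W.toAffine.Point =>
        (⟨inclPt ℓ W k P, frobPt_inclPt ℓ W k P⟩ :
          {P : (W.toAffine⁄k).Point // frobPt ℓ W k P = P})) := by
    constructor
    · intro P Q hPQ
      exact inclPt_injective ℓ W k (congrArg Subtype.val hPQ)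
    · rintro ⟨Q, hQ⟩
      obtain ⟨P, hP⟩ := exists_inclPt_of_fixed ℓ W k Q hQ
      exact ⟨P, Subtype.ext hP⟩
  exact (Nat.card_eq_of_bijective _ hbij).symm

end

/-- (FIX) proved. -/
theorem stmt_FIX : Stmt_FIX := by
  intro ℓ _ W _ k _ _ _
  exact card_fixed_eq ℓ W k

end Fermat.Agent.Lib.EllFinite.H90
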