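/-
Item 62 (helper7): wiring of the landed pieces. `Stmt_main` from the four remaining leaves.
-/
import Fermat.Agent.Lib.EllFinite.H7_FinCore
import Fermat.Agent.Lib.EllFinite.H7_Main
import Fermat.Agent.Lib.EllFinite.H90_Cnt
import Fermat.Agent.Lib.EllFinite.H90_Fix

set_option autoImplicit false

namespace Fermat.Agent.Lib.EllFinite

/-- `Stmt_FINCORE` from `TGEN`, `SPEC_rel`, `SPEC_val`. -/
theorem fincore_of_leaves (hT : Stmt_TGEN) (hSr : Stmt_SPEC_rel) (hSv : Stmt_SPEC_val) :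
    Stmt_FINCORE :=
  H7.fincore_of hT hSr (H90.stmt_CNT_of hSv) H90.stmt_FIX

/-- `Stmt_FIN` from `TGEN`, `SPEC_rel`, `SPEC_val`. -/
theorem fin_of_leaves (hT : Stmt_TGEN) (hSr : Stmt_SPEC_rel) (hSv : Stmt_SPEC_val) : Stmt_FIN :=
  H7.fin_of_fincore (fincore_of_leaves hT hSr hSv)

/-- `Stmt_main` from the four remaining leaves. -/
theorem main_of_leaves (hT : Stmt_TGEN) (hSr : Stmt_SPEC_rel) (hSv : Stmt_SPEC_val)
    (hRT : Stmt_REDTORS) : Stmt_main :=
  H7.main_of (fin_of_leaves hT hSr hSv) hRT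

end Fermat.Agent.Lib.EllFinite
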