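/-
Item 62 (helper7): wiring, second stage. Landed leaves: TGEN, SPEC_rel (helper80), CNT-of-SPEC_val,
FIX (helper90), REDTORS (helper46). Remaining leaf: `Stmt_SPEC_val`.
-/
import Fermat.Agent.Lib.EllFinite.Wiring
import Fermat.Agent.Lib.EllFinite.H80_Bridge
import Fermat.Agent.Lib.EllFinite.H80_SpecRel
import Fermat.Agent.Lib.EllFinite.H46_RedTorsStmt

set_option autoImplicit false

namespace Fermat.Agent.Lib.EllFinite

/-- (SEP) proved. -/
theorem stmt_SEP : Stmt_SEP := H7.sep_of_tgen H80.stmt_TGEN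

/-- `Stmt_FINCORE` from the last leaf. -/
theorem fincore_of_spec_val (hSv : Stmt_SPEC_val) : Stmt_FINCORE :=
  fincore_of_leaves H80.stmt_TGEN H80.stmt_SPEC_rel hSv

/-- `Stmt_FIN` from the last leaf. -/
theorem fin_of_spec_val (hSv : Stmt_SPEC_val) : Stmt_FIN :=
  fin_of_leaves H80.stmt_TGEN H80.stmt_SPEC_rel hSv

/-- `Stmt_main` from the last leaf. -/
theorem main_of_spec_val (hSv : Stmt_SPEC_val) : Stmt_main :=
  main_of_leaves H80.stmt_TGEN H80.stmt_SPEC_rel hSv H46.stmt_REDTORS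

end Fermat.Agent.Lib.EllFinite
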