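/-
Item 62 (Lib/EllFinite), coordinator helper7: FINAL RESULTS.

`stmt_main : Stmt_main` — for `W : WeierstrassCurve ℤ`, primes `p ≠ ℓ`, `ℓ` good, `A` a place of `Q̄`
over `ℓ` and `σ` a Frobenius element at `A`:
  `finrank E[p](Q̄) = 2`,  `galoisTrace σ = apOfModel ℓ`,  `det σ = ℓ`   (in `ZMod p`).
`stmt_FIN`, `stmt_FINCORE` : the finite-field side.

Leaves: TGEN, SPEC_rel (helper80), SPEC_val (helper28, on helper4's RED), CNT, FIX, FIB (helper90),
REDTORS + ALG (helper46), PAR (helper80), SEP + assembly (helper7).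
-/
import Fermat.Agent.Lib.EllFinite.Wiring2
import Fermat.Agent.Lib.EllFinite.H28_Spec

set_option autoImplicit false

namespace Fermat.Agent.Lib.EllFinite

theorem stmt_CNT : Stmt_CNT := H90.stmt_CNT_of H28.spec_val

theorem stmt_FINCORE : Stmt_FINCORE := fincore_of_spec_val H28.spec_val

theorem stmt_FIN : Stmt_FIN := fin_of_spec_val H28.spec_val

/-- **Item 62**: trace and determinant of Frobenius on `E[p]`. -/
theorem stmt_main : Stmt_main := main_of_spec_val H28.spec_val

end Fermat.Agent.Lib.EllFinite
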