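/-
Item 62 (helper7), version for ALL torsion levels (needed for the Tate module, Stmt_Tate T3c):
`stmt_FINCORE2`: over an algebraically closed `k ⊇ ZMod ℓ` there is `t : ℤ` with
`φ² - tφ + ℓ = 0` on `E(k)`, `1 - t + ℓ = #E(ZMod ℓ)`, `t² < 4ℓ`, and
`n² ∣ c² - t c + ℓ` whenever `φ = c` on `E[n](k)`, for every `n` prime to `ℓ`.
-/
import Fermat.Agent.Lib.EllFinite.Main

set_option autoImplicit false

namespace Fermat.Agent.Lib.EllFinite

open WeierstrassCurve WeierstrassCurve.Affine Polynomial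

/-- (FINCORE2) -/
def Stmt_FINCORE2 : Prop :=
  ∀ (ℓ : ℕ) [Fact ℓ.Prime] (W : WeierstrassCurve (ZMod ℓ)), W.Δ ≠ 0 →
  ∀ (k : Type) [Field k] [IsAlgClosed k] [DecidableEq k] [Algebra (ZMod ℓ) k],
    ∃ t : ℤ,
      (∀ P : (W.toAffine⁄k).Point,
        frobPt ℓ W k (frobPt ℓ W k P) - t • frobPt ℓ W k P + (ℓ : ℤ) • P = 0) ∧
      (1 - t + (ℓ : ℤ) = (W.card : ℤ)) ∧
      (t ^ 2 < 4 * (ℓ : ℤ)) ∧
      ∀ (n : ℕ), ((n : ℕ) : k) ≠ 0 → ∀ c : ℤ,
        (∀ P : (W.toAffine⁄k).Point, (n : ℤ) • P = 0 → frobPt ℓ W k P = c • P) →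
        (n : ℤ) ^ 2 ∣ c ^ 2 - t * c + ℓ

theorem stmt_FINCORE2 : Stmt_FINCORE2 := by
  intro ℓ _ W hΔ k _ _ _ _
  have hSEP := stmt_SEP
  obtain ⟨t, hrelgen, hform⟩ := H80.stmt_TGEN ℓ W hΔ k
  have hℓ : ℓ.Prime := Fact.out
  have hchar : CharP k ℓ := (Algebra.charP_iff (ZMod ℓ) k ℓ).mp inferInstance
  have hinj : Function.Injective (algebraMap (ZMod ℓ) k) := (algebraMap (ZMod ℓ) k).injective
  have hnn : ∀ m n : ℤ, 0 ≤ m ^ 2 + t * m * n + ℓ * n ^ 2 := fun m n => by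
    rw [← (hform m n).2]; exact Int.natCast_nonneg _
  have hpos : 0 < 1 - t + (ℓ : ℤ) := H7.hasse_pos ℓ hℓ.two_le t hnn
  refine ⟨t, ?_, ?_, ?_, ?_⟩
  · intro P
    have h1 := H80.stmt_SPEC_rel ℓ W hΔ k (ℓ : ℤ) (-t) 1 (by
      rw [one_smul, neg_smul]
      rw [← hrelgen]
      abel) P
    rw [one_smul, neg_smul] at h1
    rw [← h1]
    abel
  · have hht := (hform 1 (-1)).2
    have hht' : (0 : ℤ) < (ht W k ((1 : ℤ) • gen W k + (-1 : ℤ) • frobPt ℓ W (KE W k) (gen W k)) : ℤ) := by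
      rw [hht]; linarith
    obtain ⟨r, y, h, hQ, hrd, hnc⟩ := H7.exists_rep_of_ht_pos W k
      ((1 : ℤ) • gen W k + (-1 : ℤ) • frobPt ℓ W (KE W k) (gen W k)) (Int.natCast_pos.mp hht')
    obtain ⟨e, he, hcard⟩ := stmt_CNT ℓ W hΔ k 1 (-1) r y h hQ hnc
    have hQ' : gen W k - frobPt ℓ W (KE W k) (gen W k) = Point.some (ratEmb W k r) y h := by
      rw [← hQ, one_smul, neg_smul, one_smul, sub_eq_add_neg]
    have he0 : e = 0 := he (hSEP ℓ W hΔ k r y h hQ')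
    rw [he0, pow_zero, mul_one] at hcard
    have hfix := H90.stmt_FIX ℓ W hΔ k
    have hcongr : Nat.card {P : (W.toAffine⁄k).Point // (1 : ℤ) • P + (-1 : ℤ) • frobPt ℓ W k P = 0}
        = Nat.card {P : (W.toAffine⁄k).Point // frobPt ℓ W k P = P} := by
      apply Nat.card_congr
      apply Equiv.subtypeEquivRight
      intro P
      rw [one_smul, neg_smul, one_smul, ← sub_eq_add_neg, sub_eq_zero]
      exact eq_comm
    rw [← hfix, ← hcongr, hcard, hrd, hht]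
    ring
  · have h := H7.form_pos ℓ hℓ t hnn (-t) 2 (Or.inr two_ne_zero)
    nlinarith
  · intro n hnk c hc'
    have hht := (hform c (-1)).2
    have hval : c ^ 2 + t * c * (-1) + (ℓ : ℤ) * (-1) ^ 2 = c ^ 2 - t * c + ℓ := by ring
    rw [hval] at hht
    rw [← hht]
    rcases Nat.eq_zero_or_pos (ht W k (c • gen W k + (-1 : ℤ) • frobPt ℓ W (KE W k) (gen W k)))
      with h0 | hpos'
    · rw [h0]; simp
    obtain ⟨r, y, h, hQ, hrd, hnc⟩ := H7.exists_rep_of_ht_pos W k _ hpos'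
    obtain ⟨e, -, hcard⟩ := stmt_CNT ℓ W hΔ k c (-1) r y h hQ hnc
    rw [← hrd, ← hcard]
    push_cast
    apply Dvd.dvd.mul_right
    let α : (W.toAffine⁄k).Point →+ (W.toAffine⁄k).Point :=
      c • AddMonoidHom.id _ + (-1 : ℤ) • frobPt ℓ W k
    have hker : Nat.card {P : (W.toAffine⁄k).Point // c • P + (-1 : ℤ) • frobPt ℓ W k P = 0}
        = Nat.card α.ker := by
      apply Nat.card_congr
      apply Equiv.subtypeEquivRight
      intro P
      rw [AddMonoidHom.mem_ker]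
      rfl
    have hΔk : (W.toAffine⁄k).Δ ≠ 0 := H46.baseChange_Δ_ne_zero W.toAffine hinj hΔ
    have hcardp := H46.natCard_torsionBy (K := k) W.toAffine hΔk hnk
    have hle : (Submodule.torsionBy ℤ (W.toAffine⁄k).Point n).toAddSubgroup ≤ α.ker := by
      intro P hP
      rw [AddMonoidHom.mem_ker]
      have hP' : (n : ℤ) • P = 0 := by
        have := (Submodule.mem_torsionBy_iff _ _).mp hP
        exact_mod_cast this
      show c • P + (-1 : ℤ) • frobPt ℓ W k P = 0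
      rw [hc' P hP']
      simp
    have hdvd := AddSubgroup.card_dvd_of_le hle
    have hcardp' : Nat.card (Submodule.torsionBy ℤ (W.toAffine⁄k).Point n).toAddSubgroup = n ^ 2 :=
      hcardp
    rw [hcardp'] at hdvd
    rw [hker]
    exact_mod_cast hdvd

end Fermat.Agent.Lib.EllFinite
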