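/-
Item 62 (Lib/EllFinite), package RED, part 3 (helper4): cast-free interface to the reduction
homomorphism.  `IsRedOf A V Vk` says that the curve `V` over `F` has coefficients in the valuation
subring `A` and that `Vk` (over the residue field) is its reduction.

* `redOf h hΔ : V.Point →+ Vk.Point`
* `redOf_some_coe`, `redOf_some_of_le`, `redOf_some_of_lt`, `redOf_eq_zero_iff`
* `isRedOf_map` : `W` over a base ring `R`, `f : R →+* A` ⇒
  `IsRedOf A (W.map (algebraMap A F ∘ f)) (W.map (residue A ∘ f))`.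
* `redOf_equivariant` : `redOf` commutes with coordinatewise maps `σ` on `F`, `τ` on the residue
  field which are compatible with `A` and the residue map (e.g. Frobenius: `redOf_pow_equivariant`).
-/
import Fermat.Agent.Lib.EllFinite.H4_Red

set_option autoImplicit false
set_option linter.unusedSectionVars false

namespace Fermat.Agent.Lib.EllFinite.H4

open WeierstrassCurve WeierstrassCurve.Affine IsLocalRing

variable {F : Type*} [Field F] {A : ValuationSubring F}

/-- `V` has coefficients in `A` and `Vk` is its reduction. -/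
def IsRedOf (A : ValuationSubring F) (V : Affine F) (Vk : Affine (ResidueField A)) : Prop :=
  ∃ W : WeierstrassCurve A, EF A W = V ∧ Ek A W = Vk

lemma isRedOf_self (W : WeierstrassCurve A) : IsRedOf A (EF A W) (Ek A W) := ⟨W, rfl, rfl⟩

variable {V : Affine F} {Vk : Affine (ResidueField A)}

lemma IsRedOf.intCoeff (h : IsRedOf A V Vk) : IntCoeff A V := by
  obtain ⟨W, rfl, rfl⟩ := h
  exact intCoeff_EF A W

lemma IsRedOf.val_y_le_one (h : IsRedOf A V Vk) {x y : F} (hxy : V.Nonsingular x y)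
    (hx : A.valuation x ≤ 1) : A.valuation y ≤ 1 :=
  H4.val_y_le_one h.intCoeff hxy.1 hx

lemma IsRedOf.nonsingular_res (h : IsRedOf A V Vk) (hΔ : Vk.Δ ≠ 0) {a b : A}
    (hxy : V.Nonsingular (a : F) (b : F)) : Vk.Nonsingular (residue A a) (residue A b) := by
  obtain ⟨W, rfl, rfl⟩ := h
  exact H4.nonsingular_res hΔ hxy.1

variable [DecidableEq F] [DecidableEq (ResidueField A)]

/-- The reduction map, as a function (cast-free version). -/
noncomputable def redOfFun (h : IsRedOf A V Vk) (hΔ : Vk.Δ ≠ 0) : V.Point → Vk.Point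
  | .zero => 0
  | .some x y hxy =>
    if hx : A.valuation x ≤ 1 then
      .some (residue A ⟨x, (A.valuation_le_one_iff x).1 hx⟩)
        (residue A ⟨y, (A.valuation_le_one_iff y).1 (h.val_y_le_one hxy hx)⟩)
        (h.nonsingular_res hΔ (a := ⟨x, (A.valuation_le_one_iff x).1 hx⟩)
          (b := ⟨y, (A.valuation_le_one_iff y).1 (h.val_y_le_one hxy hx)⟩) hxy)
    else 0

lemma redOfFun_eq_redFun (W : WeierstrassCurve A) (hΔ : (Ek A W).Δ ≠ 0) :
    redOfFun (isRedOf_self W) hΔ = redFun A W hΔ := by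
  funext P
  rcases P with _ | ⟨x, y, hxy⟩
  · rfl
  · by_cases hx : A.valuation x ≤ 1
    · simp only [redOfFun, redFun, dif_pos hx]
    · simp only [redOfFun, redFun, dif_neg hx]

lemma redOfFun_add (h : IsRedOf A V Vk) (hΔ : Vk.Δ ≠ 0) (P Q : V.Point) :
    redOfFun h hΔ (P + Q) = redOfFun h hΔ P + redOfFun h hΔ Q := by
  obtain ⟨W, rfl, rfl⟩ := h
  have := redOfFun_eq_redFun W hΔ
  change redOfFun (isRedOf_self W) hΔ (P + Q) =
    redOfFun (isRedOf_self W) hΔ P + redOfFun (isRedOf_self W) hΔ Q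
  rw [this]
  exact redFun_add hΔ P Q

/-- **The reduction homomorphism** (cast-free version). -/
noncomputable def redOf (h : IsRedOf A V Vk) (hΔ : Vk.Δ ≠ 0) : V.Point →+ Vk.Point where
  toFun := redOfFun h hΔ
  map_zero' := rfl
  map_add' := redOfFun_add h hΔ

variable (h : IsRedOf A V Vk) (hΔ : Vk.Δ ≠ 0)

lemma redOf_apply (P : V.Point) : redOf h hΔ P = redOfFun h hΔ P := rfl

lemma redOf_some_of_le {x y : F} (hxy : V.Nonsingular x y) (hx : A.valuation x ≤ 1) :
    redOf h hΔ (.some x y hxy) =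
      .some (residue A ⟨x, (A.valuation_le_one_iff x).1 hx⟩)
        (residue A ⟨y, (A.valuation_le_one_iff y).1 (h.val_y_le_one hxy hx)⟩)
        (h.nonsingular_res hΔ (a := ⟨x, (A.valuation_le_one_iff x).1 hx⟩)
          (b := ⟨y, (A.valuation_le_one_iff y).1 (h.val_y_le_one hxy hx)⟩) hxy) := by
  rw [redOf_apply]
  simp only [redOfFun, dif_pos hx]

lemma redOf_some_coe (a b : A) (hxy : V.Nonsingular (a : F) (b : F)) :
    redOf h hΔ (.some (a : F) (b : F) hxy) =
      .some (residue A a) (residue A b) (h.nonsingular_res hΔ hxy) :=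
  redOf_some_of_le h hΔ hxy (A.valuation_le_one a)

lemma redOf_some_of_lt {x y : F} (hxy : V.Nonsingular x y) (hx : 1 < A.valuation x) :
    redOf h hΔ (.some x y hxy) = 0 := by
  rw [redOf_apply]
  simp only [redOfFun, dif_neg (not_le.2 hx)]

/-- The kernel of reduction. -/
theorem redOf_eq_zero_iff (P : V.Point) :
    redOf h hΔ P = 0 ↔ P = 0 ∨ ∃ x y hxy, P = .some x y hxy ∧ 1 < A.valuation x := by
  rcases P with _ | ⟨x, y, hxy⟩
  · exact ⟨fun _ => Or.inl rfl, fun _ => rfl⟩
  · constructor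
    · intro h0
      right
      refine ⟨x, y, hxy, rfl, ?_⟩
      by_contra hx
      rw [redOf_some_of_le h hΔ hxy (not_lt.1 hx)] at h0
      exact Point.some_ne_zero _ h0
    · rintro (h0 | ⟨x', y', h', e, hx⟩)
      · exact absurd h0 (Point.some_ne_zero _)
      · rw [e]; exact redOf_some_of_lt h hΔ h' hx

/-- A point with integral `x`-coordinate is not in the kernel of reduction. -/
theorem redOf_ne_zero_of_le {x y : F} (hxy : V.Nonsingular x y) (hx : A.valuation x ≤ 1) :
    redOf h hΔ (.some x y hxy) ≠ 0 := by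
  rw [redOf_some_of_le h hΔ hxy hx]
  exact Point.some_ne_zero _

omit [DecidableEq F] [DecidableEq (ResidueField A)] in
/-- Curves coming from a base ring mapping to `A`. -/
lemma isRedOf_map {R : Type*} [CommRing R] (W : WeierstrassCurve R) (f : R →+* A) :
    IsRedOf A (W.map ((algebraMap A F).comp f)).toAffine
      (W.map ((residue A).comp f)).toAffine :=
  ⟨W.map f, by rw [EF, WeierstrassCurve.map_map], by rw [Ek, WeierstrassCurve.map_map]⟩

/-- **Equivariance of reduction**: if `fσ`, `fτ` are maps on points acting on coordinates by `σ`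
and `τ`, `σ` preserves integrality and non-integrality, and `τ` is induced by `σ` on the residue
field, then `redOf ∘ fσ = fτ ∘ redOf`. -/
theorem redOf_equivariant (σ : F → F) (τ : ResidueField A → ResidueField A)
    (fσ : V.Point → V.Point) (fτ : Vk.Point → Vk.Point)
    (hσ0 : fσ 0 = 0) (hτ0 : fτ 0 = 0)
    (hσ : ∀ x y (hxy : V.Nonsingular x y), ∃ h', fσ (.some x y hxy) = .some (σ x) (σ y) h')
    (hτ : ∀ x y (hxy : Vk.Nonsingular x y), ∃ h', fτ (.some x y hxy) = .some (τ x) (τ y) h')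
    (hv : ∀ x, A.valuation (σ x) ≤ 1 ↔ A.valuation x ≤ 1)
    (hres : ∀ (a : A) (ha : σ (a : F) ∈ A), residue A ⟨σ (a : F), ha⟩ = τ (residue A a))
    (P : V.Point) : redOf h hΔ (fσ P) = fτ (redOf h hΔ P) := by
  rcases P with _ | ⟨x, y, hxy⟩
  · change redOf h hΔ (fσ 0) = fτ (redOf h hΔ 0)
    rw [hσ0, map_zero, hτ0]
  · obtain ⟨h', e'⟩ := hσ x y hxy
    rw [e']
    by_cases hx : A.valuation x ≤ 1
    · rw [redOf_some_of_le h hΔ hxy hx, redOf_some_of_le h hΔ h' ((hv x).2 hx)]
      obtain ⟨h'', e''⟩ := hτ _ _ (h.nonsingular_res hΔ (a := ⟨x, (A.valuation_le_one_iff x).1 hx⟩)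
          (b := ⟨y, (A.valuation_le_one_iff y).1 (h.val_y_le_one hxy hx)⟩) hxy)
      rw [e'']
      exact some_eq_some _ _ (hres ⟨x, _⟩ _) (hres ⟨y, _⟩ _)
    · have hx' : ¬ A.valuation (σ x) ≤ 1 := fun hc => hx ((hv x).1 hc)
      rw [redOf_some_of_lt h hΔ hxy (not_le.1 hx), redOf_some_of_lt h hΔ h' (not_le.1 hx'), hτ0]

/-- Equivariance of reduction for a power map (Frobenius). -/
theorem redOf_pow_equivariant (n : ℕ) (hn : n ≠ 0)
    (fσ : V.Point → V.Point) (fτ : Vk.Point → Vk.Point)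
    (hσ0 : fσ 0 = 0) (hτ0 : fτ 0 = 0)
    (hσ : ∀ x y (hxy : V.Nonsingular x y), ∃ h', fσ (.some x y hxy) = .some (x ^ n) (y ^ n) h')
    (hτ : ∀ x y (hxy : Vk.Nonsingular x y), ∃ h', fτ (.some x y hxy) = .some (x ^ n) (y ^ n) h')
    (P : V.Point) : redOf h hΔ (fσ P) = fτ (redOf h hΔ P) := by
  refine redOf_equivariant h hΔ (fun x => x ^ n) (fun x => x ^ n) fσ fτ hσ0 hτ0 hσ hτ ?_ ?_ P
  · intro x
    rw [map_pow]
    exact pow_le_one_iff hn
  · intro a ha
    rw [← map_pow]
    rfl

end Fermat.Agent.Lib.EllFinite.H4
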