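/-
Item 62 (Lib/EllFinite), helper28: LOCAL laws over a valued field with good reduction.

`(F, v)` a valued field (any `Valuation F Γ₀`), `W` a Weierstrass curve over `F` with `v aᵢ ≤ 1`
and `v Δ = 1`.  With `Λ x = max 1 (v x)`:

* `bez`  : `U(x) ψ₂²(x) + V(x) Φ₂(x) = Δ` with integral polynomial coefficients (any ring);
* `ldl`  : `r ψ₂²(x) = Φ₂(x)  ⊢  Λ r * v (ψ₂²(x)) = Λ x ^ 4`          (local duplication law);
* `lpl`  : `(r₊ - t)(r₋ - t)(x₁ - x₂)² = symF x₁ x₂ t` for all `t`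
            `⊢  Λ r₊ * Λ r₋ * v (x₁ - x₂) ^ 2 = Λ x₁ ^ 2 * Λ x₂ ^ 2`   (local parallelogram law).

These are x-only statements; `H11.addX_rel`, `H11.addX_dup` apply them to `x(P ± Q)`, `x(2P)`.
-/
import Mathlib.RingTheory.Valuation.Integers
import Fermat.Agent.Lib.Torsion.H11_XOnly

set_option autoImplicit false

namespace Fermat.Agent.Lib.EllFinite.H28

open WeierstrassCurve
open Fermat.Agent.Lib.Torsion.H11

/-! ### The Bezout identity for the duplication formula -/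

section bez

variable {R : Type*} [Field R] (W : Affine R)

/-- `U(x) ψ₂²(x) + V(x) Φ₂(x) = Δ`, integer coefficients, all characteristics. -/
theorem bez (x : R) :
    (12 * x ^ 3 - W.b₂ * x ^ 2 - 10 * W.b₄ * x + W.b₂ * W.b₄ - 27 * W.b₆) * psi2sq W x +
      (-48 * x ^ 2 - 8 * W.b₂ * x + W.b₂ ^ 2 - 32 * W.b₄) * phi2 W x = W.Δ := by
  simp only [psi2sq, phi2, WeierstrassCurve.Δ, WeierstrassCurve.b₂, WeierstrassCurve.b₄,
    WeierstrassCurve.b₆, WeierstrassCurve.b₈]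
  ring

end bez

variable {F : Type*} [Field F] {Γ₀ : Type*} [LinearOrderedCommGroupWithZero Γ₀]
variable (v : Valuation F Γ₀)

/-- `Λ x = max 1 (v x)`. -/
def lam (x : F) : Γ₀ := max 1 (v x)

lemma one_le_lam (x : F) : 1 ≤ lam v x := le_max_left _ _

lemma le_lam (x : F) : v x ≤ lam v x := le_max_right _ _

lemma lam_eq_one {x : F} (h : v x ≤ 1) : lam v x = 1 := max_eq_left h

lemma lam_eq_self {x : F} (h : 1 ≤ v x) : lam v x = v x := max_eq_right h

/-- Gauss's lemma for two roots. -/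
theorem gauss2 (r s : F) :
    lam v r * lam v s = max 1 (max (v (r + s)) (v (r * s))) := by
  rcases le_or_gt (v r) 1 with hr | hr <;> rcases le_or_gt (v s) 1 with hs | hs
  · rw [lam_eq_one v hr, lam_eq_one v hs, one_mul]
    symm
    apply max_eq_left
    apply max_le
    · exact v.map_add_le hr hs
    · rw [v.map_mul]; exact mul_le_one' hr hs
  · rw [lam_eq_one v hr, lam_eq_self v hs.le, one_mul]
    have h1 : v (r + s) = v s := v.map_add_eq_of_lt_right (lt_of_le_of_lt hr hs)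
    have h2 : v (r * s) ≤ v s := by
      rw [v.map_mul]; exact mul_le_of_le_one_left' hr
    rw [h1, max_eq_left h2, max_eq_right hs.le]
  · rw [lam_eq_self v hr.le, lam_eq_one v hs, mul_one]
    have h1 : v (r + s) = v r := v.map_add_eq_of_lt_left (lt_of_le_of_lt hs hr)
    have h2 : v (r * s) ≤ v r := by
      rw [v.map_mul]; exact mul_le_of_le_one_right' hs
    rw [h1, max_eq_left h2, max_eq_right hr.le]
  · rw [lam_eq_self v hr.le, lam_eq_self v hs.le]
    have h2 : v (r * s) = v r * v s := v.map_mul r s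
    have hr0 : v r ≤ v r * v s := le_mul_of_one_le_right' hs.le
    have hs0 : v s ≤ v r * v s := le_mul_of_one_le_left' hr.le
    have h1 : v (r + s) ≤ v r * v s := v.map_add_le hr0 hs0
    have h3 : (1 : Γ₀) ≤ v r * v s := le_trans hr.le hr0
    rw [h2, max_eq_right h1, max_eq_right h3]


lemma max_mul' (a b c : Γ₀) : max a b * c = max (a * c) (b * c) := by
  rcases le_total a b with h | h
  · rw [max_eq_right h, max_eq_right (mul_le_mul_left h c)]
  · rw [max_eq_left h, max_eq_left (mul_le_mul_left h c)]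

/-- Integral model with good reduction at `v`. -/
structure GoodRed (W : Affine F) : Prop where
  a₁ : v W.a₁ ≤ 1
  a₂ : v W.a₂ ≤ 1
  a₃ : v W.a₃ ≤ 1
  a₄ : v W.a₄ ≤ 1
  a₆ : v W.a₆ ≤ 1
  Δ : v W.Δ = 1

section integrality

variable {v} {W : Affine F} (hW : GoodRed v W)
include hW

lemma GoodRed.mem_a₁ : W.a₁ ∈ v.integer := hW.a₁
lemma GoodRed.mem_a₂ : W.a₂ ∈ v.integer := hW.a₂
lemma GoodRed.mem_a₃ : W.a₃ ∈ v.integer := hW.a₃
lemma GoodRed.mem_a₄ : W.a₄ ∈ v.integer := hW.a₄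
lemma GoodRed.mem_a₆ : W.a₆ ∈ v.integer := hW.a₆

lemma GoodRed.mem_b₂ : W.b₂ ∈ v.integer := by
  have h1 := hW.mem_a₁; have h2 := hW.mem_a₂
  simp only [WeierstrassCurve.b₂]
  exact add_mem (pow_mem h1 2) (mul_mem (ofNat_mem _ 4) h2)

lemma GoodRed.mem_b₄ : W.b₄ ∈ v.integer := by
  have h1 := hW.mem_a₁; have h3 := hW.mem_a₃; have h4 := hW.mem_a₄
  simp only [WeierstrassCurve.b₄]
  exact add_mem (mul_mem (ofNat_mem _ 2) h4) (mul_mem h1 h3)

lemma GoodRed.mem_b₆ : W.b₆ ∈ v.integer := by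
  have h3 := hW.mem_a₃; have h6 := hW.mem_a₆
  simp only [WeierstrassCurve.b₆]
  exact add_mem (pow_mem h3 2) (mul_mem (ofNat_mem _ 4) h6)

lemma GoodRed.mem_b₈ : W.b₈ ∈ v.integer := by
  have h1 := hW.mem_a₁; have h2 := hW.mem_a₂; have h3 := hW.mem_a₃
  have h4 := hW.mem_a₄; have h6 := hW.mem_a₆
  simp only [WeierstrassCurve.b₈]
  exact sub_mem (add_mem (sub_mem (add_mem (mul_mem (pow_mem h1 2) h6)
    (mul_mem (mul_mem (ofNat_mem _ 4) h2) h6)) (mul_mem (mul_mem h1 h3) h4))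
    (mul_mem h2 (pow_mem h3 2))) (pow_mem h4 2)

lemma GoodRed.b₂ : v W.b₂ ≤ 1 := hW.mem_b₂
lemma GoodRed.b₄ : v W.b₄ ≤ 1 := hW.mem_b₄
lemma GoodRed.b₆ : v W.b₆ ≤ 1 := hW.mem_b₆
lemma GoodRed.b₈ : v W.b₈ ≤ 1 := hW.mem_b₈

end integrality

lemma v_ofNat_le_one (n : ℕ) [n.AtLeastTwo] : v (OfNat.ofNat n : F) ≤ 1 :=
  (ofNat_mem v.integer n : (OfNat.ofNat n : F) ∈ v.integer)


/-! ### The coefficients of `symF` as a quadratic in `t` -/

/-- Linear coefficient: `(x₁ - x₂)² (r₊ + r₋)`. -/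
def cA (W : Affine F) (u w : F) : F :=
  2 * u * w * (u + w) + W.b₂ * u * w + W.b₄ * (u + w) + W.b₆

/-- Constant coefficient: `(x₁ - x₂)² r₊ r₋`. -/
def cB (W : Affine F) (u w : F) : F :=
  u ^ 2 * w ^ 2 - W.b₄ * u * w - W.b₆ * (u + w) - W.b₈

lemma symF_eq (W : Affine F) (u w t : F) :
    symF W u w t = (u - w) ^ 2 * t ^ 2 - cA W u w * t + cB W u w := by
  unfold symF cA cB; ring

lemma cA_comm (W : Affine F) (u w : F) : cA W u w = cA W w u := by unfold cA; ring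

lemma cB_comm (W : Affine F) (u w : F) : cB W u w = cB W w u := by unfold cB; ring

section bounds

variable {v} {W : Affine F}

lemma pow_le_lam_sq (u : F) {i : ℕ} (hi : i ≤ 2) : v u ^ i ≤ lam v u ^ 2 :=
  (pow_le_pow_left₀ zero_le (le_lam v u) i).trans (pow_le_pow_right₀ (one_le_lam v u) hi)

lemma mono_le {c : F} (hc : v c ≤ 1) (u w : F) {i j : ℕ} (hi : i ≤ 2) (hj : j ≤ 2) :
    v (c * u ^ i * w ^ j) ≤ lam v u ^ 2 * lam v w ^ 2 := by
  rw [v.map_mul, v.map_mul, v.map_pow, v.map_pow]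
  calc v c * v u ^ i * v w ^ j ≤ 1 * lam v u ^ 2 * lam v w ^ 2 :=
        mul_le_mul' (mul_le_mul' hc (pow_le_lam_sq u hi)) (pow_le_lam_sq w hj)
    _ = _ := by rw [one_mul]

lemma v_neg_le {x : F} {g : Γ₀} (h : v x ≤ g) : v (-x) ≤ g := by rwa [v.map_neg]

lemma v_cC_le (u w : F) : v ((u - w) ^ 2) ≤ lam v u ^ 2 * lam v w ^ 2 := by
  have e : (u - w) ^ 2 = 1 * u ^ 2 * w ^ 0 + -(2 * u ^ 1 * w ^ 1) + 1 * u ^ 0 * w ^ 2 := by ring
  rw [e]
  refine v.map_add_le (v.map_add_le ?_ (v_neg_le ?_)) ?_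
  · exact mono_le (by rw [v.map_one]) u w le_rfl (by norm_num)
  · exact mono_le (v_ofNat_le_one v 2) u w (by norm_num) (by norm_num)
  · exact mono_le (by rw [v.map_one]) u w (by norm_num) le_rfl

variable (hW : GoodRed v W)
include hW

lemma v_cA_le (u w : F) : v (cA W u w) ≤ lam v u ^ 2 * lam v w ^ 2 := by
  have e : cA W u w = 2 * u ^ 2 * w ^ 1 + 2 * u ^ 1 * w ^ 2 + W.b₂ * u ^ 1 * w ^ 1 +
      W.b₄ * u ^ 1 * w ^ 0 + W.b₄ * u ^ 0 * w ^ 1 + W.b₆ * u ^ 0 * w ^ 0 := by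
    unfold cA; ring
  rw [e]
  refine v.map_add_le (v.map_add_le (v.map_add_le (v.map_add_le (v.map_add_le ?_ ?_) ?_) ?_) ?_) ?_
  · exact mono_le (v_ofNat_le_one v 2) u w le_rfl (by norm_num)
  · exact mono_le (v_ofNat_le_one v 2) u w (by norm_num) le_rfl
  · exact mono_le hW.b₂ u w (by norm_num) (by norm_num)
  · exact mono_le hW.b₄ u w (by norm_num) (by norm_num)
  · exact mono_le hW.b₄ u w (by norm_num) (by norm_num)
  · exact mono_le hW.b₆ u w (by norm_num) (by norm_num)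

lemma v_cB_le (u w : F) : v (cB W u w) ≤ lam v u ^ 2 * lam v w ^ 2 := by
  have e : cB W u w = 1 * u ^ 2 * w ^ 2 + -(W.b₄ * u ^ 1 * w ^ 1) + -(W.b₆ * u ^ 1 * w ^ 0) +
      -(W.b₆ * u ^ 0 * w ^ 1) + -(W.b₈ * u ^ 0 * w ^ 0) := by
    unfold cB; ring
  rw [e]
  refine v.map_add_le (v.map_add_le (v.map_add_le (v.map_add_le ?_ (v_neg_le ?_)) (v_neg_le ?_))
    (v_neg_le ?_)) (v_neg_le ?_)
  · exact mono_le (by rw [v.map_one]) u w le_rfl le_rfl
  · exact mono_le hW.b₄ u w (by norm_num) (by norm_num)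
  · exact mono_le hW.b₆ u w (by norm_num) (by norm_num)
  · exact mono_le hW.b₆ u w (by norm_num) (by norm_num)
  · exact mono_le hW.b₈ u w (by norm_num) (by norm_num)

end bounds


section lower

variable {v} {W : Affine F} (hW : GoodRed v W)
include hW

/-- `max (v ψ₂²(x)) (v Φ₂(x)) ≥ 1` at integral `x` (Bezout). -/
lemma one_le_max_psi_phi {w : F} (hw : v w ≤ 1) :
    1 ≤ max (v (psi2sq W w)) (v (phi2 W w)) := by
  by_contra hcon
  rw [not_le, max_lt_iff] at hcon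
  obtain ⟨h1, h2⟩ := hcon
  have hw' : w ∈ v.integer := hw
  have hb2 := hW.mem_b₂; have hb4 := hW.mem_b₄; have hb6 := hW.mem_b₆
  have hU : (12 * w ^ 3 - W.b₂ * w ^ 2 - 10 * W.b₄ * w + W.b₂ * W.b₄ - 27 * W.b₆) ∈
      v.integer :=
    sub_mem (add_mem (sub_mem (sub_mem (mul_mem (ofNat_mem _ 12) (pow_mem hw' 3))
      (mul_mem hb2 (pow_mem hw' 2))) (mul_mem (mul_mem (ofNat_mem _ 10) hb4) hw'))
      (mul_mem hb2 hb4)) (mul_mem (ofNat_mem _ 27) hb6)
  have hV : (-48 * w ^ 2 - 8 * W.b₂ * w + W.b₂ ^ 2 - 32 * W.b₄) ∈ v.integer :=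
    sub_mem (add_mem (sub_mem (mul_mem (neg_mem (ofNat_mem _ 48)) (pow_mem hw' 2))
      (mul_mem (mul_mem (ofNat_mem _ 8) hb2) hw')) (pow_mem hb2 2))
      (mul_mem (ofNat_mem _ 32) hb4)
  have hΔ := bez W w
  have : v W.Δ < 1 := by
    rw [← hΔ]
    refine v.map_add_lt ?_ ?_
    · rw [v.map_mul]
      exact lt_of_le_of_lt (mul_le_of_le_one_left' hU) h1
    · rw [v.map_mul]
      exact lt_of_le_of_lt (mul_le_of_le_one_left' hV) h2
  exact absurd hW.Δ (ne_of_lt this)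

/-- On the integral locus, the three coefficients of `symF` are not all in the maximal ideal. -/
lemma one_le_max_of_le_one {u w : F} (hu : v u ≤ 1) (hw : v w ≤ 1) :
    1 ≤ max (v ((u - w) ^ 2)) (max (v (cA W u w)) (v (cB W u w))) := by
  by_contra hcon
  rw [not_le, max_lt_iff, max_lt_iff] at hcon
  obtain ⟨hC, hA, hB⟩ := hcon
  have hd : v (u - w) < 1 := by
    by_contra h
    rw [not_lt] at h
    rw [v.map_pow] at hC
    exact absurd hC (not_lt.mpr (one_le_pow₀ h))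
  have hu' : u ∈ v.integer := hu
  have hw' : w ∈ v.integer := hw
  have hb2 := hW.mem_b₂; have hb4 := hW.mem_b₄; have hb6 := hW.mem_b₆
  have hA' : (2 * w * (u + 2 * w) + W.b₂ * w + W.b₄) ∈ v.integer :=
    add_mem (add_mem (mul_mem (mul_mem (ofNat_mem _ 2) hw')
      (add_mem hu' (mul_mem (ofNat_mem _ 2) hw'))) (mul_mem hb2 hw')) hb4
  have hB' : (w ^ 2 * (u + w) - W.b₄ * w - W.b₆) ∈ v.integer :=
    sub_mem (sub_mem (mul_mem (pow_mem hw' 2) (add_mem hu' hw')) (mul_mem hb4 hw')) hb6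
  have hpsi : psi2sq W w = cA W u w - (u - w) * (2 * w * (u + 2 * w) + W.b₂ * w + W.b₄) := by
    unfold psi2sq cA; ring
  have hphi : phi2 W w = cB W u w - (u - w) * (w ^ 2 * (u + w) - W.b₄ * w - W.b₆) := by
    unfold phi2 cB; ring
  have h1 : v (psi2sq W w) < 1 := by
    rw [hpsi]
    refine v.map_sub_lt hA ?_
    rw [v.map_mul]
    exact lt_of_le_of_lt (mul_le_of_le_one_right' hA') hd
  have h2 : v (phi2 W w) < 1 := by
    rw [hphi]
    refine v.map_sub_lt hB ?_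
    rw [v.map_mul]
    exact lt_of_le_of_lt (mul_le_of_le_one_right' hB') hd
  exact absurd (one_le_max_psi_phi hW hw) (not_le.mpr (max_lt h1 h2))

omit hW in
lemma v_sub_eq_of_lt {u w : F} (h : v w < v u) : v (u - w) = v u := by
  rw [sub_eq_add_neg]
  exact v.map_add_eq_of_lt_left (by rwa [v.map_neg])

omit hW in
lemma lt_sq_of_one_lt {x : Γ₀} (h : 1 < x) : x < x ^ 2 := by
  rw [pow_two]
  exact lt_mul_of_one_lt_right (lt_trans zero_lt_one h) h

/-- The key identity: the maximum of the valuations of the three coefficients of `symF`. -/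
theorem max_coeff (u w : F) :
    max (v ((u - w) ^ 2)) (max (v (cA W u w)) (v (cB W u w))) = lam v u ^ 2 * lam v w ^ 2 := by
  apply le_antisymm
  · exact max_le (v_cC_le u w) (max_le (v_cA_le hW u w) (v_cB_le hW u w))
  · rcases le_or_gt (v u) 1 with hu | hu <;> rcases le_or_gt (v w) 1 with hw | hw
    · rw [lam_eq_one v hu, lam_eq_one v hw, one_pow, one_mul]
      exact one_le_max_of_le_one hW hu hw
    · rw [lam_eq_one v hu, lam_eq_self v hw.le, one_pow, one_mul]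
      refine le_trans ?_ (le_max_left _ _)
      rw [v.map_pow, v.map_sub_swap, v_sub_eq_of_lt (lt_of_le_of_lt hu hw)]
    · rw [lam_eq_self v hu.le, lam_eq_one v hw, one_pow, mul_one]
      refine le_trans ?_ (le_max_left _ _)
      rw [v.map_pow, v_sub_eq_of_lt (lt_of_le_of_lt hw hu)]
    · rw [lam_eq_self v hu.le, lam_eq_self v hw.le]
      refine le_trans ?_ (le_trans (le_max_right _ _) (le_max_right _ _))
      have hx : 1 < v u * v w := one_lt_mul_of_lt_of_le hu hw.le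
      have hxx : v u * v w < (v u * v w) ^ 2 := lt_sq_of_one_lt hx
      have e : cB W u w = u ^ 2 * w ^ 2 +
          (-(W.b₄ * (u * w)) + -(W.b₆ * (u + w)) + -W.b₈) := by unfold cB; ring
      have hmain : v (u ^ 2 * w ^ 2) = (v u * v w) ^ 2 := by
        rw [v.map_mul, v.map_pow, v.map_pow, mul_pow]
      have hrest : v (-(W.b₄ * (u * w)) + -(W.b₆ * (u + w)) + -W.b₈) < (v u * v w) ^ 2 := by
        refine v.map_add_lt (v.map_add_lt ?_ ?_) ?_
        · rw [v.map_neg, v.map_mul, v.map_mul]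
          exact lt_of_le_of_lt (mul_le_of_le_one_left' hW.b₄) hxx
        · rw [v.map_neg, v.map_mul]
          refine lt_of_le_of_lt (mul_le_of_le_one_left' hW.b₆) (lt_of_le_of_lt ?_ hxx)
          exact v.map_add_le (le_mul_of_one_le_right' hw.le) (le_mul_of_one_le_left' hu.le)
        · rw [v.map_neg]
          exact lt_of_le_of_lt hW.b₈ (lt_trans hx hxx)
      rw [e, v.map_add_eq_of_lt_left (by rw [hmain]; exact hrest), hmain, mul_pow]

/-- **Local parallelogram law** (sum/product form). -/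
theorem lpl_of_sum_prod {x₁ x₂ r₁ r₂ : F}
    (hsum : (r₁ + r₂) * (x₁ - x₂) ^ 2 = cA W x₁ x₂)
    (hprod : r₁ * r₂ * (x₁ - x₂) ^ 2 = cB W x₁ x₂) :
    lam v r₁ * lam v r₂ * v (x₁ - x₂) ^ 2 = lam v x₁ ^ 2 * lam v x₂ ^ 2 := by
  rw [gauss2, max_mul', max_mul', one_mul, ← v.map_pow, ← v.map_mul, ← v.map_mul, hsum, hprod]
  exact max_coeff hW x₁ x₂

/-- **Local parallelogram law**: if `r₁, r₂` are the roots of `symF W x₁ x₂`, i.e.
`(r₁ - t) (r₂ - t) (x₁ - x₂)² = symF W x₁ x₂ t` for all `t`, then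
`Λ r₁ · Λ r₂ · v (x₁ - x₂)² = (Λ x₁)² (Λ x₂)²`. -/
theorem lpl {x₁ x₂ r₁ r₂ : F}
    (h : ∀ t : F, (r₁ - t) * (r₂ - t) * (x₁ - x₂) ^ 2 = symF W x₁ x₂ t) :
    lam v r₁ * lam v r₂ * v (x₁ - x₂) ^ 2 = lam v x₁ ^ 2 * lam v x₂ ^ 2 := by
  have h0 := h 0
  have h1 := h 1
  rw [symF_eq] at h0 h1
  have hprod : r₁ * r₂ * (x₁ - x₂) ^ 2 = cB W x₁ x₂ := by linear_combination h0
  have hsum : (r₁ + r₂) * (x₁ - x₂) ^ 2 = cA W x₁ x₂ := by linear_combination h0 - h1
  exact lpl_of_sum_prod hW hsum hprod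

/-- `max (v ψ₂²(x)) (v Φ₂(x)) = (Λ x)⁴`. -/
theorem max_psi_phi (x : F) :
    max (v (psi2sq W x)) (v (phi2 W x)) = lam v x ^ 4 := by
  have hb2 := hW.b₂; have hb4 := hW.b₄; have hb6 := hW.b₆; have hb8 := hW.b₈
  rcases le_or_gt (v x) 1 with hx | hx
  · rw [lam_eq_one v hx, one_pow]
    apply le_antisymm _ (one_le_max_psi_phi hW hx)
    have hx' : x ∈ v.integer := hx
    have h1 : psi2sq W x ∈ v.integer := by
      unfold psi2sq
      exact add_mem (add_mem (add_mem (mul_mem (ofNat_mem _ 4) (pow_mem hx' 3))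
        (mul_mem hW.mem_b₂ (pow_mem hx' 2))) (mul_mem (mul_mem (ofNat_mem _ 2) hW.mem_b₄) hx'))
        hW.mem_b₆
    have h2 : phi2 W x ∈ v.integer := by
      unfold phi2
      exact sub_mem (sub_mem (sub_mem (pow_mem hx' 4) (mul_mem hW.mem_b₄ (pow_mem hx' 2)))
        (mul_mem (mul_mem (ofNat_mem _ 2) hW.mem_b₆) hx')) hW.mem_b₈
    exact max_le h1 h2
  · rw [lam_eq_self v hx.le]
    have hx0 : (0 : Γ₀) < v x := lt_trans zero_lt_one hx
    have hpow : ∀ {i : ℕ}, i ≤ 3 → v x ^ i < v x ^ 4 := fun {i} hi =>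
      pow_lt_pow_right₀ hx (by omega)
    have hphi : v (phi2 W x) = v x ^ 4 := by
      have e : phi2 W x = x ^ 4 + (-(W.b₄ * x ^ 2) + -(2 * W.b₆ * x ^ 1) + -(W.b₈ * x ^ 0)) := by
        unfold phi2; ring
      have hrest : v (-(W.b₄ * x ^ 2) + -(2 * W.b₆ * x ^ 1) + -(W.b₈ * x ^ 0)) < v x ^ 4 := by
        refine v.map_add_lt (v.map_add_lt ?_ ?_) ?_
        · rw [v.map_neg, v.map_mul, v.map_pow]
          exact lt_of_le_of_lt (mul_le_of_le_one_left' hb4) (hpow (by norm_num))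
        · rw [v.map_neg, v.map_mul, v.map_mul, v.map_pow]
          refine lt_of_le_of_lt (mul_le_of_le_one_left' ?_) (hpow (by norm_num))
          exact mul_le_one' (v_ofNat_le_one v 2) hb6
        · rw [v.map_neg, v.map_mul, v.map_pow]
          exact lt_of_le_of_lt (mul_le_of_le_one_left' hb8) (hpow (by norm_num))
      rw [e, v.map_add_eq_of_lt_left (by rw [v.map_pow]; exact hrest), v.map_pow]
    have hpsi : v (psi2sq W x) ≤ v x ^ 4 := by
      have e : psi2sq W x = 4 * x ^ 3 + W.b₂ * x ^ 2 + 2 * W.b₄ * x ^ 1 + W.b₆ * x ^ 0 := by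
        unfold psi2sq; ring
      rw [e]
      refine v.map_add_le (v.map_add_le (v.map_add_le ?_ ?_) ?_) ?_
      · rw [v.map_mul, v.map_pow]
        exact le_trans (mul_le_of_le_one_left' (v_ofNat_le_one v 4)) (hpow le_rfl).le
      · rw [v.map_mul, v.map_pow]
        exact le_trans (mul_le_of_le_one_left' hb2) (hpow (by norm_num)).le
      · rw [v.map_mul, v.map_mul, v.map_pow]
        exact le_trans (mul_le_of_le_one_left' (mul_le_one' (v_ofNat_le_one v 2) hb4))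
          (hpow (by norm_num)).le
      · rw [v.map_mul, v.map_pow]
        exact le_trans (mul_le_of_le_one_left' hb6) (hpow (by norm_num)).le
    rw [hphi, max_eq_right hpsi]

/-- **Local duplication law**: `r ψ₂²(x) = Φ₂(x) ⊢ Λ r · v (ψ₂²(x)) = (Λ x)⁴`. -/
theorem ldl {x r : F} (h : r * psi2sq W x = phi2 W x) :
    lam v r * v (psi2sq W x) = lam v x ^ 4 := by
  rw [lam, max_mul', one_mul, ← v.map_mul, h]
  exact max_psi_phi hW x

end lower

end Fermat.Agent.Lib.EllFinite.H28
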